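import Mathlib

/-!
# Values of algebraically related functions

If `U` and `V` satisfy a rational equation near `s` and no rational polynomial in `U` vanishes
there identically, an algebraic `U s` makes `V s` algebraic of bounded degree; at a pole of `V` the
value `U s` is algebraic.
-/

set_option autoImplicit false

noncomputable section

namespace FA.ModularParametrization

open Filter Polynomial IntermediateField
open scoped Topology

variable {U V : ℂ → ℂ} {s : ℂ} {d : ℕ}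

/-- The equation can be divided until it is non-trivial at `U s`. -/
theorem exists_relation_ne_zero (hU : IsAlgebraic ℚ (U s))
    (hne : ∀ μ : ℚ[X], μ ≠ 0 → ∀ᶠ z in 𝓝[≠] s, aeval (U z) μ ≠ 0) {P : Fin (d + 1) → ℚ[X]}
    (hP : P ≠ 0) (hrel : ∀ᶠ z in 𝓝[≠] s, ∑ i, aeval (U z) (P i) * V z ^ (i : ℕ) = 0) :
    ∃ Q : Fin (d + 1) → ℚ[X], (∃ i, aeval (U s) (Q i) ≠ 0) ∧
      ∀ᶠ z in 𝓝[≠] s, ∑ i, aeval (U z) (Q i) * V z ^ (i : ℕ) = 0 := by
  classical
  set μ := minpoly ℚ (U s)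
  have hμ : μ ≠ 0 := minpoly.ne_zero hU.isIntegral
  generalize hn : ∑ i, (P i).natDegree = n
  induction n using Nat.strong_induction_on generalizing P with
  | _ n ih =>
    by_cases hz : ∃ i, aeval (U s) (P i) ≠ 0
    · exact ⟨P, hz, hrel⟩
    push Not at hz
    choose Q hQ using fun i => minpoly.dvd ℚ (U s) (hz i)
    have hQ0 : Q ≠ 0 := fun e => hP (funext fun i => by rw [hQ i, e]; simp)
    refine ih (∑ i, (Q i).natDegree) ?_ hQ0 ?_ rfl
    · obtain ⟨i₀, hi₀⟩ := Function.ne_iff.mp hQ0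
      have hpos : 0 < μ.natDegree := minpoly.natDegree_pos hU.isIntegral
      rw [← hn]
      refine Finset.sum_lt_sum (fun i _ => ?_) ⟨i₀, Finset.mem_univ _, ?_⟩
      · rcases eq_or_ne (Q i) 0 with h | h
        · simp [h]
        · rw [hQ i, natDegree_mul hμ h]; omega
      · rw [hQ i₀, natDegree_mul hμ hi₀]; omega
    · filter_upwards [hrel, hne μ hμ] with z hz' hμz
      refine (mul_eq_zero.mp ?_).resolve_left hμz
      rw [← hz', Finset.mul_sum]
      exact Finset.sum_congr rfl fun i _ => by rw [hQ i, map_mul, mul_assoc]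

/-- **The value of `V` is algebraic**, of degree at most `d` times that of `U`. -/
theorem isAlgebraic_of_relation {P : Fin (d + 1) → ℚ[X]} (hP : P ≠ 0) (hUc : ContinuousAt U s)
    (hVc : ContinuousAt V s) (hU : IsAlgebraic ℚ (U s))
    (hne : ∀ μ : ℚ[X], μ ≠ 0 → ∀ᶠ z in 𝓝[≠] s, aeval (U z) μ ≠ 0)
    (hrel : ∀ᶠ z in 𝓝[≠] s, ∑ i, aeval (U z) (P i) * V z ^ (i : ℕ) = 0) :
    IsAlgebraic ℚ (V s) ∧
      (minpoly ℚ (V s)).natDegree ≤ d * (minpoly ℚ (U s)).natDegree := by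
  classical
  obtain ⟨Q, ⟨i₀, hi₀⟩, hQ⟩ := exists_relation_ne_zero hU hne hP hrel
  have hs : ∑ i, aeval (U s) (Q i) * V s ^ (i : ℕ) = 0 := by
    refine tendsto_nhds_unique (l := 𝓝[≠] s) ?_
      (tendsto_const_nhds.congr' (hQ.mono fun z h => h.symm))
    exact (tendsto_finsetSum _ fun i _ => (((Q i).continuous_aeval.tendsto _).comp hUc).mul
      (hVc.tendsto.pow _)).mono_left nhdsWithin_le_nhds
  have hmem : ∀ i, aeval (U s) (Q i) ∈ ℚ⟮U s⟯ := fun i => by
    rw [aeval_eq_sum_range]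
    exact sum_mem fun n _ => IntermediateField.smul_mem _ (pow_mem (mem_adjoin_simple_self ℚ _) n)
  set R : Polynomial ℚ⟮U s⟯ := ∑ i : Fin (d + 1), monomial (i : ℕ) ⟨_, hmem i⟩
  have hR0 : R ≠ 0 := fun e => hi₀ (by
    have h1 := congrArg (fun p : Polynomial ℚ⟮U s⟯ => ((p.coeff (i₀ : ℕ) : ℚ⟮U s⟯) : ℂ)) e
    simpa [R, finsetSum_coeff, coeff_monomial, Fin.val_inj] using h1)
  have hRd : R.natDegree ≤ d := natDegree_sum_le_of_forall_le _ _ fun i _ =>
    (natDegree_monomial_le _).trans i.is_le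
  have hRV : aeval (V s) R = 0 := by
    simp only [R, map_sum, aeval_monomial]
    exact hs
  have hint : IsIntegral ℚ⟮U s⟯ (V s) := (IsAlgebraic.isIntegral ⟨R, hR0, hRV⟩)
  have : FiniteDimensional ℚ ℚ⟮U s⟯ := adjoin.finiteDimensional hU.isIntegral
  have : FiniteDimensional ℚ⟮U s⟯ ℚ⟮U s⟯⟮V s⟯ := adjoin.finiteDimensional hint
  have : FiniteDimensional ℚ ℚ⟮U s⟯⟮V s⟯ := Module.Finite.trans ℚ⟮U s⟯ _
  set g : ℚ⟮U s⟯⟮V s⟯ := ⟨V s, mem_adjoin_simple_self _ _⟩
  have hg : minpoly ℚ g = minpoly ℚ (V s) :=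
    (minpoly.algebraMap_eq (A := ℚ) (B := ℚ⟮U s⟯⟮V s⟯) (B' := ℂ) Subtype.val_injective g).symm
  refine ⟨((IsAlgebraic.of_finite ℚ g).algebraMap (A := ℂ)), ?_⟩
  rw [← hg]
  refine (minpoly.natDegree_le g).trans ?_
  rw [← Module.finrank_mul_finrank ℚ ℚ⟮U s⟯, adjoin.finrank hU.isIntegral, adjoin.finrank hint,
    mul_comm]
  exact Nat.mul_le_mul_right _
    ((natDegree_le_natDegree (minpoly.degree_le_of_ne_zero _ _ hR0 hRV)).trans hRd)

/-- **At a pole of `V` the value of `U` is algebraic.** -/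
theorem isAlgebraic_of_relation_pole {Y : ℂ → ℂ} {P : Fin (d + 1) → ℚ[X]} (hP : P ≠ 0)
    (hUc : ContinuousAt U s) (hYc : ContinuousAt Y s) (hY0 : Y s = 0)
    (hY : ∀ᶠ z in 𝓝[≠] s, Y z ≠ 0)
    (hrel : ∀ᶠ z in 𝓝[≠] s, ∑ i, aeval (U z) (P i) * (Y z)⁻¹ ^ (i : ℕ) = 0) :
    IsAlgebraic ℚ (U s) := by
  classical
  obtain ⟨i₀, hi₀⟩ := Function.ne_iff.mp hP
  obtain ⟨e, he, hmax⟩ := (Finset.univ.filter fun i => P i ≠ 0).exists_max_image id
    ⟨i₀, Finset.mem_filter.mpr ⟨Finset.mem_univ _, hi₀⟩⟩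
  simp only [Finset.mem_filter, Finset.mem_univ, true_and, id] at he hmax
  refine ⟨P e, he, ?_⟩
  have hlim : Tendsto (fun z => ∑ i ∈ Finset.univ.filter (fun i => i ≤ e),
      aeval (U z) (P i) * Y z ^ ((e : ℕ) - (i : ℕ))) (𝓝[≠] s) (𝓝 (aeval (U s) (P e))) := by
    have h1 : Tendsto (fun z => ∑ i ∈ Finset.univ.filter (fun i => i ≤ e),
        aeval (U z) (P i) * Y z ^ ((e : ℕ) - (i : ℕ))) (𝓝 s)
        (𝓝 (∑ i ∈ Finset.univ.filter (fun i => i ≤ e),
          aeval (U s) (P i) * Y s ^ ((e : ℕ) - (i : ℕ)))) :=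
      tendsto_finsetSum _ fun i _ => (((P i).continuous_aeval.tendsto _).comp hUc).mul
        (hYc.tendsto.pow _)
    rw [Finset.sum_eq_single e (fun i hi hie => ?_) (by simp), Nat.sub_self, pow_zero,
      mul_one] at h1
    · exact h1.mono_left nhdsWithin_le_nhds
    · have hlt : (i : ℕ) < e := lt_of_le_of_ne (Finset.mem_filter.mp hi).2 fun h => hie (Fin.ext h)
      rw [hY0, zero_pow (by omega), mul_zero]
  refine tendsto_nhds_unique hlim (tendsto_const_nhds.congr' ?_)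
  filter_upwards [hrel, hY] with z hz hYz
  have h2 := congrArg (· * Y z ^ (e : ℕ)) hz
  simp only [zero_mul, Finset.sum_mul] at h2
  rw [← h2]
  refine (Finset.sum_subset (Finset.filter_subset _ _) fun i _ hi => ?_).symm.trans
    (Finset.sum_congr rfl fun i hi => ?_)
  · have : P i = 0 := by_contra fun h => hi (Finset.mem_filter.mpr ⟨Finset.mem_univ _, hmax i h⟩)
    simp [this]
  · have hle : (i : ℕ) ≤ e := (Finset.mem_filter.mp hi).2
    rw [mul_assoc, inv_pow, ← pow_sub₀ (Y z) hYz hle |>.trans (mul_comm _ _)]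

end FA.ModularParametrization

end
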