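import Fermat.Agent.ModularParametrization.Congruence
import Fermat.Agent.ModularParametrization.AlgebraicRelation
import Fermat.Agent.Transcendence.SchneiderJ

/-!
# Algebraic points of the parametrisation

With `℘(Φ) = h / G` for forms with rational expansions, enough products
`G ^ a h ^ b E₄ ^ (3 i) Δ ^ j` of one weight satisfy a rational linear relation, so `℘(Φ)`
and `j` satisfy a rational polynomial equation. After division by the minimal polynomial of
`j(τ)` it shows `℘(Φ(τ))` algebraic; with the two functions exchanged, and at the poles by the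
leading coefficient, it shows conversely that an algebraic point needs an algebraic `j(τ)`.
-/

set_option autoImplicit false

noncomputable section

namespace FA.ModularParametrization

open UpperHalfPlane hiding I
open CongruenceSubgroup Filter FA.Period FA.PeriodLattice
open scoped Manifold PowerSeries Topology Polynomial

variable {N : ℕ} [NeZero N] {f : CuspForm (Gamma0 N) 2}

omit [NeZero N] in
theorem mul_mem_cuspForms_left {k w : ℤ} {F G : ℍ → ℂ} (hF : F ∈ cuspForms N k)
    (hG : G ∈ forms N w) : F * G ∈ cuspForms N (k + w) := by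
  refine ⟨mul_mem_forms hF.1 hG, fun γ => ?_⟩
  rw [ModularForm.mul_slash_SL2]
  have h1 := Asymptotics.IsLittleO.mul_isBigO
    ((Asymptotics.isLittleO_one_iff ℝ).mpr (hF.2 γ)) (hG.2.2 γ)
  simp only [Pi.one_apply, mul_one] at h1
  exact (Asymptotics.isLittleO_one_iff ℝ).mp h1

theorem exists_rat_series {φ : ℂ⟦X⟧} (h : BddDenom φ) :
    ∃ ψ : ℚ⟦X⟧, PowerSeries.map (algebraMap ℚ ℂ) ψ = φ := by
  obtain ⟨D, hD, ψ, hψ⟩ := h
  refine ⟨PowerSeries.mk fun n => ((PowerSeries.coeff n ψ : ℤ) : ℚ) / D, ?_⟩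
  ext n
  have h1 := congrArg (PowerSeries.coeff n) hψ
  simp only [PowerSeries.coeff_smul, PowerSeries.coeff_map, eq_intCast, smul_eq_mul] at h1
  rw [PowerSeries.coeff_map, PowerSeries.coeff_mk, eq_ratCast]
  push_cast
  rw [← h1, mul_div_cancel_left₀ _ (Nat.cast_ne_zero.mpr hD)]

/-- **The quotient of two rational forms and `j` satisfy a rational equation.** -/
theorem exists_forms_relation {k : ℤ} (G h : CuspForm (Gamma0 N) k)
    (hGr : ∀ n, ∃ r : ℚ, (qExp ⇑G).coeff n = r) (hhr : ∀ n, ∃ r : ℚ, (qExp ⇑h).coeff n = r) :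
    ∃ P : Fin ((Gamma0 N).index + 1) → ℚ[X], P ≠ 0 ∧ ∀ (σ : ℍ) (x : ℂ), G σ ≠ 0 → h σ = G σ * x →
      ∑ i, Polynomial.aeval (FA.ModField.jfun σ) (P i) * x ^ (i : ℕ) = 0 := by
  set d := (Gamma0 N).index
  have hd : 0 < d := Nat.pos_of_ne_zero Subgroup.FiniteIndex.index_ne_zero
  set K := ((d + 1 : ℕ) * k : ℤ).toNat
  set m := K * d
  set W : ℤ := (d + 1 : ℕ) * k + 12 * m
  set B := (W * d).toNat / 12 + 1
  have hB : B < (d + 1) * (m + 1) := by
    have hW : W * d ≤ ((K + 12 * m) * d : ℕ) := by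
      push_cast
      refine mul_le_mul_of_nonneg_right ?_ (by positivity)
      have := Int.self_le_toNat ((d + 1 : ℕ) * k)
      simp only [W, K]
      omega
    have h1 : (W * d).toNat ≤ (K + 12 * m) * d := Int.toNat_le.mpr hW
    have h2 : (W * d).toNat / 12 ≤ K * d + m * d := Nat.div_le_of_le_mul (by nlinarith)
    have h3 : (d + 1) * (m + 1) = m * d + m + d + 1 := by ring
    simp only [B]
    omega
  -- the monomials
  let mon : Fin (d + 1) × Fin (m + 1) → ℍ → ℂ := fun q =>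
    ⇑G * (⇑G ^ (d - (q.1 : ℕ)) * ⇑h ^ (q.1 : ℕ) *
      ((⇑ModularForm.E₄ ^ 3) ^ (q.2 : ℕ) * ModularForm.discriminant ^ (m - (q.2 : ℕ))))
  have hE : (⇑ModularForm.E₄ ^ 3 : ℍ → ℂ) ∈ forms N 12 := by
    simpa using pow_mem_forms (forms_one_le N 4 (coe_mem_forms_one ModularForm.E₄)) 3
  have hΔ : ModularForm.discriminant ∈ forms N 12 := forms_one_le N 12 coe_discriminant_mem_forms
  have hmem : ∀ q, mon q ∈ cuspForms N W := fun q => by
    have h1 := mul_mem_cuspForms_left (coe_mem_cuspForms G)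
      (mul_mem_forms (mul_mem_forms (pow_mem_forms (coe_mem_cuspForms G).1 (d - (q.1 : ℕ)))
        (pow_mem_forms (coe_mem_cuspForms h).1 (q.1 : ℕ)))
        (mul_mem_forms (pow_mem_forms hE (q.2 : ℕ)) (pow_mem_forms hΔ (m - (q.2 : ℕ)))))
    convert h1 using 2
    have e1 : (((d - (q.1 : ℕ) : ℕ) : ℤ)) = d - (q.1 : ℕ) := Nat.cast_sub q.1.is_le
    have e2 : (((m - (q.2 : ℕ) : ℕ) : ℤ)) = m - (q.2 : ℕ) := Nat.cast_sub q.2.is_le
    simp only [W, e1, e2]
    push_cast
    ring
  obtain ⟨g₁, hg₁⟩ := exists_rat_series (φ := qExp ⇑G)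
    (bddDenom_of_rational (coe_mem_cuspForms G) hGr)
  obtain ⟨h₁, hh₁⟩ := exists_rat_series (φ := qExp ⇑h)
    (bddDenom_of_rational (coe_mem_cuspForms h) hhr)
  obtain ⟨e₁, he₁⟩ := exists_rat_series bddDenom_E₄
  obtain ⟨δ₁, hδ₁⟩ := exists_rat_series bddDenom_discriminant
  let ser : Fin (d + 1) × Fin (m + 1) → ℚ⟦X⟧ := fun q =>
    g₁ * (g₁ ^ (d - (q.1 : ℕ)) * h₁ ^ (q.1 : ℕ) *
      ((e₁ ^ 3) ^ (q.2 : ℕ) * δ₁ ^ (m - (q.2 : ℕ))))
  have hser : ∀ q, qExp (mon q) = PowerSeries.map (algebraMap ℚ ℂ) (ser q) := fun q => by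
    have hG' := isQFun_of_mem (coe_mem_cuspForms G).1
    have hh' := isQFun_of_mem (coe_mem_cuspForms h).1
    have hE' := isQFun_of_mem (coe_mem_forms_one ModularForm.E₄)
    have hΔ' := isQFun_of_mem hΔ
    simp only [mon, ser]
    rw [hG'.qExp_mul (((hG'.pow _).mul (hh'.pow _)).mul (((hE'.pow _).pow _).mul (hΔ'.pow _))),
      ((hG'.pow _).mul (hh'.pow _)).qExp_mul (((hE'.pow _).pow _).mul (hΔ'.pow _)),
      (hG'.pow _).qExp_mul (hh'.pow _), ((hE'.pow _).pow _).qExp_mul (hΔ'.pow _), hG'.qExp_pow,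
      hh'.qExp_pow, (hE'.pow _).qExp_pow, hE'.qExp_pow, hΔ'.qExp_pow, ← hg₁, ← hh₁, ← he₁, ← hδ₁]
    simp only [map_mul, map_pow]
  -- a rational relation
  let T : (Fin (d + 1) × Fin (m + 1) → ℚ) →ₗ[ℚ] (Fin B → ℚ) :=
    Fintype.linearCombination ℚ fun q n => PowerSeries.coeff (n : ℕ) (ser q)
  obtain ⟨c, hc, hc0⟩ := Submodule.exists_mem_ne_zero_of_ne_bot
    (LinearMap.ker_ne_bot_of_finrank_lt (f := T) (by simp; linarith))
  rw [LinearMap.mem_ker] at hc
  set F : CuspForm (Gamma0 N) W := toCuspForm' (∑ q, (c q : ℂ) • mon q)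
    (sum_mem fun q _ => Submodule.smul_mem _ _ (hmem q))
  have hqm : ∀ q ∈ (Finset.univ : Finset _), IsQFun ((c q : ℂ) • mon q) := fun q _ =>
    (isQFun_of_mem (hmem q).1).smul _
  have hF : F = 0 := cuspForm_eq_zero_of_coeff N W F fun n hn => by
    rw [Finset.mem_range] at hn
    show (qExp (∑ q, (c q : ℂ) • mon q)).coeff n = 0
    rw [IsQFun.qExp_sum hqm, map_sum]
    have h1 := congrArg (algebraMap ℚ ℂ) (congrFun hc ⟨n, hn⟩)
    simp only [T, Fintype.linearCombination_apply, Finset.sum_apply, Pi.smul_apply, smul_eq_mul,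
      Pi.zero_apply, map_zero, map_sum, map_mul, eq_ratCast] at h1
    rw [← h1]
    refine Finset.sum_congr rfl fun q _ => ?_
    rw [(isQFun_of_mem (hmem q).1).qExp_smul, PowerSeries.coeff_smul, hser, PowerSeries.coeff_map,
      smul_eq_mul, eq_ratCast]
  let P : Fin (d + 1) → ℚ[X] := fun i => ∑ e : Fin (m + 1), Polynomial.monomial (e : ℕ) (c (i, e))
  have hP : P ≠ 0 := fun hz => hc0 (funext fun q => by
    have h1 := congrArg (fun p : ℚ[X] => p.coeff (q.2 : ℕ)) (congrFun hz q.1)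
    simp only [P, Polynomial.finsetSum_coeff, Polynomial.coeff_monomial, Pi.zero_apply,
      Polynomial.coeff_zero, Fin.val_inj] at h1
    simpa using h1)
  refine ⟨P, hP, fun σ x hσ hx => ?_⟩
  suffices hpt : G σ ^ (d + 1) * ModularForm.discriminant σ ^ m *
      ∑ i, Polynomial.aeval (FA.ModField.jfun σ) (P i) * x ^ (i : ℕ) = 0 from
    (mul_eq_zero.mp hpt).resolve_left
      (mul_ne_zero (pow_ne_zero _ hσ) (pow_ne_zero _ (ModularForm.discriminant_ne_zero σ)))
  have h0 : ∑ q, (c q : ℂ) * mon q σ = 0 := by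
    have h1 : (∑ q, (c q : ℂ) • mon q) σ = 0 := DFunLike.congr_fun hF σ
    simpa [Finset.sum_apply] using h1
  rw [← h0, Fintype.sum_prod_type, Finset.mul_sum]
  refine Finset.sum_congr rfl fun i _ => ?_
  simp only [P, map_sum, Polynomial.aeval_monomial, Finset.sum_mul, Finset.mul_sum]
  refine Finset.sum_congr rfl fun e _ => ?_
  simp only [mon, Pi.mul_apply, Pi.pow_apply, hx, eq_ratCast, FA.ModField.jfun]
  have hne := ModularForm.discriminant_ne_zero σ
  have hm : ModularForm.discriminant σ ^ m =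
      ModularForm.discriminant σ ^ (e : ℕ) * ModularForm.discriminant σ ^ (m - (e : ℕ)) := by
    rw [← pow_add, Nat.add_sub_cancel' e.is_le]
  have hg : G σ ^ (d + 1) = G σ * (G σ ^ (i : ℕ) * G σ ^ (d - (i : ℕ))) := by
    rw [← pow_add, Nat.add_sub_cancel' i.is_le, pow_succ']
  rw [hm, hg, mul_pow, div_pow]
  field_simp

/-- **`℘(Φ)` and `j` satisfy a rational equation.** -/
theorem exists_relation (hf : f.IsNormalizedEigenform) {a : ℕ → ℤ}
    (ha : ∀ n, ModularFormClass.qCoeff f n = (a n : ℂ)) {L : PeriodPair}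
    (hL : IsScaledPeriods f L) :
    ∃ P : Fin ((Gamma0 N).index + 1) → ℚ[X], P ≠ 0 ∧ ∀ τ : ℍ, sPrim f τ ∉ L.lattice →
      ∑ i, Polynomial.aeval (FA.ModField.jfun τ) (P i) *
        L.weierstrassP (sPrim f τ) ^ (i : ℕ) = 0 := by
  obtain ⟨k, G, h, -, -, -, hGr, hhr, hG0, -, hGh⟩ := exists_rational_quotient hf ha hL
  obtain ⟨P, hP, hrel⟩ := exists_forms_relation G h hGr hhr
  refine ⟨P, hP, fun τ hτ => ?_⟩
  set R := fun σ : ℍ => ∑ i, Polynomial.aeval (FA.ModField.jfun σ) (P i) *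
    L.weierstrassP (sPrim f σ) ^ (i : ℕ)
  have hG : (⇑G : ℍ → ℂ) ≠ 0 := fun e => hG0 (by
    rwa [(isQFun_of_mem (coe_mem_cuspForms G).1).qExp_eq_zero_iff])
  refine eq_zero_of_mul_eq_zero (A := ⇑G) (B := R) (CuspFormClass.holo G) hG ?_ ?_
  · refine tendsto_finsetSum _ fun i _ => ?_
    refine Tendsto.mul ?_ (Tendsto.pow ?_ _)
    · exact ((P i).continuous_aeval.tendsto _).comp
        ((UpperHalfPlane.mdifferentiable_iff.mp FA.ModField.mdiff_jfun).differentiableAt
          (isOpen_upperHalfPlaneSet.mem_nhds τ.im_pos)).continuousAt.tendsto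
    · exact ((FA.Mazur.Wp.analyticAt_wp L (by simpa using hτ)).continuousAt.comp_of_eq
        (analyticAt_sPrim τ.im_pos).continuousAt rfl).tendsto
  · have hev : ∀ᶠ z in 𝓝 (τ : ℂ), sPrim f (ofComplex z) ∉ L.lattice :=
      (analyticAt_sPrim (f := f) τ.im_pos).continuousAt.tendsto.eventually
        (L.isClosed_lattice.isOpen_compl.mem_nhds (by simpa using hτ))
    filter_upwards [hev] with z hz
    rcases eq_or_ne (G (ofComplex z)) 0 with hz0 | hz0
    · rw [hz0, zero_mul]
    · exact mul_eq_zero_of_right _ (hrel _ _ hz0 (hGh _ hz))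

/-- A polynomial over `ℚ` composed with `j` is identically zero only if it is zero. -/
theorem aeval_jfun_ne_zero {μ : ℚ[X]} (hμ : μ ≠ 0) :
    (fun τ : ℍ => Polynomial.aeval (FA.ModField.jfun τ) μ) ≠ 0 := fun h => by
  set R := (μ.map (algebraMap ℚ ℂ)).roots.toFinset
  have hR : ∀ τ, FA.ModField.jfun τ ∈ R := fun τ => by
    rw [Multiset.mem_toFinset, Polynomial.mem_roots (Polynomial.map_ne_zero hμ),
      Polynomial.IsRoot, Polynomial.eval_map, ← Polynomial.aeval_def]
    exact congrFun h τ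
  set F := fun τ : ℍ => ∏ r ∈ R, (FA.ModField.jfun τ - r)
  have key : ∀ S : Finset ℂ, (fun τ : ℍ => ∏ r ∈ S, (FA.ModField.jfun τ - r)) ≠ 0 := by
    intro S
    induction S using Finset.induction_on with
    | empty => exact fun e => one_ne_zero (α := ℂ) (by simpa using congrFun e UpperHalfPlane.I)
    | @insert r S hr ih =>
      intro e
      refine FA.ModField.jfun_ne_const r (funext fun τ => ?_)
      refine eq_zero_of_mul_eq_zero (A := fun σ : ℍ => ∏ r ∈ S, (FA.ModField.jfun σ - r))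
        (B := fun σ => FA.ModField.jfun σ - r) ?_ ih ?_ (Eventually.of_forall fun z => ?_)
      · rw [UpperHalfPlane.mdifferentiable_iff]
        exact DifferentiableOn.fun_finsetProd fun s _ =>
          (UpperHalfPlane.mdifferentiable_iff.mp FA.ModField.mdiff_jfun).sub_const s
      · exact (((UpperHalfPlane.mdifferentiable_iff.mp FA.ModField.mdiff_jfun).differentiableAt
          (isOpen_upperHalfPlaneSet.mem_nhds τ.im_pos)).sub_const r).continuousAt
      · have h1 := congrFun e (ofComplex z)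
        simp only [Finset.prod_insert hr, Pi.zero_apply] at h1
        linear_combination h1
  exact key R (funext fun τ => Finset.prod_eq_zero (hR τ) (sub_self _))

theorem analyticAt_jfun (τ : ℍ) : AnalyticAt ℂ (FA.ModField.jfun ∘ ofComplex) (τ : ℂ) :=
  (UpperHalfPlane.mdifferentiable_iff.mp FA.ModField.mdiff_jfun).analyticAt
    (isOpen_upperHalfPlaneSet.mem_nhds τ.im_pos)

/-- No rational polynomial in `j` vanishes identically near a point. -/
theorem eventually_aeval_jfun_ne_zero (τ : ℍ) {μ : ℚ[X]} (hμ : μ ≠ 0) :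
    ∀ᶠ z in 𝓝[≠] (τ : ℂ), Polynomial.aeval (FA.ModField.jfun (ofComplex z)) μ ≠ 0 := by
  have hA : AnalyticOnNhd ℂ (fun z => Polynomial.aeval (FA.ModField.jfun (ofComplex z)) μ)
      {z : ℂ | 0 < z.im} := fun z hz =>
    (μ.differentiable_aeval.analyticAt _).comp (analyticAt_jfun ⟨z, hz⟩)
  refine (hA _ τ.im_pos).eventually_eq_zero_or_eventually_ne_zero.resolve_left fun h => ?_
  refine aeval_jfun_ne_zero hμ (funext fun σ => ?_)
  simpa using hA.eqOn_of_preconnected_of_eventuallyEq (g := fun _ => (0 : ℂ)) analyticOnNhd_const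
    (convex_halfSpace_im_gt 0).isPreconnected τ.im_pos h (x := (σ : ℂ)) σ.im_pos

/-- The primitive is constant near no point. -/
theorem not_eventually_const_sPrim (hf : f ≠ 0) (τ : ℍ) (c : ℂ) :
    ¬ ∀ᶠ z in 𝓝 (τ : ℂ), sPrim f (ofComplex z) = c := fun h => by
  have hU : AnalyticOnNhd ℂ (sPrim f ∘ ofComplex) {z : ℂ | 0 < z.im} :=
    fun z hz => analyticAt_sPrim hz
  have hconst := hU.eqOn_of_preconnected_of_eventuallyEq (g := fun _ => c)
    analyticOnNhd_const (convex_halfSpace_im_gt 0).isPreconnected τ.im_pos h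
  refine hf (DFunLike.coe_injective ((FA.ManinDrinfeld.isPrimitive_prim f).eq_zero_of_const
    (c := c / FA.Mazur.Wp.tpi) fun σ => ?_))
  have h1 := hconst (x := (σ : ℂ)) σ.im_pos
  simp only [Function.comp_apply, ofComplex_apply, sPrim] at h1
  rw [← h1, mul_div_cancel_left₀ _ FA.Mazur.Wp.tpi_ne_zero]

/-- No rational polynomial in `℘(Φ)` vanishes identically near a point. -/
theorem eventually_aeval_wp_ne_zero (hf : f ≠ 0) (L : PeriodPair) {τ : ℍ}
    (hτ : sPrim f τ ∉ L.lattice) {μ : ℚ[X]} (hμ : μ ≠ 0) :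
    ∀ᶠ z in 𝓝[≠] (τ : ℂ),
      Polynomial.aeval (L.weierstrassP (sPrim f (ofComplex z))) μ ≠ 0 := by
  have hΦ : AnalyticAt ℂ (sPrim f ∘ ofComplex) (τ : ℂ) := analyticAt_sPrim τ.im_pos
  have hA : AnalyticOnNhd ℂ (fun y => Polynomial.aeval (L.weierstrassP y) μ)
      (L.lattice : Set ℂ)ᶜ := fun y hy =>
    (μ.differentiable_aeval.analyticAt _).comp (FA.Mazur.Wp.analyticAt_wp L hy)
  have hτ' : (sPrim f ∘ ofComplex) (τ : ℂ) ∈ (L.lattice : Set ℂ)ᶜ := by simpa using hτ
  have hcomp : AnalyticAt ℂ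
      (fun z => Polynomial.aeval (L.weierstrassP ((sPrim f ∘ ofComplex) z)) μ) (τ : ℂ) :=
    (hA _ hτ').comp hΦ
  refine hcomp.eventually_eq_zero_or_eventually_ne_zero.resolve_left fun h => ?_
  rcases hΦ.eventually_constant_or_nhds_le_map_nhds with hc | hopen
  · exact not_eventually_const_sPrim hf τ _ hc
  · have h0 : ∀ᶠ y in 𝓝 ((sPrim f ∘ ofComplex) (τ : ℂ)),
        Polynomial.aeval (L.weierstrassP y) μ = 0 := hopen h
    have hall := hA.eqOn_of_preconnected_of_eventuallyEq (g := fun _ => (0 : ℂ)) analyticOnNhd_const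
      (FA.Mazur.Wp.isPreconnected_compl_countable (FA.Mazur.Weier.countable_lattice L)) hτ' h0
    refine FA.SchneiderLang.infinite_image_weierstrassP L (FA.Mazur.Weier.countable_lattice L)
      le_rfl ((μ.map (algebraMap ℚ ℂ)).roots.toFinset.finite_toSet.subset ?_)
    rintro _ ⟨y, hy, rfl⟩
    rw [Finset.mem_coe, Multiset.mem_toFinset, Polynomial.mem_roots (Polynomial.map_ne_zero hμ),
      Polynomial.IsRoot, Polynomial.eval_map, ← Polynomial.aeval_def]
    exact hall hy

/-- The equation between `℘(Φ)` and `j` near a point. -/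
theorem eventually_relation {L : PeriodPair} {d : ℕ} {P : Fin (d + 1) → ℚ[X]}
    (h : ∀ σ : ℍ, sPrim f σ ∉ L.lattice → ∑ i, Polynomial.aeval (FA.ModField.jfun σ) (P i) *
      L.weierstrassP (sPrim f σ) ^ (i : ℕ) = 0)
    {τ : ℍ} (hτ : sPrim f τ ∉ L.lattice) :
    ∀ᶠ z in 𝓝[≠] (τ : ℂ), ∑ i, Polynomial.aeval (FA.ModField.jfun (ofComplex z)) (P i) *
      L.weierstrassP (sPrim f (ofComplex z)) ^ (i : ℕ) = 0 := by
  have hev : ∀ᶠ z in 𝓝 (τ : ℂ), sPrim f (ofComplex z) ∉ L.lattice :=
    (analyticAt_sPrim (f := f) τ.im_pos).continuousAt.tendsto.eventually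
      (L.isClosed_lattice.isOpen_compl.mem_nhds (by simpa using hτ))
  exact (hev.mono fun z hz => h _ hz).filter_mono nhdsWithin_le_nhds

theorem continuousAt_wp_sPrim {L : PeriodPair} {τ : ℍ} (hτ : sPrim f τ ∉ L.lattice) :
    ContinuousAt (fun z => L.weierstrassP (sPrim f (ofComplex z))) (τ : ℂ) :=
  (FA.Mazur.Wp.analyticAt_wp L (by simpa using hτ)).continuousAt.comp_of_eq
    (analyticAt_sPrim (f := f) τ.im_pos).continuousAt rfl

/-- **The points of the parametrisation above algebraic `j` are algebraic**, of degree at most the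
index of `Γ₀(N)` times that of `j`. -/
theorem isAlgebraic_wp (hf : f.IsNormalizedEigenform) {a : ℕ → ℤ}
    (ha : ∀ n, ModularFormClass.qCoeff f n = (a n : ℂ)) {L : PeriodPair}
    (hL : IsScaledPeriods f L) {τ : ℍ} (hj : IsAlgebraic ℚ (FA.ModField.jfun τ))
    (hτ : sPrim f τ ∉ L.lattice) :
    IsAlgebraic ℚ (L.weierstrassP (sPrim f τ)) ∧
      (minpoly ℚ (L.weierstrassP (sPrim f τ))).natDegree ≤
        (Gamma0 N).index * (minpoly ℚ (FA.ModField.jfun τ)).natDegree := by
  obtain ⟨P, hP, hrel⟩ := exists_relation hf ha hL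
  have h1 := isAlgebraic_of_relation (U := fun z => FA.ModField.jfun (ofComplex z))
    (V := fun z => L.weierstrassP (sPrim f (ofComplex z))) (s := (τ : ℂ)) hP
    (analyticAt_jfun τ).continuousAt (continuousAt_wp_sPrim hτ) (by simpa using hj)
    (fun μ hμ => eventually_aeval_jfun_ne_zero τ hμ) (eventually_relation hrel hτ)
  simpa using h1

/-- **The converse**: an algebraic value of `℘(Φ)`, or a pole, makes `j` algebraic. -/
theorem isAlgebraic_jfun_of_wp (hf : f.IsNormalizedEigenform) {a : ℕ → ℤ}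
    (ha : ∀ n, ModularFormClass.qCoeff f n = (a n : ℂ)) {L : PeriodPair}
    (hL : IsScaledPeriods f L) {τ : ℍ}
    (h : sPrim f τ ∈ L.lattice ∨ IsAlgebraic ℚ (L.weierstrassP (sPrim f τ))) :
    IsAlgebraic ℚ (FA.ModField.jfun τ) := by
  classical
  obtain ⟨P, hP, hrel⟩ := exists_relation hf ha hL
  by_cases hτ : sPrim f τ ∈ L.lattice
  · set D : ℂ → ℂ := fun z => sPrim f (ofComplex z) - sPrim f τ with hD
    have hDa : AnalyticAt ℂ D (τ : ℂ) := (analyticAt_sPrim τ.im_pos).sub analyticAt_const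
    have hD0 : D τ = 0 := by simp [hD]
    have hDne : ∀ᶠ z in 𝓝[≠] (τ : ℂ), D z ≠ 0 :=
      hDa.eventually_eq_zero_or_eventually_ne_zero.resolve_left fun h =>
        not_eventually_const_sPrim hf.ne_zero τ _ (h.mono fun z hz => sub_eq_zero.mp hz)
    set den : ℂ → ℂ := fun z => 1 + D z ^ 2 * L.weierstrassPExcept 0 (D z)
    have hden : ContinuousAt den (τ : ℂ) := continuousAt_const.add ((hDa.continuousAt.pow 2).mul
      ((L.analyticAt_weierstrassPExcept 0).continuousAt.comp_of_eq hDa.continuousAt hD0))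
    have hden0 : den τ ≠ 0 := by simp [den, hD0]
    have hY : ∀ᶠ z in 𝓝[≠] (τ : ℂ), D z ^ 2 / den z ≠ 0 :=
      (hDne.and ((hden.eventually_ne hden0).filter_mono nhdsWithin_le_nhds)).mono
        fun z hz => div_ne_zero (pow_ne_zero 2 hz.1) hz.2
    have hlim : Tendsto D (𝓝[≠] (τ : ℂ)) (𝓝[≠] 0) :=
      tendsto_nhdsWithin_iff.mpr
        ⟨hD0 ▸ hDa.continuousAt.tendsto.mono_left nhdsWithin_le_nhds, hDne⟩
    have h1 := isAlgebraic_of_relation_pole (U := fun z => FA.ModField.jfun (ofComplex z))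
      (Y := fun z => D z ^ 2 / den z) (s := (τ : ℂ)) hP (analyticAt_jfun τ).continuousAt
      ((hDa.continuousAt.pow 2).div hden hden0) (by simp [hD0]) hY ?_
    · simpa using h1
    filter_upwards [hlim.eventually (FA.Mazur.Wp.eventually_notMem_zero L), hDne]
      with z hz hz0
    have hmem : sPrim f (ofComplex z) ∉ L.lattice := fun hm => hz (by
      simpa [hD] using sub_mem hm hτ)
    rw [← hrel _ hmem]
    refine Finset.sum_congr rfl fun i _ => ?_
    congr 2
    rw [show sPrim f (ofComplex z) = D z + sPrim f τ by simp [hD],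
      weierstrassP_add_lattice hτ, FA.Mazur.Wp.wp_eq_except L (D z), inv_div]
    simp only [den]
    field_simp
    ring
  · have halg := h.resolve_left hτ
    -- exchange the roles of the two functions
    obtain ⟨M, hM⟩ : ∃ M, ∀ i, (P i).natDegree < M + 1 :=
      ⟨Finset.univ.sup fun i => (P i).natDegree, fun i =>
        Nat.lt_succ_of_le (Finset.le_sup (f := fun i => (P i).natDegree) (Finset.mem_univ i))⟩
    let P' : Fin (M + 1) → ℚ[X] := fun e => ∑ i : Fin ((Gamma0 N).index + 1),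
      Polynomial.monomial (i : ℕ) ((P i).coeff e)
    have hP' : P' ≠ 0 := fun e => hP (funext fun i => Polynomial.ext fun n => by
      rcases lt_or_ge n (M + 1) with hn | hn
      · have h1 := congrArg (fun p : ℚ[X] => p.coeff (i : ℕ)) (congrFun e ⟨n, hn⟩)
        simpa [P', Polynomial.finsetSum_coeff, Polynomial.coeff_monomial, Fin.val_inj] using h1
      · simp [Polynomial.coeff_eq_zero_of_natDegree_lt ((hM i).trans_le hn)])
    have h1 := isAlgebraic_of_relation (U := fun z => L.weierstrassP (sPrim f (ofComplex z)))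
      (V := fun z => FA.ModField.jfun (ofComplex z)) (s := (τ : ℂ)) hP'
      (continuousAt_wp_sPrim hτ) (analyticAt_jfun τ).continuousAt (by simpa using halg)
      (fun μ hμ => eventually_aeval_wp_ne_zero hf.ne_zero L hτ hμ) ?_
    · simpa using h1.1
    filter_upwards [eventually_relation hrel hτ] with z hz
    rw [← hz]
    simp only [P', map_sum, Polynomial.aeval_monomial, Finset.sum_mul]
    rw [Finset.sum_comm]
    refine Finset.sum_congr rfl fun i _ => ?_
    rw [Polynomial.aeval_eq_sum_range' (hM i), Finset.sum_mul, Finset.sum_range]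
    refine Finset.sum_congr rfl fun e _ => ?_
    rw [Algebra.smul_def]
    ring

end FA.ModularParametrization

end
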