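import Fermat.Agent.EC.TorsionCard
import Mathlib.FieldTheory.IsAlgClosed.AlgebraicClosure
import Fermat.Agent.Mazur.Wp.Group

/-!
# Torsion points of a complex curve with rational coefficients are algebraic

Over `ℂ` and over an algebraic closure of `ℚ` there are `n²` points killed by `n`, so every one
comes from the algebraic closure.
-/

set_option autoImplicit false

noncomputable section

namespace FA.ModularParametrization

open WeierstrassCurve FA.Mazur.Wp
open scoped WeierstrassCurve.Affine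

/-- Every `n`-torsion point over `ℂ` of a curve over `ℚ` has algebraic coordinates. -/
theorem isAlgebraic_of_nsmul_eq_zero (W : WeierstrassCurve ℚ) [W.IsElliptic] {n : ℕ} (hn : n ≠ 0)
    {x y : ℂ} (h : (W.toAffine⁄ℂ).Nonsingular x y)
    (h0 : n • Affine.Point.some x y h = 0) : IsAlgebraic ℚ x ∧ IsAlgebraic ℚ y := by
  classical
  have : Algebra.IsAlgebraic ℚ (AlgebraicClosure ℚ) := AlgebraicClosure.isAlgebraic ℚ
  let i : AlgebraicClosure ℚ →ₐ[ℚ] ℂ := IsAlgClosed.lift
  let Φ : {P : (W.toAffine⁄(AlgebraicClosure ℚ)).Point // n • P = 0} →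
      {P : (W.toAffine⁄ℂ).Point // n • P = 0} :=
    fun P => ⟨Affine.Point.map i P.1, by rw [← map_nsmul, P.2, map_zero]⟩
  have hinj : Function.Injective Φ := fun P Q e =>
    Subtype.ext ((Affine.Point.map_injective i) (congrArg Subtype.val e))
  have hC := FA.EC.natCard_nsmul_eq_zero (W.map (algebraMap ℚ ℂ)) (Nat.cast_ne_zero.mpr hn)
  have hK := FA.EC.natCard_nsmul_eq_zero (W.map (algebraMap ℚ (AlgebraicClosure ℚ)))
    (Nat.cast_ne_zero.mpr hn)
  have : Finite {P : (W.toAffine⁄ℂ).Point // n • P = 0} :=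
    Nat.finite_of_card_ne_zero (hC ▸ pow_ne_zero 2 hn)
  obtain ⟨⟨P, hP⟩, hPe⟩ := (hinj.bijective_of_nat_card_le (hC.trans hK.symm).le).2 ⟨_, h0⟩
  have hPe' := congrArg Subtype.val hPe
  rcases P with _ | ⟨u, v, huv⟩
  · exact absurd hPe'.symm (Affine.Point.some_ne_zero h)
  · simp only [Φ, Affine.Point.map_some, Affine.Point.some.injEq] at hPe'
    exact ⟨hPe'.1 ▸ (Algebra.IsAlgebraic.isAlgebraic u).algHom i,
      hPe'.2 ▸ (Algebra.IsAlgebraic.isAlgebraic v).algHom i⟩

/-- The same on the curve of a lattice. -/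
theorem isAlgebraic_of_torsion_latCurve (L : PeriodPair) [(latCurve L).IsElliptic]
    {W : WeierstrassCurve ℚ} (hW : latCurve L = W.map (algebraMap ℚ ℂ)) {n : ℕ} (hn : n ≠ 0)
    {x y : ℂ} (h : (latCurve L).toAffine.Nonsingular x y)
    (h0 : n • Affine.Point.some x y h = 0) : IsAlgebraic ℚ x ∧ IsAlgebraic ℚ y := by
  have : W.IsElliptic := ⟨isUnit_iff_ne_zero.mpr fun hz => (latCurve L).isUnit_Δ.ne_zero (by
    rw [hW, WeierstrassCurve.map_Δ, hz, map_zero])⟩
  revert h
  rw [hW]
  exact fun h h0 => isAlgebraic_of_nsmul_eq_zero W hn h h0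

end FA.ModularParametrization

end
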