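import Fermat.Agent.ManinDrinfeld.Cusps
import Fermat.Agent.PeriodLattice.RealPeriod
import Fermat.Agent.RealPoints.Density

/-!
# The analytic modular parametrisation of a rational eigenform

The periods of a normalised eigenform with integral coefficients are the lattice of an elliptic
curve with real invariants, and the primitive of the form is the parametrisation.
-/

set_option autoImplicit false

noncomputable section

namespace FA.ModularParametrization

open UpperHalfPlane hiding I
open Complex CongruenceSubgroup Filter ModularCurve FA.Period FA.ManinDrinfeld FA.PeriodLattice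
open FA.Mazur.Wp
open scoped MatrixGroups Topology ComplexConjugate

variable {N : ℕ} [NeZero N] {f : CuspForm (Gamma0 N) 2} {a : ℕ → ℤ}

/-- The periods are the lattice of a pair. -/
theorem exists_periodPair (hf : f.IsNormalizedEigenform)
    (ha : ∀ n, ModularFormClass.qCoeff f n = (a n : ℂ)) :
    ∃ L : PeriodPair, ∀ z : ℂ, z ∈ L.lattice ↔ z ∈ periods f := by
  obtain ⟨w₁, w₂, hind, hΛ⟩ := exists_lattice_basis hf ha
  refine ⟨⟨w₁, w₂, LinearIndependent.pair_iff.mpr fun s t h => hind s t ?_⟩, fun z => ?_⟩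
  · simpa [Complex.real_smul] using h
  · rw [hΛ, PeriodPair.mem_lattice, AddSubgroup.mem_closure_pair]
    simp only [zsmul_eq_mul]

/-- The invariants are real. -/
theorem conj_invariants (ha : ∀ n, ModularFormClass.qCoeff f n = (a n : ℂ)) {L : PeriodPair}
    (hL : ∀ z : ℂ, z ∈ L.lattice ↔ z ∈ periods f) : conj L.g₂ = L.g₂ ∧ conj L.g₃ = L.g₃ := by
  have e : (FA.RealPoints.conjPair L).lattice = L.lattice := by
    ext z
    rw [FA.RealPoints.mem_conjPair, hL, hL]
    refine ⟨fun h => ?_, fun h => conj_mem_periods ha h⟩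
    simpa using conj_mem_periods ha h
  obtain ⟨h2, h3⟩ := (FA.JInj.lattice_eq_iff _ _).mp e
  constructor
  · conv_rhs => rw [← h2]
    rw [PeriodPair.g₂, PeriodPair.g₂, map_mul, FA.RealPoints.G_conjPair, map_ofNat]
  · conv_rhs => rw [← h3]
    rw [PeriodPair.g₃, PeriodPair.g₃, map_mul, FA.RealPoints.G_conjPair, map_ofNat]

variable (L : PeriodPair) (hL : ∀ z : ℂ, z ∈ L.lattice ↔ z ∈ periods f)

include hL

/-- The parametrisation is invariant under `Γ₀(N)`. -/
theorem unif_prim_smul (γ : Gamma0 N) (τ : ℍ) :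
    unif L (prim f ((γ : SL(2, ℤ)) • τ)) = unif L (prim f τ) := by
  rw [unif_eq_unif_iff, hL, ← periodMap_apply f (isPrimitive_prim f) γ τ]
  exact ⟨_, rfl⟩

omit hL in
/-- The parametrisation is not constant. -/
theorem exists_unif_prim_ne (hf : f ≠ 0) :
    ∃ τ τ' : ℍ, unif L (prim f τ) ≠ unif L (prim f τ') := by
  by_contra hall
  push Not at hall
  refine hf ?_
  have hdisc : DiscreteTopology (L.lattice : Set ℂ) := inferInstanceAs (DiscreteTopology L.lattice)
  have hcont : Continuous fun τ : ℍ => prim f τ - prim f UpperHalfPlane.I :=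
    (isPrimitive_prim f).mdiff.continuous.sub continuous_const
  have hconst : ∀ τ, prim f τ = prim f UpperHalfPlane.I := fun τ => by
    have hmaps : Set.MapsTo (fun τ : ℍ => prim f τ - prim f UpperHalfPlane.I) Set.univ
        (L.lattice : Set ℂ) := fun τ _ => (unif_eq_unif_iff L).mp (hall τ UpperHalfPlane.I)
    have h := isPreconnected_univ.constant_of_mapsTo hdisc.isDiscrete hcont.continuousOn hmaps
      (Set.mem_univ τ) (Set.mem_univ UpperHalfPlane.I)
    simpa [sub_eq_zero] using h
  have h0 := (isPrimitive_prim f).eq_zero_of_const hconst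
  exact DFunLike.coe_injective h0

omit hL in
/-- The pull-back of `dx / y` is `f(τ) dτ`. -/
theorem hasDerivAt_wp_prim {τ : ℍ} (hτ : prim f τ ∉ L.lattice) :
    HasDerivAt (fun z => L.weierstrassP (prim f (ofComplex z)))
      (L.derivWeierstrassP (prim f τ) * f τ) (τ : ℂ) := by
  have hτ' : prim f (ofComplex (τ : ℂ)) = prim f τ := by rw [ofComplex_apply]
  have h1 : HasDerivAt L.weierstrassP (L.derivWeierstrassP (prim f τ))
      ((prim f ∘ ofComplex) (τ : ℂ)) := by
    have h := (L.differentiableOn_weierstrassP.differentiableAt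
      (L.isClosed_lattice.isOpen_compl.mem_nhds hτ)).hasDerivAt
    rw [PeriodPair.deriv_weierstrassP] at h
    simpa [hτ'] using h
  exact h1.comp (τ : ℂ) (isPrimitive_prim f τ)

/-- The cusps go to torsion points. -/
theorem exists_cusp_torsion (δ : SL(2, ℤ)) :
    ∃ (c : ℂ) (n : ℕ), 0 < n ∧ Tendsto (fun w : ℍ => prim f (δ • w)) atImInfty (𝓝 c) ∧
      n • unif L c = 0 := by
  obtain ⟨n, γ, hn, h⟩ := exists_smul_toCusp_eq_period (N := N) δ
  refine ⟨toCusp δ f, n, hn, tendsto_toCusp δ f, ?_⟩
  rw [← unifHom_apply, ← map_nsmul, unifHom_apply, unif_eq_zero_iff, hL, nsmul_eq_mul, h f]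
  exact ⟨γ, rfl⟩

end FA.ModularParametrization

end
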