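import Fermat.Agent.ModularParametrization.Series
import Fermat.Agent.ReducedGroups.HasseInvariant

/-!
# The Hasse invariant and the differential in the parameter `q`

In characteristic `p = 2 m + 1` let `v² = ψ² F`, `F = 4 U³ - a U X⁴ - b X⁶`, `v = X U' - 2 U`,
`U(0) = ψ(0) = 1`, so `v = ψ W` with `W² = F` and `F ^ m v = ψ W ^ p`. The coefficient of
`X ^ (p-1)` is `-2` times that of `x ^ (p-1)` in `(4 x³ - a x - b) ^ m` on the left and `-2 ψ_(p-1)`
on the right.
-/

set_option autoImplicit false

noncomputable section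

namespace FA.ModularParametrization

open FA.HasseEis
open scoped PowerSeries

variable {R : Type*} [CommRing R]

theorem thetaSer_eq (U : R⟦X⟧) : thetaSer U = PowerSeries.X * d⁄dX R U := by
  ext j
  rcases j with _ | j
  · simp [coeff_thetaSer]
  · rw [coeff_thetaSer, PowerSeries.coeff_succ_X_mul, PowerSeries.coeff_derivative]
    push_cast
    ring

theorem thetaSer_mul (U V : R⟦X⟧) : thetaSer (U * V) = thetaSer U * V + U * thetaSer V := by
  rw [thetaSer_eq, thetaSer_eq, thetaSer_eq, Derivation.leibniz, smul_eq_mul, smul_eq_mul]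
  ring

theorem vOf_eq_thetaSer (U : R⟦X⟧) : vOf U = thetaSer U - 2 * U := by
  rw [vOf_eq, thetaSer_eq]

theorem map_vOf {S : Type*} [CommRing S] (g : R →+* S) (U : R⟦X⟧) :
    PowerSeries.map g (vOf U) = vOf (PowerSeries.map g U) := by
  ext j
  simp [coeff_vOf, map_ofNat]

/-- The equation of `X² x`. -/
def wOde (a b : R) (ψ W : R⟦X⟧) : R⟦X⟧ :=
  vOf W ^ 2 - ψ ^ 2 * (4 * W ^ 3 - PowerSeries.C a * W * PowerSeries.X ^ 4 -
    PowerSeries.C b * PowerSeries.X ^ 6)

/-- The equation of `X² x = T / V`. -/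
def tOde (a b : R) (ψ T V : R⟦X⟧) : R⟦X⟧ :=
  (vOf T * V - T * thetaSer V) ^ 2 - ψ ^ 2 * (4 * T ^ 3 * V -
    PowerSeries.C a * T * V ^ 3 * PowerSeries.X ^ 4 - PowerSeries.C b * V ^ 4 * PowerSeries.X ^ 6)

theorem tOde_mul (a b : R) (ψ W V : R⟦X⟧) : tOde a b ψ (V * W) V = V ^ 4 * wOde a b ψ W := by
  rw [tOde, wOde, vOf_eq_thetaSer, vOf_eq_thetaSer, thetaSer_mul]
  ring

theorem map_tOde {S : Type*} [CommRing S] (g : R →+* S) (a b : R) (ψ T V : R⟦X⟧) :
    PowerSeries.map g (tOde a b ψ T V) = tOde (g a) (g b) (PowerSeries.map g ψ)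
      (PowerSeries.map g T) (PowerSeries.map g V) := by
  simp [tOde, map_vOf, map_thetaSer, map_ofNat]

theorem map_wOde {S : Type*} [CommRing S] (g : R →+* S) (a b : R) (ψ W : R⟦X⟧) :
    PowerSeries.map g (wOde a b ψ W) = wOde (g a) (g b) (PowerSeries.map g ψ)
      (PowerSeries.map g W) := by
  simp [wOde, map_vOf, map_ofNat]

theorem rescale_wOde (s a b : R) (ψ W : R⟦X⟧) :
    PowerSeries.rescale s (wOde a b ψ W) = wOde (s ^ 4 * a) (s ^ 6 * b) (PowerSeries.rescale s ψ)
      (PowerSeries.rescale s W) := by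
  have hC : ∀ c : R, PowerSeries.rescale s (PowerSeries.C c) = PowerSeries.C c := fun c => by
    ext n
    rcases n with _ | n <;> simp [PowerSeries.coeff_rescale, PowerSeries.coeff_C]
  have hv : PowerSeries.rescale s (vOf W) = vOf (PowerSeries.rescale s W) := by
    ext n
    simp only [PowerSeries.coeff_rescale, coeff_vOf]
    ring
  simp only [wOde, map_sub, map_pow, map_mul, map_ofNat, hv, hC, PowerSeries.rescale_X]
  ring

/-- The equation determines a series with constant term one. -/
theorem wOde_unique {K : Type*} [Field K] [CharZero K] {a b : K} {ψ W W' : K⟦X⟧}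
    (hψ : PowerSeries.constantCoeff ψ = 1) (hW : PowerSeries.constantCoeff W = 1)
    (hW' : PowerSeries.constantCoeff W' = 1) (h : wOde a b ψ W = 0) (h' : wOde a b ψ W' = 0) :
    W = W' := by
  by_contra hne
  set e := W - W'
  have he : e ≠ 0 := sub_ne_zero.mpr hne
  set j := e.order.toNat
  obtain ⟨e₁, he₁⟩ : PowerSeries.X ^ j ∣ e := PowerSeries.X_pow_order_dvd
  have he0 : PowerSeries.constantCoeff e₁ ≠ 0 := fun h0 => by
    have h1 : PowerSeries.coeff j e ≠ 0 := PowerSeries.coeff_order he
    rw [he₁, PowerSeries.coeff_X_pow_mul', if_pos le_rfl, Nat.sub_self,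
      PowerSeries.coeff_zero_eq_constantCoeff_apply] at h1
    exact h1 h0
  set Q := 4 * (W ^ 2 + W * W' + W' ^ 2) - PowerSeries.C a * PowerSeries.X ^ 4
  have hfac : vOf e * (vOf W + vOf W') = ψ ^ 2 * e * Q := by
    simp only [wOde] at h h'
    simp only [e, Q, vOf_sub]
    linear_combination h - h'
  have hve : vOf e = PowerSeries.X ^ j * (thetaSer e₁ + PowerSeries.C ((j : K) - 2) * e₁) := by
    ext i
    rw [coeff_vOf, he₁, PowerSeries.coeff_X_pow_mul', PowerSeries.coeff_X_pow_mul']
    split_ifs with hi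
    · rw [map_add, coeff_thetaSer, PowerSeries.coeff_C_mul, Nat.cast_sub hi]
      ring
    · rw [mul_zero]
  rw [hve, he₁, mul_assoc, show ψ ^ 2 * (PowerSeries.X ^ j * e₁) * Q =
    PowerSeries.X ^ j * (ψ ^ 2 * e₁ * Q) by ring] at hfac
  have h0 := congrArg PowerSeries.constantCoeff
    (mul_left_cancel₀ (pow_ne_zero j PowerSeries.X_ne_zero) hfac)
  have hθ : PowerSeries.constantCoeff (thetaSer e₁) = 0 := by
    rw [← PowerSeries.coeff_zero_eq_constantCoeff_apply, coeff_thetaSer, Nat.cast_zero, zero_mul]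
  have hv0 : ∀ U : K⟦X⟧, PowerSeries.constantCoeff (vOf U) = -2 * PowerSeries.constantCoeff U :=
    fun U => by
      rw [← PowerSeries.coeff_zero_eq_constantCoeff_apply, coeff_vOf,
        PowerSeries.coeff_zero_eq_constantCoeff_apply]
      push_cast
      ring
  simp [hθ, hv0, hψ, hW, hW', Q, map_ofNat] at h0
  have h1 : ((j + 1 : ℕ) : K) * PowerSeries.constantCoeff e₁ = 0 := by
    push_cast
    linear_combination (-1 / 4 : K) * h0
  exact he0 ((mul_eq_zero.mp h1).resolve_left (Nat.cast_ne_zero.mpr j.succ_ne_zero))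

/-- In characteristic `p` the coefficient at `p - 1` of `F ^ m v` is the Hasse invariant. -/
theorem coeff_F_pow_mul_vOf [IsDomain R] {p : ℕ} [Fact p.Prime] [CharP R p] (h5 : 5 ≤ p)
    {a b : R} {U : R⟦X⟧} (hU0 : PowerSeries.constantCoeff U = 1) :
    PowerSeries.coeff (p - 1) ((4 * U ^ 3 - PowerSeries.C a * U * PowerSeries.X ^ 4 -
      PowerSeries.C b * PowerSeries.X ^ 6) ^ ((p - 1) / 2) * vOf U) = -2 * hasse4 p a b := by
  obtain ⟨m, hm⟩ : ∃ m, p = 2 * m + 1 := ((Fact.out : p.Prime).odd_of_ne_two (by omega))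
  set n := p - 1 with hn
  have hnm : n = 2 * m := by omega
  rw [show n / 2 = m by omega]
  set v := vOf U with hv
  have hv0 : PowerSeries.constantCoeff v = -2 := by
    rw [← PowerSeries.coeff_zero_eq_constantCoeff_apply, hv, coeff_vOf,
      PowerSeries.coeff_zero_eq_constantCoeff_apply, hU0]
    simp
  set F := 4 * U ^ 3 - PowerSeries.C a * U * PowerSeries.X ^ 4 -
    PowerSeries.C b * PowerSeries.X ^ 6 with hF
  have hp0 : (p : R) = 0 := CharP.cast_eq_zero R p
  have hm2 : 2 * (m : R) = -1 := by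
    rw [eq_neg_iff_add_eq_zero, ← hp0, hm]
    push_cast
    ring
  set f : Polynomial R := Polynomial.C 4 * Polynomial.X ^ 3 - Polynomial.C a * Polynomial.X -
    Polynomial.C b with hf
  have hdeg : f.natDegree ≤ 3 := by rw [hf]; compute_degree
  have hhom : F = MvPolynomial.aeval ![U, PowerSeries.X ^ 2] (f.homogenize 3) := by
    rw [hf, Polynomial.homogenize_sub, Polynomial.homogenize_sub, Polynomial.homogenize_C_mul,
      Polynomial.homogenize_C_mul, Polynomial.homogenize_C, Polynomial.homogenize_X_pow le_rfl,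
      Polynomial.homogenize_X (by norm_num)]
    simp [hF, PowerSeries.algebraMap_eq, map_ofNat]
    ring
  have hpowm : ∀ k : ℕ, F ^ k =
      MvPolynomial.aeval ![U, PowerSeries.X ^ 2] ((f ^ k).homogenize (3 * k)) := by
    intro k
    induction k with
    | zero => simp [Polynomial.homogenize_one]
    | succ k ih =>
      rw [pow_succ F k, pow_succ f k, Nat.mul_succ, Polynomial.homogenize_mul (m := 3 * k) _ _
        (Polynomial.natDegree_pow_le_of_le k hdeg |>.trans (by omega)) hdeg, map_mul, ih, ← hhom]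
  have hterm : ∀ i ∈ Finset.range (3 * m + 1),
      PowerSeries.coeff n (U ^ i * (PowerSeries.X ^ 2) ^ (3 * m - i) * v) =
        if i = n then -2 else 0 := by
    intro i hi
    rw [Finset.mem_range] at hi
    rw [← pow_mul, mul_right_comm, PowerSeries.coeff_mul_X_pow']
    by_cases hle : 2 * (3 * m - i) ≤ n
    · rw [if_pos hle]
      have key : ∀ d : ℕ, ((i : R) + 1) * PowerSeries.coeff d (U ^ i * v) =
          ((d : R) - 2 * ((i : R) + 1)) * PowerSeries.coeff d (U ^ (i + 1)) := fun d => by
        have e1 : PowerSeries.C ((i : R) + 1) * (U ^ i * v) =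
            PowerSeries.X * d⁄dX R (U ^ (i + 1)) -
              PowerSeries.C (2 * ((i : R) + 1)) * U ^ (i + 1) := by
          rw [PowerSeries.derivative_pow, hv, vOf_eq, Nat.add_sub_cancel]
          simp [map_ofNat]
          ring
        rw [← PowerSeries.coeff_C_mul, e1, map_sub, PowerSeries.coeff_C_mul, sub_mul]
        congr 1
        rcases d with _ | d
        · simp
        · rw [PowerSeries.coeff_succ_X_mul, PowerSeries.coeff_derivative]
          push_cast
          ring
      by_cases hin : i = n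
      · rw [if_pos hin, show n - 2 * (3 * m - i) = 0 by omega,
          PowerSeries.coeff_zero_eq_constantCoeff_apply, map_mul, map_pow, hU0, hv0]
        ring
      · rw [if_neg hin]
        have h2 := key (n - 2 * (3 * m - i))
        have hz : ((n - 2 * (3 * m - i) : ℕ) : R) - 2 * ((i : R) + 1) = 0 := by
          rw [Nat.cast_sub hle, hnm]
          push_cast [Nat.cast_sub (show i ≤ 3 * m by omega)]
          linear_combination (-2 : R) * hm2
        rw [hz, zero_mul, mul_eq_zero] at h2
        refine h2.resolve_left ?_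
        rw [← Nat.cast_succ, CharP.cast_eq_zero_iff R p]
        intro hd
        obtain ⟨k, hk⟩ := hd
        rcases k with _ | _ | k
        · simp at hk
        · omega
        · have : p * 2 ≤ p * (k + 1 + 1) := Nat.mul_le_mul_left p (by omega)
          omega
    · rw [if_neg hle, if_neg (by omega)]
  rw [hpowm, Polynomial.homogenize, map_sum, Finset.sum_mul, map_sum,
    Finset.Nat.sum_antidiagonal_eq_sum_range_succ_mk]
  simp only [Finsupp.update_eq_add_single (show Finsupp.single (0 : Fin 2) _ 1 = 0 by simp)]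
  have e : ∀ i ∈ Finset.range (3 * m).succ,
      PowerSeries.coeff n ((MvPolynomial.aeval ![U, PowerSeries.X ^ 2])
        (MvPolynomial.monomial (Finsupp.single 0 i + Finsupp.single 1 (3 * m - i))
          ((f ^ m).coeff i)) * v) = (f ^ m).coeff i * (if i = n then -2 else 0) := fun i hi => by
    rw [MvPolynomial.aeval_monomial, Finsupp.prod_add_index' (by simp) (by simp [pow_add]),
      Finsupp.prod_single_index (by simp), Finsupp.prod_single_index (by simp),
      PowerSeries.algebraMap_eq, mul_assoc, PowerSeries.coeff_C_mul]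
    simp only [Matrix.cons_val_zero, Matrix.cons_val_one]
    rw [hterm i hi]
  rw [Finset.sum_congr rfl e, Finset.sum_eq_single n (fun i _ hi => by rw [if_neg hi, mul_zero])
    (fun hi => absurd (Finset.mem_range.2 (by omega)) hi), if_pos rfl, hasse4,
    show (p - 1) / 2 = m by omega]
  rw [← hn]
  ring

/-- **The congruence**: the Hasse invariant is the coefficient at `p - 1` of the differential. -/
theorem hasse4_eq_coeff [IsDomain R] {p : ℕ} [Fact p.Prime] [CharP R p] (h5 : 5 ≤ p)
    {a b : R} {U ψ : R⟦X⟧} (hU0 : PowerSeries.constantCoeff U = 1)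
    (hψ0 : PowerSeries.constantCoeff ψ = 1) (h : wOde a b ψ U = 0) :
    hasse4 p a b = PowerSeries.coeff (p - 1) ψ := by
  obtain ⟨m, hm⟩ : ∃ m, p = 2 * m + 1 := ((Fact.out : p.Prime).odd_of_ne_two (by omega))
  have hl := coeff_F_pow_mul_vOf (a := a) (b := b) h5 hU0
  obtain ⟨i, hi⟩ : IsUnit ψ :=
    PowerSeries.isUnit_iff_constantCoeff.mpr (by rw [hψ0]; exact isUnit_one)
  set W : R⟦X⟧ := ↑i⁻¹ * vOf U with hW
  have hvW : vOf U = ψ * W := by rw [hW, ← mul_assoc, ← hi, Units.mul_inv, one_mul]
  set F := 4 * U ^ 3 - PowerSeries.C a * U * PowerSeries.X ^ 4 -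
    PowerSeries.C b * PowerSeries.X ^ 6 with hF
  have hFW : F = W ^ 2 := by
    have h1 : ψ ^ 2 * (F - W ^ 2) = 0 := by
      rw [wOde, hvW, ← hF] at h
      linear_combination -h
    exact sub_eq_zero.mp ((mul_eq_zero.mp h1).resolve_left (pow_ne_zero 2 fun e => by
      rw [e, map_zero] at hψ0; exact zero_ne_one hψ0))
  have hW0 : PowerSeries.constantCoeff W = -2 := by
    have h1 := congrArg PowerSeries.constantCoeff hvW
    rw [map_mul, hψ0, one_mul, ← PowerSeries.coeff_zero_eq_constantCoeff_apply,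
      ← PowerSeries.coeff_zero_eq_constantCoeff_apply, coeff_vOf,
      PowerSeries.coeff_zero_eq_constantCoeff_apply, hU0] at h1
    rw [← PowerSeries.coeff_zero_eq_constantCoeff_apply, ← h1]
    simp
  obtain ⟨w, hw⟩ : PowerSeries.X ∣ W - PowerSeries.C (-2 : R) :=
    PowerSeries.X_dvd_iff.2 (by simp [hW0])
  have : CharP R⟦X⟧ p := charP_of_injective_ringHom (f := PowerSeries.C)
    (fun x y hxy => by simpa using congrArg PowerSeries.constantCoeff hxy) p
  have h2 : (-2 : R) ^ p = -2 := by
    have := congrArg (ZMod.castHom dvd_rfl R) (ZMod.pow_card (-2 : ZMod p))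
    rwa [map_pow, map_neg, map_ofNat] at this
  have hpow : F ^ ((p - 1) / 2) * vOf U = ψ * W ^ p := by
    rw [hvW, hFW, ← pow_mul, show 2 * ((p - 1) / 2) = 2 * m by omega, hm, pow_succ]
    ring
  rw [hpow, show W = PowerSeries.C (-2) + PowerSeries.X * w by rw [← hw]; ring, add_pow_char,
    ← map_pow, h2, mul_pow, mul_add, map_add, mul_comm ψ (PowerSeries.C (-2 : R)),
    PowerSeries.coeff_C_mul, mul_left_comm ψ, PowerSeries.coeff_X_pow_mul', if_neg (by omega),
    add_zero] at hl
  have hne : (-2 : R) ≠ 0 := neg_ne_zero.2 fun e => by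
    have := Nat.le_of_dvd two_pos
      ((CharP.cast_eq_zero_iff R p 2).1 (by simpa using e))
    omega
  exact (mul_left_cancel₀ hne hl).symm

end FA.ModularParametrization

end
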