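import Fermat.Agent.ModularParametrization.Rational
import Fermat.Agent.ModularParametrization.HasseCongruence
import Fermat.Agent.Period.Denominators
import Fermat.Agent.Period.Integral

/-!
# The traces of the Weil curve

`X² ℘(Φ) = T / V` with integral series, so the differential equation holds modulo every prime not
dividing finitely many numbers, where it identifies `a_p` with the Hasse invariant.
-/

set_option autoImplicit false

noncomputable section

namespace FA.ModularParametrization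

open UpperHalfPlane hiding I
open CongruenceSubgroup Filter FA.Period FA.PeriodLattice FA.HasseEis
open scoped PowerSeries Manifold

variable {N : ℕ} [NeZero N] {f : CuspForm (Gamma0 N) 2}

/-- The series `∑ a_(n+1) X^n`. -/
def formSer {R : Type*} [CommRing R] (a : ℕ → ℤ) : R⟦X⟧ :=
  PowerSeries.mk fun n => (a (n + 1) : R)

/-- A factor that vanishes nowhere identically can be cancelled. -/
theorem eq_zero_of_mul_eq_zero {A : ℍ → ℂ} (hA : MDiff A) (hA0 : A ≠ 0) {B : ℍ → ℂ} {τ : ℍ}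
    (hB : ContinuousAt (B ∘ ofComplex) (τ : ℂ))
    (h : ∀ᶠ z in nhds (τ : ℂ), A (ofComplex z) * B (ofComplex z) = 0) : B τ = 0 := by
  have hAn : AnalyticOnNhd ℂ (A ∘ ofComplex) {z : ℂ | 0 < z.im} := fun z hz =>
    (UpperHalfPlane.mdifferentiable_iff.mp hA).analyticAt (isOpen_upperHalfPlaneSet.mem_nhds hz)
  rcases (hAn _ τ.im_pos).eventually_eq_zero_or_eventually_ne_zero with h0 | h0
  · refine absurd (funext fun σ : ℍ => ?_) hA0
    simpa using hAn.eqOn_of_preconnected_of_eventuallyEq (g := fun _ => (0 : ℂ))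
      analyticOnNhd_const (convex_halfSpace_im_gt 0).isPreconnected τ.im_pos h0
      (x := (σ : ℂ)) σ.im_pos
  · have h1 : Tendsto (B ∘ ofComplex) (nhdsWithin (τ : ℂ) {(τ : ℂ)}ᶜ) (nhds 0) := by
      refine tendsto_const_nhds.congr' ?_
      filter_upwards [h0, h.filter_mono nhdsWithin_le_nhds] with z hz hAB
      exact ((mul_eq_zero.mp hAB).resolve_left hz).symm
    simpa using tendsto_nhds_unique (hB.tendsto.mono_left nhdsWithin_le_nhds) h1

theorem map_formSer {R S : Type*} [CommRing R] [CommRing S] (g : R →+* S) (a : ℕ → ℤ) :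
    PowerSeries.map g (formSer a) = formSer a := by
  ext n
  simp [formSer]

/-- The equation of `X² ℘(Φ)` and a pair of rational cusp forms with this quotient. -/
theorem exists_rational_quotient (hf : f.IsNormalizedEigenform) {a : ℕ → ℤ}
    (ha : ∀ n, ModularFormClass.qCoeff f n = (a n : ℂ)) {L : PeriodPair}
    (hL : IsScaledPeriods f L) :
    ∃ (k : ℤ) (G h : CuspForm (Gamma0 N) k) (w : ℂ⟦X⟧),
      PowerSeries.constantCoeff w = 1 ∧ wOde L.g₂ L.g₃ (formSer a) w = 0 ∧
      (∀ n, ∃ r : ℚ, (qExp ⇑G).coeff n = r) ∧ (∀ n, ∃ r : ℚ, (qExp ⇑h).coeff n = r) ∧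
      qExp ⇑G ≠ 0 ∧ PowerSeries.X ^ 2 * qExp ⇑h = qExp ⇑G * w ∧
      ∀ τ, sPrim f τ ∉ L.lattice → h τ = G τ * L.weierstrassP (sPrim f τ) := by
  classical
  obtain ⟨L₀, h₀⟩ := exists_periodPair hf ha
  obtain ⟨k, G, h, hG, hh, hG0, heq⟩ := exists_pole_forms hf.ne_zero L₀ L h₀ hL
  obtain ⟨hode, w, hw, hlead⟩ := tay_relations hf.qCoeff_one L hG hh heq
  have hv0 : qExp G ≠ 0 := by rwa [Ne, (isQFun_of_mem hG.1).qExp_eq_zero_iff]
  have hφ : qExp ⇑f = PowerSeries.X * formSer a := by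
    ext n
    rcases n with _ | n
    · rw [PowerSeries.coeff_zero_X_mul]
      have := (isQFun_of_mem (coe_mem_cuspForms f).1).isZeroAtImInfty_iff.mp
        (by simpa using (coe_mem_cuspForms f).2 1)
      exact this
    · rw [PowerSeries.coeff_succ_X_mul, formSer, PowerSeries.coeff_mk]
      exact ha (n + 1)
  have hwode : wOde L.g₂ L.g₃ (formSer a) w = 0 := by
    set u := qExp h
    set v := qExp G
    set X : ℂ⟦X⟧ := PowerSeries.X with hXdef
    have hX0 : X ≠ 0 := PowerSeries.X_ne_zero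
    have hθX : thetaSer (X ^ 2) = 2 * X ^ 2 := by
      rw [pow_two, thetaSer_mul, show thetaSer X = X by
        ext n
        rw [coeff_thetaSer, hXdef, PowerSeries.coeff_X]
        split_ifs with hn <;> simp [hn]]
      ring
    have hθ := congrArg thetaSer hlead
    rw [thetaSer_mul, thetaSer_mul, hθX] at hθ
    have key : X ^ 4 * odeSer L.g₂ L.g₃ (qExp ⇑f) u v = v ^ 4 * wOde L.g₂ L.g₃ (formSer a) w := by
      have e1 : X ^ 2 * (thetaSer u * v - u * thetaSer v) = v ^ 2 * vOf w := by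
        rw [vOf_eq_thetaSer]
        linear_combination v * hθ - (thetaSer v + 2 * v) * hlead
      have e3 : X ^ 6 * u ^ 3 = v ^ 3 * w ^ 3 := by
        rw [← mul_pow, ← hlead]; ring
      rw [odeSer, wOde, hφ, ← hXdef]
      linear_combination (X ^ 2 * (thetaSer u * v - u * thetaSer v) + v ^ 2 * vOf w) * e1 -
        4 * (formSer a : ℂ⟦X⟧) ^ 2 * v * e3 +
        PowerSeries.C L.g₂ * (formSer a : ℂ⟦X⟧) ^ 2 * v ^ 3 * X ^ 4 * hlead
    rw [hode, mul_zero] at key
    exact (mul_eq_zero.mp key.symm).resolve_left (pow_ne_zero 4 hv0)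
  have hσw : ∀ σ : ℂ ≃+* ℂ, PowerSeries.map (σ : ℂ →+* ℂ) w = w := fun σ => by
    obtain ⟨e2, e3⟩ := invariants_fixed hf ha hL σ
    have h1 := congrArg (PowerSeries.map (σ : ℂ →+* ℂ)) hwode
    rw [map_wOde, map_zero, map_formSer] at h1
    simp only [RingHom.coe_coe, e2, e3] at h1
    refine wOde_unique ?_ ?_ hw h1 hwode
    · rw [← PowerSeries.coeff_zero_eq_constantCoeff_apply, formSer, PowerSeries.coeff_mk, zero_add,
        ← ha, hf.qCoeff_one]
    · rw [← PowerSeries.coeff_zero_eq_constantCoeff_apply, PowerSeries.coeff_map,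
        PowerSeries.coeff_zero_eq_constantCoeff_apply, hw, map_one]
  -- the pairs with quotient `w`
  let Ψ : (CuspForm (Gamma0 N) k × CuspForm (Gamma0 N) k) →ₗ[ℂ] ℂ⟦X⟧ :=
    { toFun := fun P => PowerSeries.X ^ 2 * qExp ⇑P.1 - qExp ⇑P.2 * w
      map_add' := fun P Q => by
        rw [Prod.fst_add, Prod.snd_add, FunLike.coe_add, FunLike.coe_add,
          (isQFun_of_mem (coe_mem_cuspForms P.1).1).qExp_add
            (isQFun_of_mem (coe_mem_cuspForms Q.1).1),
          (isQFun_of_mem (coe_mem_cuspForms P.2).1).qExp_add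
            (isQFun_of_mem (coe_mem_cuspForms Q.2).1)]
        ring
      map_smul' := fun c P => by
        rw [Prod.smul_fst, Prod.smul_snd, FunLike.coe_smul, FunLike.coe_smul,
          (isQFun_of_mem (coe_mem_cuspForms P.1).1).qExp_smul,
          (isQFun_of_mem (coe_mem_cuspForms P.2).1).qExp_smul, RingHom.id_apply, smul_sub,
          mul_smul_comm, smul_mul_assoc] }
  let Θ : (CuspForm (Gamma0 N) k × CuspForm (Gamma0 N) k) →ₗ[ℂ] (ℕ ⊕ ℕ → ℂ) :=
    { toFun := fun P => Sum.elim (FA.Period.coeffMap N k P.1) (FA.Period.coeffMap N k P.2)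
      map_add' := fun P Q => by ext (i | i) <;> simp
      map_smul' := fun c P => by ext (i | i) <;> simp }
  set V := (LinearMap.ker Ψ).map Θ with hV
  have hstab : ∀ σ : ℂ ≃+* ℂ, ∀ x ∈ V, (fun i => σ (x i)) ∈ V := by
    rintro σ _ ⟨⟨g, g'⟩, hg, rfl⟩
    obtain ⟨g₁, hg₁, hq₁⟩ := exists_conjugate_cuspForm (coe_mem_cuspForms g) (σ : ℂ →+* ℂ)
    obtain ⟨g₂, hg₂, hq₂⟩ := exists_conjugate_cuspForm (coe_mem_cuspForms g') (σ : ℂ →+* ℂ)
    refine ⟨(toCuspForm' g₁ hg₁, toCuspForm' g₂ hg₂), ?_, ?_⟩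
    · rw [SetLike.mem_coe, LinearMap.mem_ker] at hg ⊢
      have h1 := congrArg (PowerSeries.map (σ : ℂ →+* ℂ)) hg
      simp only [Ψ, LinearMap.coe_mk, AddHom.coe_mk, map_sub, map_mul, map_pow, map_zero,
        PowerSeries.map_X, ← hq₁, ← hq₂, hσw σ] at h1 ⊢
      exact h1
    · funext i
      rcases i with i | i
      · exact (congrArg (PowerSeries.coeff i) hq₁).trans (PowerSeries.coeff_map _ _ _)
      · exact (congrArg (PowerSeries.coeff i) hq₂).trans (PowerSeries.coeff_map _ _ _)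
  set B := Finset.range ((k * (Gamma0 N).index).toNat / 12 + 1)
  have hJ : ∀ x ∈ V, (∀ i ∈ B.disjSum B, x i = 0) → x = 0 := by
    rintro _ ⟨⟨g, g'⟩, -, rfl⟩ hx
    have h1 := cuspForm_eq_zero_of_coeff N k g fun n hn =>
      hx (Sum.inl n) (Finset.inl_mem_disjSum.mpr hn)
    have h2 := cuspForm_eq_zero_of_coeff N k g' fun n hn =>
      hx (Sum.inr n) (Finset.inr_mem_disjSum.mpr hn)
    rw [h1, h2]
    exact map_zero Θ
  have hmem : Θ (toCuspForm' h hh, toCuspForm' G hG) ∈ V :=
    ⟨_, by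
      rw [SetLike.mem_coe, LinearMap.mem_ker]
      show PowerSeries.X ^ 2 * qExp h - qExp G * w = 0
      rw [hlead, sub_self], rfl⟩
  obtain ⟨x, ⟨⟨⟨h', G'⟩, hker, rfl⟩, hrat⟩, hx0⟩ : ∃ x, (x ∈ V ∧ IsRationalSeq x) ∧ x ≠ 0 := by
    by_contra hno
    push Not at hno
    have h1 := span_rational_of_stable V hstab _ hJ hmem
    rw [Submodule.span_eq_bot.mpr (show ∀ x ∈ {x | x ∈ V ∧ IsRationalSeq x}, x = 0 from hno),
      Submodule.mem_bot] at h1
    refine hv0 (PowerSeries.ext fun n => ?_)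
    exact congrFun h1 (Sum.inr n)
  rw [SetLike.mem_coe, LinearMap.mem_ker] at hker
  have hrel : PowerSeries.X ^ 2 * qExp ⇑h' = qExp ⇑G' * w := sub_eq_zero.mp hker
  refine ⟨k, G', h', w, hw, hwode, fun n => hrat (Sum.inr n), fun n => hrat (Sum.inl n), ?_, hrel,
    fun τ hτ => ?_⟩
  rotate_left
  · have hF1 := isQFun_of_mem (coe_mem_cuspForms h').1
    have hF2 := isQFun_of_mem (coe_mem_cuspForms G').1
    have e : (⇑h' * G : ℍ → ℂ) = ⇑G' * h := by
      refine (hF1.mul (isQFun_of_mem hG.1)).eq_of_qExp_eq (hF2.mul (isQFun_of_mem hh.1)) ?_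
      rw [hF1.qExp_mul (isQFun_of_mem hG.1), hF2.qExp_mul (isQFun_of_mem hh.1)]
      refine mul_left_cancel₀ (pow_ne_zero 2 PowerSeries.X_ne_zero) ?_
      linear_combination (qExp G) * hrel - (qExp ⇑G') * hlead
    have hcont : ∀ {F : ℍ → ℂ}, MDiff F → ContinuousAt (F ∘ ofComplex) (τ : ℂ) := fun {F} hF =>
      ((UpperHalfPlane.mdifferentiable_iff.mp hF).differentiableAt
        (isOpen_upperHalfPlaneSet.mem_nhds τ.im_pos)).continuousAt
    refine sub_eq_zero.mp (eq_zero_of_mul_eq_zero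
      (B := fun σ => h' σ - G' σ * L.weierstrassP (sPrim f σ)) hG.1.2.1 hG0 ?_
      (Eventually.of_forall fun z => ?_))
    · exact (hcont hF1.mdiff).sub ((hcont hF2.mdiff).mul
        ((FA.Mazur.Wp.analyticAt_wp L (by simpa using hτ)).continuousAt.comp_of_eq
          (analyticAt_sPrim τ.im_pos).continuousAt rfl))
    · have h1 := congrFun e (ofComplex z)
      simp only [Pi.mul_apply, heq] at h1
      linear_combination h1
  intro h0
  rw [h0, zero_mul, mul_eq_zero] at hrel
  have h1 : qExp ⇑h' = 0 := hrel.resolve_left (pow_ne_zero 2 PowerSeries.X_ne_zero)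
  refine hx0 (funext fun i => ?_)
  rcases i with i | i
  · exact (congrArg (PowerSeries.coeff i) h1).trans (map_zero _)
  · exact (congrArg (PowerSeries.coeff i) h0).trans (map_zero _)

/-- **`a_p` is the Hasse invariant of the Weil curve**, for all but finitely many `p`. -/
theorem exists_congruence (hf : f.IsNormalizedEigenform) {a : ℕ → ℤ}
    (ha : ∀ n, ModularFormClass.qCoeff f n = (a n : ℂ)) {L : PeriodPair}
    (hL : IsScaledPeriods f L) :
    ∃ (d : ℕ) (A B : ℤ) (D : ℕ), d ≠ 0 ∧ D ≠ 0 ∧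
      L.g₂ = -4 * (A : ℂ) / (d : ℂ) ^ 4 ∧ L.g₃ = -4 * (B : ℂ) / (d : ℂ) ^ 6 ∧
      ∀ p : ℕ, ∀ [Fact p.Prime], ¬ p ∣ D →
        (a p : ZMod p) = FA.ReducedGroups.hasseShort (A : ZMod p) (B : ZMod p) := by
  obtain ⟨k, G, h, w, hw, hwode, hGr, hhr, hG0, hrel, -⟩ := exists_rational_quotient hf ha hL
  obtain ⟨g₂, g₃, hg2, hg3⟩ := exists_rat_invariants hf ha hL
  obtain ⟨D₁, hD₁, v, hv⟩ := bddDenom_of_rational (coe_mem_cuspForms G) hGr
  obtain ⟨D₂, hD₂, u, hu⟩ := bddDenom_of_rational (coe_mem_cuspForms h) hhr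
  set i : ℤ →+* ℂ := Int.castRingHom ℂ
  have hinj : Function.Injective (PowerSeries.map i) :=
    PowerSeries.map_injective i Int.cast_injective
  set v' : ℤ⟦X⟧ := (D₂ : ℤ⟦X⟧) * v
  set u' : ℤ⟦X⟧ := (D₁ : ℤ⟦X⟧) * u
  have hrel' : PowerSeries.X ^ 2 * PowerSeries.map i u' = PowerSeries.map i v' * w := by
    simp only [u', v', map_mul, map_natCast]
    rw [← hu, ← hv, PowerSeries.smul_eq_C_mul, PowerSeries.smul_eq_C_mul, map_natCast, map_natCast]
    linear_combination (D₁ : ℂ⟦X⟧) * (D₂ : ℂ⟦X⟧) * hrel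
  have hv'0 : v' ≠ 0 := fun e => by
    have h1 := congrArg (PowerSeries.map i) e
    simp only [v', map_mul, map_natCast, map_zero] at h1
    rw [← hv, PowerSeries.smul_eq_C_mul, map_natCast] at h1
    simp [hG0] at h1
    have h2 := h1.imp (congrArg PowerSeries.constantCoeff) (congrArg PowerSeries.constantCoeff)
    simp [hD₁, hD₂] at h2
  set m := v'.order.toNat
  obtain ⟨V, hVe⟩ : PowerSeries.X ^ m ∣ v' := PowerSeries.X_pow_order_dvd
  have hc : PowerSeries.constantCoeff V ≠ 0 := fun h0 => by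
    have h1 : PowerSeries.coeff m v' ≠ 0 := PowerSeries.coeff_order hv'0
    rw [hVe, PowerSeries.coeff_X_pow_mul', if_pos le_rfl, Nat.sub_self,
      PowerSeries.coeff_zero_eq_constantCoeff_apply] at h1
    exact h1 h0
  have hmap : PowerSeries.map i (PowerSeries.X ^ 2 * u') =
      PowerSeries.X ^ m * (PowerSeries.map i V * w) := by
    rw [map_mul, map_pow, PowerSeries.map_X, hrel', hVe, map_mul, map_pow, PowerSeries.map_X,
      mul_assoc]
  obtain ⟨T, hT⟩ : PowerSeries.X ^ m ∣ PowerSeries.X ^ 2 * u' := by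
    rw [PowerSeries.X_pow_dvd_iff]
    intro j hj
    refine Int.cast_injective (α := ℂ) ?_
    have h1 := congrArg (PowerSeries.coeff j) hmap
    rw [PowerSeries.coeff_map, PowerSeries.coeff_X_pow_mul' (PowerSeries.map i V * w),
      if_neg (by omega)] at h1
    simpa [i] using h1
  have hTw : PowerSeries.map i T = PowerSeries.map i V * w := by
    refine mul_left_cancel₀ (pow_ne_zero m (PowerSeries.X_ne_zero (R := ℂ))) ?_
    rw [← hmap, hT, map_mul, map_pow, PowerSeries.map_X]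
  -- scale to integral invariants
  set qA : ℚ := -g₂ / 4 with hqA
  set qB : ℚ := -g₃ / 4 with hqB
  set d : ℕ := qA.den * qB.den with hd
  have hd0 : d ≠ 0 := mul_ne_zero qA.den_nz qB.den_nz
  set A : ℤ := qA.num * qB.den * (d : ℤ) ^ 3 with hA
  set B : ℤ := qB.num * qA.den * (d : ℤ) ^ 5 with hB
  have hAq : (A : ℚ) = (d : ℚ) ^ 4 * qA := by
    rw [hA, hd]; push_cast; rw [← Rat.mul_den_eq_num qA]; ring
  have hBq : (B : ℚ) = (d : ℚ) ^ 6 * qB := by
    rw [hB, hd]; push_cast; rw [← Rat.mul_den_eq_num qB]; ring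
  have hA2 : (d : ℂ) ^ 4 * L.g₂ = ((-4 * A : ℤ) : ℂ) := by
    have h1 := congrArg (fun x : ℚ => (x : ℂ)) hAq
    simp only [hqA] at h1
    push_cast at h1 ⊢
    rw [hg2]
    linear_combination 4 * h1
  have hB2 : (d : ℂ) ^ 6 * L.g₃ = ((-4 * B : ℤ) : ℂ) := by
    have h1 := congrArg (fun x : ℚ => (x : ℂ)) hBq
    simp only [hqB] at h1
    push_cast at h1 ⊢
    rw [hg3]
    linear_combination 4 * h1
  have hdC : (d : ℂ) ≠ 0 := Nat.cast_ne_zero.mpr hd0
  refine ⟨d, A, B, 6 * d * (PowerSeries.constantCoeff V).natAbs, hd0,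
    mul_ne_zero (mul_ne_zero (by norm_num) hd0) (Int.natAbs_ne_zero.mpr hc), ?_, ?_,
    fun p hp hpD => ?_⟩
  · rw [eq_div_iff (pow_ne_zero 4 hdC), mul_comm, hA2]; push_cast; ring
  · rw [eq_div_iff (pow_ne_zero 6 hdC), mul_comm, hB2]; push_cast; ring
  set r : ℤ⟦X⟧ →+* ℤ⟦X⟧ := PowerSeries.rescale (d : ℤ)
  have hrmap : ∀ S : ℤ⟦X⟧, PowerSeries.map i (r S) =
      PowerSeries.rescale (d : ℂ) (PowerSeries.map i S) := fun S => by
    ext n
    simp [r, i, PowerSeries.coeff_rescale]
  have hzero : tOde (-4 * A) (-4 * B) (r (formSer a)) (r T) (r V) = 0 := by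
    refine hinj ?_
    rw [map_tOde, map_zero, hrmap, hrmap, hrmap, hTw,
      map_mul (PowerSeries.rescale (d : ℂ)), tOde_mul, map_formSer]
    simp only [i, Int.coe_castRingHom, ← hA2, ← hB2]
    rw [← rescale_wOde, hwode, map_zero, mul_zero]
  set j : ℤ →+* ZMod p := Int.castRingHom (ZMod p)
  have hp5 : 5 ≤ p := by
    have h2 := hp.out.two_le
    by_contra hlt
    interval_cases p
    · exact hpD ⟨3 * d * (PowerSeries.constantCoeff V).natAbs, by ring⟩
    · exact hpD ⟨2 * d * (PowerSeries.constantCoeff V).natAbs, by ring⟩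
    · exact absurd hp.out (by norm_num)
  have hdp : (d : ZMod p) ≠ 0 := fun e => hpD
    (((ZMod.natCast_eq_zero_iff _ _).mp e).mul_left 6 |>.mul_right _)
  have hcp : IsUnit (PowerSeries.map j (r V)) := by
    rw [PowerSeries.isUnit_iff_constantCoeff, isUnit_iff_ne_zero,
      ← PowerSeries.coeff_zero_eq_constantCoeff_apply, PowerSeries.coeff_map]
    simp only [r, j, PowerSeries.coeff_rescale, pow_zero, one_mul,
      PowerSeries.coeff_zero_eq_constantCoeff_apply, Int.coe_castRingHom]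
    rw [Ne, ZMod.intCast_zmod_eq_zero_iff_dvd]
    exact fun hdv => hpD ((Int.natCast_dvd.mp hdv).mul_left _)
  obtain ⟨Vu, hVu⟩ := hcp
  set U : (ZMod p)⟦X⟧ := PowerSeries.map j (r T) * ↑Vu⁻¹ with hU
  have hTU : PowerSeries.map j (r T) = PowerSeries.map j (r V) * U := by
    rw [hU, ← hVu, mul_left_comm, Units.mul_inv, mul_one]
  have hU0 : PowerSeries.constantCoeff U = 1 := by
    have h1 := congrArg PowerSeries.constantCoeff hTw
    rw [map_mul, hw, mul_one] at h1
    have h2 : PowerSeries.coeff 0 T = PowerSeries.coeff 0 V := by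
      rw [← PowerSeries.coeff_zero_eq_constantCoeff_apply,
        ← PowerSeries.coeff_zero_eq_constantCoeff_apply, PowerSeries.coeff_map,
        PowerSeries.coeff_map] at h1
      exact Int.cast_injective h1
    have h3 := congrArg PowerSeries.constantCoeff hTU
    have h4 : PowerSeries.constantCoeff (PowerSeries.map j (r V)) ≠ 0 :=
      (PowerSeries.isUnit_iff_constantCoeff.mp ⟨Vu, hVu⟩).ne_zero
    have h5 : PowerSeries.constantCoeff (PowerSeries.map j (r T)) =
        PowerSeries.constantCoeff (PowerSeries.map j (r V)) := by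
      rw [← PowerSeries.coeff_zero_eq_constantCoeff_apply,
        ← PowerSeries.coeff_zero_eq_constantCoeff_apply, PowerSeries.coeff_map,
        PowerSeries.coeff_map]
      simp only [r, PowerSeries.coeff_rescale, h2]
    rw [map_mul, h5] at h3
    exact (mul_right_eq_self₀.mp h3.symm).resolve_right h4
  have hode : wOde (j (-4 * A)) (j (-4 * B)) (PowerSeries.map j (r (formSer a))) U = 0 := by
    have h1 := congrArg (PowerSeries.map j) hzero
    rw [map_tOde, map_zero, hTU, tOde_mul] at h1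
    exact (mul_eq_zero.mp h1).resolve_left (pow_ne_zero 4 (hVu ▸ Vu.ne_zero))
  have hψ0 : PowerSeries.constantCoeff (PowerSeries.map j (r (formSer a))) = 1 := by
    have h1 : a 1 = 1 := by
      have := hf.qCoeff_one
      rw [ha 1] at this
      exact_mod_cast this
    rw [← PowerSeries.coeff_zero_eq_constantCoeff_apply, PowerSeries.coeff_map]
    simp [r, j, formSer, PowerSeries.coeff_rescale, h1]
  have hmain := hasse4_eq_coeff hp5 hU0 hψ0 hode
  have hcoef : PowerSeries.coeff (p - 1) (PowerSeries.map j (r (formSer a))) = (a p : ZMod p) := by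
    rw [PowerSeries.coeff_map]
    simp only [r, j, formSer, PowerSeries.coeff_rescale, PowerSeries.coeff_mk,
      Nat.sub_add_cancel hp.out.one_le, Int.coe_castRingHom, Int.cast_mul, Int.cast_pow,
      Int.cast_natCast, Int.cast_id]
    rw [ZMod.pow_card_sub_one_eq_one hdp, one_mul]
  rw [hcoef] at hmain
  rw [← hmain, hasse4, FA.ReducedGroups.hasseShort, show (p - 1) / 2 = p / 2 by
    have := (hp.out.odd_of_ne_two (by omega)); obtain ⟨c, hc⟩ := this; omega]
  have hpoly : (Polynomial.C 4 * Polynomial.X ^ 3 - Polynomial.C (j (-4 * A)) * Polynomial.X -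
      Polynomial.C (j (-4 * B)) : Polynomial (ZMod p)) = Polynomial.C 4 *
        (Polynomial.X ^ 3 + Polynomial.C (A : ZMod p) * Polynomial.X +
          Polynomial.C (B : ZMod p)) := by
    simp [j, map_ofNat]
    ring
  have h4 : (4 : ZMod p) ^ (p / 2) = 1 := by
    obtain ⟨c, hc⟩ := hp.out.odd_of_ne_two (by omega)
    rw [show (4 : ZMod p) = 2 ^ 2 by norm_num, ← pow_mul, show 2 * (p / 2) = p - 1 by omega]
    exact ZMod.pow_card_sub_one_eq_one fun e => by
      have := Nat.le_of_dvd two_pos ((ZMod.natCast_eq_zero_iff 2 p).1 (by simpa using e))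
      omega
  rw [hpoly, mul_pow, ← map_pow, h4, map_one, one_mul]

end FA.ModularParametrization

end
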