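import Fermat.Agent.ModularParametrization.Series
import Fermat.Agent.Period.Galois
import Fermat.Agent.ClassNumberOne.Transport

/-!
# The periods lie in every conjugate lattice

The conjugate forms `h'`, `G'` satisfy the conjugate differential equation, so `h' / G'` is `℘` of
the conjugate lattice at the same primitive; being `Γ₀(N)`-invariant it makes the periods periods of
that lattice.
-/

set_option autoImplicit false

noncomputable section

namespace FA.ModularParametrization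

open UpperHalfPlane hiding I
open Complex CongruenceSubgroup Filter ModularCurve FA.Period FA.ManinDrinfeld
open FA.PeriodLattice FA.Mazur.Wp FA.ModField FA.HasseEis
open scoped MatrixGroups Topology Real Manifold ModularForm PowerSeries

variable {N : ℕ} [NeZero N] (f : CuspForm (Gamma0 N) 2)

theorem periodic_sPrim : Function.Periodic (sPrim f ∘ ofComplex) (1 : ℝ) := by
  set γ : Gamma0 N := ⟨ModularGroup.T, FA.Period.T_mem_Gamma0 N⟩
  have hT : Tendsto (fun w : ℍ => ModularGroup.T • w) atImInfty atImInfty := by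
    refine tendsto_comap_iff.mpr ?_
    have him : Tendsto UpperHalfPlane.im atImInfty atTop := tendsto_comap
    exact him.congr fun w => by rw [Function.comp_apply, modular_T_smul]; simp
  have h0 : periodMap N f (Additive.ofMul γ) = 0 := by
    have h1 : Tendsto (fun _ : ℍ => periodMap N f (Additive.ofMul γ)) atImInfty (𝓝 (0 - 0)) :=
      (((tendsto_prim f).comp hT).sub (tendsto_prim f)).congr fun w =>
        (periodMap_apply f (isPrimitive_prim f) γ w).symm
    rw [sub_self] at h1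
    exact tendsto_const_nhds_iff.mp h1
  intro z
  by_cases hz : 0 < z.im
  · have hz1 : 0 < (z + 1).im := by simpa using hz
    simp only [Function.comp_apply, Complex.ofReal_one, ofComplex_apply_of_im_pos hz,
      ofComplex_apply_of_im_pos hz1]
    have h2 : prim f (ModularGroup.T • (⟨z, hz⟩ : ℍ)) = prim f ⟨z, hz⟩ := by
      rw [← sub_eq_zero, ← h0, periodMap_apply f (isPrimitive_prim f) γ ⟨z, hz⟩]
    rw [sPrim, sPrim, ← h2]
    congr 2
    ext
    rw [modular_T_smul]
    simp [add_comm]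
  · have hz1 : (z + 1).im ≤ 0 := by simpa using hz
    simp only [Function.comp_apply, Complex.ofReal_one, ofComplex_apply_of_im_nonpos hz1,
      ofComplex_apply_of_im_nonpos (not_lt.mp hz)]

theorem tendsto_sPrim : Tendsto (sPrim f) atImInfty (𝓝 0) := by
  have h := (tendsto_prim f).const_mul tpi
  rw [mul_zero] at h
  exact h

theorem isQFun_sPrim : IsQFun (sPrim f) :=
  ⟨periodic_sPrim f, ((isPrimitive_prim f).const_smul tpi).mdiff,
    (tendsto_sPrim f).isBigO_one ℝ⟩

/-- `2 π i` times the primitive, in `q`. -/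
def sCusp : ℂ → ℂ := cuspFunction 1 (sPrim f)

theorem analyticOnNhd_sCusp : AnalyticOnNhd ℂ (sCusp f) (Metric.ball 0 1) :=
  (differentiableOn_cuspFunction_ball one_pos (isQFun_sPrim f).periodic (isQFun_sPrim f).mdiff
    (isQFun_sPrim f).bdd).analyticOnNhd Metric.isOpen_ball

theorem analyticAt_sCusp : AnalyticAt ℂ (sCusp f) 0 :=
  analyticOnNhd_sCusp f 0 (Metric.mem_ball_self one_pos)

theorem sCusp_qParam (τ : ℍ) : sCusp f (Function.Periodic.qParam 1 τ) = sPrim f τ :=
  eq_cuspFunction τ one_ne_zero (periodic_sPrim f)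

omit [NeZero N] in
theorem exists_qParam_eq {q : ℂ} (hq : ‖q‖ < 1) (h0 : q ≠ 0) :
    ∃ τ : ℍ, Function.Periodic.qParam 1 (τ : ℂ) = q := by
  have hr := Function.Periodic.qParam_right_inv (h := (1 : ℝ)) one_ne_zero h0
  have him : 0 < (Function.Periodic.invQParam (1 : ℝ) q).im := by
    rw [← hr, Function.Periodic.norm_qParam, Real.exp_lt_one_iff, div_one] at hq
    nlinarith [Real.pi_pos]
  exact ⟨⟨_, him⟩, hr⟩

theorem cuspFunction_zero {g : ℍ → ℂ} (hg : IsQFun g) (h0 : IsZeroAtImInfty g) :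
    cuspFunction 1 g 0 = 0 := by
  refine tendsto_nhds_unique ((hg.analyticAt.continuousAt.tendsto.comp
    (qParam_tendsto_atImInfty one_pos)).congr fun w => ?_) h0
  exact eq_cuspFunction w one_ne_zero hg.periodic

theorem sCusp_zero : sCusp f 0 = 0 :=
  cuspFunction_zero (isQFun_sPrim f) (tendsto_sPrim f)

theorem mul_deriv_sCusp {q : ℂ} (hq : ‖q‖ < 1) :
    q * deriv (sCusp f) q = cuspFunction 1 f q := by
  have hf' := coe_mem_cuspForms f
  rcases eq_or_ne q 0 with rfl | h0
  · rw [zero_mul, cuspFunction_zero (isQFun_of_mem hf'.1) (by simpa using hf'.2 1)]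
  obtain ⟨τ, rfl⟩ := exists_qParam_eq hq h0
  have hin : HasDerivAt (fun z : ℂ => Function.Periodic.qParam 1 z)
      (Function.Periodic.qParam 1 (τ : ℂ) * tpi) τ := by
    have h1 : HasDerivAt (fun z : ℂ => 2 * (π : ℂ) * I * z / ((1 : ℝ) : ℂ)) tpi (τ : ℂ) := by
      simpa [tpi] using (hasDerivAt_id (τ : ℂ)).const_mul (2 * (π : ℂ) * I)
    exact h1.cexp
  have hout : HasDerivAt (sCusp f) (deriv (sCusp f) (Function.Periodic.qParam 1 (τ : ℂ)))
      (Function.Periodic.qParam 1 (τ : ℂ)) :=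
    ((analyticOnNhd_sCusp f _ (mem_ball_zero_iff.mpr hq)).differentiableAt).hasDerivAt
  have h2 := (isPrimitive_prim f τ).const_mul tpi
  have hev : (sCusp f ∘ fun z : ℂ => Function.Periodic.qParam 1 z) =ᶠ[𝓝 (τ : ℂ)]
      fun z => tpi * (prim f ∘ ofComplex) z := by
    filter_upwards [isOpen_upperHalfPlaneSet.mem_nhds τ.im_pos] with z hz
    simp only [Function.comp_apply, ofComplex_apply_of_im_pos hz]
    exact sCusp_qParam f ⟨z, hz⟩
  have h3 := ((hout.comp (τ : ℂ) hin).congr_of_eventuallyEq hev.symm).unique h2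
  rw [eq_cuspFunction τ one_ne_zero (isQFun_of_mem hf'.1).periodic]
  apply mul_left_cancel₀ tpi_ne_zero
  linear_combination h3

theorem deriv_sCusp_zero (h1 : ModularFormClass.qCoeff f 1 = 1) : deriv (sCusp f) 0 = 1 := by
  have e : tay (fun q => q * deriv (sCusp f) q) = qExp ⇑f := by
    rw [tay_congr (G := cuspFunction 1 f)]
    · rfl
    · filter_upwards [Metric.ball_mem_nhds (0 : ℂ) one_pos] with q hq
      exact mul_deriv_sCusp f (mem_ball_zero_iff.mp hq)
  rw [tay_mul_deriv (analyticAt_sCusp f)] at e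
  have h := congrArg (PowerSeries.coeff 1) e
  rw [coeff_thetaSer] at h
  simp only [tay, PowerSeries.coeff_mk, Nat.cast_one, one_mul, Nat.factorial_one, inv_one,
    iteratedDeriv_one] at h
  rw [h]
  exact h1

variable {f}

theorem eventually_sCusp (h1 : ModularFormClass.qCoeff f 1 = 1) (M : PeriodPair) :
    ∀ᶠ q in 𝓝[≠] (0 : ℂ), q ≠ 0 ∧ ‖q‖ < 1 ∧ sCusp f q ≠ 0 ∧ sCusp f q ∉ M.lattice ∧
      deriv (sCusp f) q ≠ 0 := by
  have hd : HasDerivAt (sCusp f) 1 0 :=
    deriv_sCusp_zero f h1 ▸ (analyticAt_sCusp f).differentiableAt.hasDerivAt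
  have ht : Tendsto (sCusp f) (𝓝[≠] 0) (𝓝[≠] 0) := by
    simpa [sCusp_zero] using hd.tendsto_nhdsNE one_ne_zero
  filter_upwards [self_mem_nhdsWithin, mem_nhdsWithin_of_mem_nhds (Metric.ball_mem_nhds 0 one_pos),
    ht.eventually self_mem_nhdsWithin, ht.eventually (eventually_notMem_zero M),
    mem_nhdsWithin_of_mem_nhds ((analyticAt_sCusp f).deriv.continuousAt.eventually_ne
      (by rw [deriv_sCusp_zero f h1]; exact one_ne_zero))] with q a b c d e
  exact ⟨a, mem_ball_zero_iff.mp b, c, d, e⟩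

/-- The data of `℘(Φ) = h / G` near `i∞`: the equation and the leading term. -/
theorem tay_relations (h1 : ModularFormClass.qCoeff f 1 = 1) (L : PeriodPair) {k : ℤ}
    {G h : ℍ → ℂ} (hG : G ∈ cuspForms N k) (hh : h ∈ cuspForms N k)
    (heq : ∀ τ, h τ = G τ * L.weierstrassP (sPrim f τ)) :
    odeSer L.g₂ L.g₃ (qExp ⇑f) (qExp h) (qExp G) = 0 ∧
      ∃ w : ℂ⟦X⟧, PowerSeries.constantCoeff w = 1 ∧ PowerSeries.X ^ 2 * qExp h = qExp G * w := by
  set U := cuspFunction 1 h
  set V := cuspFunction 1 G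
  set P := sCusp f
  set ψ := cuspFunction 1 f
  have hGq := isQFun_of_mem hG.1
  have hhq := isQFun_of_mem hh.1
  have hU : AnalyticAt ℂ U 0 := hhq.analyticAt
  have hV : AnalyticAt ℂ V 0 := hGq.analyticAt
  have hψ : AnalyticAt ℂ ψ 0 := (isQFun_of_mem (coe_mem_cuspForms f).1).analyticAt
  have hUV : ∀ q : ℂ, q ≠ 0 → ‖q‖ < 1 → U q = V q * L.weierstrassP (P q) := fun q h0 hq => by
    obtain ⟨τ, rfl⟩ := exists_qParam_eq hq h0
    simp only [U, V, P, eq_cuspFunction τ one_ne_zero hhq.periodic,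
      eq_cuspFunction τ one_ne_zero hGq.periodic, sCusp_qParam, heq τ]
  have hode : ∀ᶠ q in 𝓝 (0 : ℂ), odeFun L.g₂ L.g₃ ψ U V q = 0 := by
    refine ((analyticAt_odeFun _ _ hψ hU hV).frequently_zero_iff_eventually_zero).mp
      (Eventually.frequently ?_)
    filter_upwards [eventually_sCusp h1 L] with q hq5
    obtain ⟨h0, hq, -, hPL, -⟩ := hq5
    have hVd : HasDerivAt V (deriv V q) q :=
      ((differentiableOn_cuspFunction_ball one_pos hGq.periodic hGq.mdiff hGq.bdd).differentiableAt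
        (Metric.isOpen_ball.mem_nhds (mem_ball_zero_iff.mpr hq))).hasDerivAt
    have hPd : HasDerivAt P (deriv P q) q :=
      (analyticOnNhd_sCusp f q (mem_ball_zero_iff.mpr hq)).differentiableAt.hasDerivAt
    have hd := hVd.mul ((FA.Mazur.Wp.hasDerivAt_wp L hPL).comp q hPd)
    have hev : U =ᶠ[𝓝 q] fun z => V z * L.weierstrassP (P z) := by
      filter_upwards [isOpen_ne.mem_nhds h0,
        Metric.isOpen_ball.mem_nhds (mem_ball_zero_iff.mpr hq)] with z hz hz'
      exact hUV z hz (mem_ball_zero_iff.mp hz')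
    have hUd : deriv U q = deriv V q * L.weierstrassP (P q) +
        V q * (L.derivWeierstrassP (P q) * deriv P q) :=
      (hd.congr_of_eventuallyEq hev).deriv
    have hψq : q * deriv P q = ψ q := mul_deriv_sCusp f hq
    simp only [odeFun, hUd, hUV q h0 hq, ← hψq]
    linear_combination (q * deriv P q) ^ 2 * V q ^ 4 * L.derivWeierstrassP_sq _ hPL
  refine ⟨?_, ?_⟩
  · have := tay_eq_zero_of_eventually hode
    rwa [tay_odeFun _ _ hψ hU hV] at this
  · set D := dslope P 0
    have hD : AnalyticAt ℂ D 0 :=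
      (analyticAt_sCusp f).hasFPowerSeriesAt.has_fpower_series_dslope_fslope.analyticAt
    have hD0 : D 0 = 1 := by simp [D, P, dslope_same, deriv_sCusp_zero f h1]
    set om : ℂ → ℂ := fun q => (D q ^ 2)⁻¹ + q ^ 2 * L.weierstrassPExcept 0 (P q)
    have hX : AnalyticAt ℂ (fun q => L.weierstrassPExcept 0 (P q)) 0 :=
      (L.analyticAt_weierstrassPExcept 0).comp_of_eq (analyticAt_sCusp f) (sCusp_zero f)
    have hom : AnalyticAt ℂ om 0 :=
      ((hD.pow 2).inv (by simp [hD0])).add ((analyticAt_id.pow 2).mul hX)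
    refine ⟨tay om, ?_, ?_⟩
    · rw [← PowerSeries.coeff_zero_eq_constantCoeff_apply]
      simp [tay, om, hD0]
    · have hev : (fun q => q ^ 2 * U q) =ᶠ[𝓝 0] fun q => V q * om q := by
        filter_upwards [Metric.ball_mem_nhds (0 : ℂ) one_pos,
          hD.continuousAt.eventually_ne (by rw [hD0]; exact one_ne_zero)] with q hq hDq
        rcases eq_or_ne q 0 with rfl | h0
        · simp [V, cuspFunction_zero hGq (by simpa using hG.2 1)]
        · have hPq : P q = q * D q := by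
            have h := sub_smul_dslope P 0 q
            rw [show P 0 = 0 from sCusp_zero f, sub_zero, sub_zero, smul_eq_mul] at h
            exact h.symm
          simp only [om]
          rw [hUV q h0 (mem_ball_zero_iff.mp hq), FA.Mazur.Wp.wp_eq_except L (P q), hPq]
          field_simp
          ring
      have h := tay_congr hev
      rw [tay_mul (F := fun q : ℂ => q ^ 2) (analyticAt_id.pow 2) hU, tay_id_pow,
        tay_mul hV hom] at h
      exact h

/-- A quotient of two series with the equation and the leading term `q⁻²` is `℘` at `Φ`. -/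
theorem eventually_eq_of_ode (h1 : ModularFormClass.qCoeff f 1 = 1) (M : PeriodPair)
    {U V : ℂ → ℂ} (hU : AnalyticAt ℂ U 0) (hV : AnalyticAt ℂ V 0) (hV0 : tay V ≠ 0)
    (hode : odeSer M.g₂ M.g₃ (qExp ⇑f) (tay U) (tay V) = 0) {w : ℂ⟦X⟧}
    (hw : PowerSeries.constantCoeff w = 1) (hlead : PowerSeries.X ^ 2 * tay U = tay V * w) :
    ∀ᶠ q in 𝓝[≠] (0 : ℂ), U q = V q * M.weierstrassP (sCusp f q) := by
  set P := sCusp f
  set ψ := cuspFunction 1 f
  have hψ : AnalyticAt ℂ ψ 0 := (isQFun_of_mem (coe_mem_cuspForms f).1).analyticAt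
  have hode' : ∀ᶠ q in 𝓝 (0 : ℂ), odeFun M.g₂ M.g₃ ψ U V q = 0 :=
    eventually_eq_zero_of_tay (analyticAt_odeFun _ _ hψ hU hV)
      (by rw [tay_odeFun _ _ hψ hU hV]; exact hode)
  -- the leading terms
  obtain ⟨m, V₁, hV₁, hV₁0, hVe⟩ := hV.exists_eventuallyEq_pow_smul_nonzero_iff.mpr
    fun h => hV0 (tay_eq_zero_of_eventually h)
  simp only [sub_zero, smul_eq_mul] at hVe
  have hVs : tay V = PowerSeries.X ^ m * tay V₁ := by
    rw [tay_congr hVe, tay_mul (F := fun q : ℂ => q ^ m) (analyticAt_id.pow m) hV₁, tay_id_pow]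
  have hU2 : AnalyticAt ℂ (fun q => q ^ 2 * U q) 0 := (analyticAt_id.pow 2).mul hU
  have hU2s : tay (fun q => q ^ 2 * U q) = PowerSeries.X ^ m * (tay V₁ * w) := by
    rw [tay_mul (F := fun q : ℂ => q ^ 2) (analyticAt_id.pow 2) hU, tay_id_pow, hlead, hVs,
      mul_assoc]
  have hc : PowerSeries.constantCoeff (tay V₁ * w) = V₁ 0 := by
    rw [map_mul, hw, mul_one, ← PowerSeries.coeff_zero_eq_constantCoeff_apply]
    simp [tay]
  obtain ⟨n, R, hR, hR0, hRe⟩ := hU2.exists_eventuallyEq_pow_smul_nonzero_iff.mpr fun h => by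
    have h2 := congrArg (PowerSeries.coeff m) (hU2s.symm.trans (tay_eq_zero_of_eventually h))
    rw [PowerSeries.coeff_X_pow_mul', if_pos le_rfl, Nat.sub_self,
      PowerSeries.coeff_zero_eq_constantCoeff_apply, hc, map_zero] at h2
    exact hV₁0 h2
  simp only [sub_zero, smul_eq_mul] at hRe
  have hser : PowerSeries.X ^ n * tay R = PowerSeries.X ^ m * (tay V₁ * w) := by
    rw [← hU2s, tay_congr hRe, tay_mul (F := fun q : ℂ => q ^ n) (analyticAt_id.pow n) hR,
      tay_id_pow]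
  have hR0' : PowerSeries.constantCoeff (tay R) = R 0 := by
    rw [← PowerSeries.coeff_zero_eq_constantCoeff_apply]
    simp [tay]
  have hnm : n = m := by
    rcases lt_trichotomy n m with hlt | heq | hgt
    · have h2 := congrArg (PowerSeries.coeff n) hser
      rw [PowerSeries.coeff_X_pow_mul', if_pos le_rfl, PowerSeries.coeff_X_pow_mul',
        if_neg (by omega), Nat.sub_self, PowerSeries.coeff_zero_eq_constantCoeff_apply, hR0'] at h2
      exact absurd h2 hR0
    · exact heq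
    · have h2 := congrArg (PowerSeries.coeff m) hser
      rw [PowerSeries.coeff_X_pow_mul', if_neg (by omega), PowerSeries.coeff_X_pow_mul',
        if_pos le_rfl, Nat.sub_self, PowerSeries.coeff_zero_eq_constantCoeff_apply, hc] at h2
      exact absurd h2.symm hV₁0
  subst hnm
  have hRV : R 0 = V₁ 0 := by
    have h2 := congrArg (PowerSeries.coeff n) hser
    rw [PowerSeries.coeff_X_pow_mul', if_pos le_rfl, PowerSeries.coeff_X_pow_mul', if_pos le_rfl,
      Nat.sub_self, PowerSeries.coeff_zero_eq_constantCoeff_apply,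
      PowerSeries.coeff_zero_eq_constantCoeff_apply, hR0', hc] at h2
    exact h2
  -- the inverse of the parameter
  have hPd : HasDerivAt P 1 0 :=
    deriv_sCusp_zero f h1 ▸ (analyticAt_sCusp f).differentiableAt.hasDerivAt
  have hP0' : deriv P 0 ≠ 0 := by rw [hPd.deriv]; exact one_ne_zero
  set hPs := (analyticAt_sCusp f).hasStrictDerivAt
  set r : ℂ → ℂ := hPs.localInverse _ _ _ hP0' with hr
  have hra : AnalyticAt ℂ r 0 := by
    simpa [P, sCusp_zero] using (analyticAt_sCusp f).analyticAt_localInverse hP0'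
  have hrP : ∀ᶠ q in 𝓝 (0 : ℂ), r (P q) = q := hPs.eventually_left_inverse hP0'
  have hr0 : r 0 = 0 := by simpa [P, sCusp_zero] using hrP.self_of_nhds
  have hPr : ∀ᶠ t in 𝓝 (0 : ℂ), P (r t) = t := by
    simpa [P, sCusp_zero] using hPs.eventually_right_inverse hP0'
  have hrd : HasDerivAt r 1 0 := by
    have h2 := ((hr0.symm ▸ hPd : HasDerivAt P 1 (r 0)).comp 0
      hra.differentiableAt.hasDerivAt).congr_of_eventuallyEq (f₁ := id)
        (hPr.mono fun t ht => ht.symm)
    have h3 := h2.unique (hasDerivAt_id 0)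
    rw [one_mul] at h3
    exact h3 ▸ hra.differentiableAt.hasDerivAt
  have hrT : Tendsto r (𝓝[≠] 0) (𝓝[≠] 0) := by
    simpa [hr0] using hrd.tendsto_nhdsNE one_ne_zero
  set ρ := dslope r 0
  have hρ : AnalyticAt ℂ ρ 0 := hra.hasFPowerSeriesAt.has_fpower_series_dslope_fslope.analyticAt
  have hρ0 : ρ 0 = 1 := by simp [ρ, dslope_same, hrd.deriv]
  have hrρ : ∀ t, r t = t * ρ t := fun t => by
    have h := sub_smul_dslope r 0 t
    rw [hr0, sub_zero, sub_zero, smul_eq_mul] at h
    exact h.symm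
  set K : ℂ → ℂ := fun t => R (r t) * (V₁ (r t) * ρ t ^ 2)⁻¹ with hK
  have hKa : AnalyticAt ℂ K 0 := (hR.comp_of_eq hra hr0).mul
    (((hV₁.comp_of_eq hra hr0).mul (hρ.pow 2)).inv (by simp [hr0, hρ0, hV₁0]))
  have hK0 : K 0 = 1 := by simp [hK, hr0, hρ0, hRV, hV₁0]
  set F : ℂ → ℂ := fun t => U (r t) / V (r t)
  -- the equation and the shape of `F`
  have hgood : ∀ᶠ q in 𝓝[≠] (0 : ℂ), V q ≠ 0 ∧ U q * q ^ 2 = q ^ n * R q ∧
      V q = q ^ n * V₁ q ∧ (q * deriv U q * V q - U q * (q * deriv V q)) ^ 2 =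
        ψ q ^ 2 * (4 * U q ^ 3 * V q - M.g₂ * U q * V q ^ 3 - M.g₃ * V q ^ 4) ∧
      q * deriv P q = ψ q ∧ deriv P q ≠ 0 ∧ q ≠ 0 ∧
      AnalyticAt ℂ U q ∧ AnalyticAt ℂ V q ∧ AnalyticAt ℂ P q := by
    filter_upwards [mem_nhdsWithin_of_mem_nhds hRe, mem_nhdsWithin_of_mem_nhds hVe,
      mem_nhdsWithin_of_mem_nhds (hV₁.continuousAt.eventually_ne hV₁0),
      mem_nhdsWithin_of_mem_nhds hode', eventually_sCusp h1 M,
      mem_nhdsWithin_of_mem_nhds hU.eventually_analyticAt,
      mem_nhdsWithin_of_mem_nhds hV.eventually_analyticAt]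
      with q e1 e2 e3 e4 hq5 e5 e6
    obtain ⟨h0, hq, -, -, hd⟩ := hq5
    refine ⟨?_, by rw [mul_comm]; exact e1, e2, sub_eq_zero.mp e4, mul_deriv_sCusp f hq, hd, h0,
      e5, e6, analyticOnNhd_sCusp f q (mem_ball_zero_iff.mpr hq)⟩
    rw [e2]
    exact mul_ne_zero (pow_ne_zero n h0) e3
  have hFK : ∀ᶠ t in 𝓝[≠] (0 : ℂ), F t = K t / t ^ 2 := by
    filter_upwards [hrT.eventually hgood, self_mem_nhdsWithin] with t hgt ht
    obtain ⟨hV', hU', hVq, -, -, -, hr', -⟩ := hgt
    have ht : t ≠ 0 := ht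
    have hρt : ρ t ≠ 0 := fun h => hr' (by rw [hrρ, h, mul_zero])
    have hV1t : V₁ (r t) ≠ 0 := fun h => hV' (by rw [hVq, h, mul_zero])
    have e : U (r t) = r t ^ n * R (r t) / r t ^ 2 := by
      rw [← hU', mul_div_cancel_right₀ _ (pow_ne_zero 2 hr')]
    simp only [F, hK]
    rw [e, hVq, hrρ]
    field_simp
  have hFode : ∀ᶠ t in 𝓝[≠] (0 : ℂ),
      deriv F t ^ 2 = 4 * F t ^ 3 - M.g₂ * F t - M.g₃ := by
    filter_upwards [hrT.eventually hgood, mem_nhdsWithin_of_mem_nhds hra.eventually_analyticAt,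
      mem_nhdsWithin_of_mem_nhds hPr.eventually_nhds]
      with t hgt hrt hPt
    obtain ⟨hV', -, -, he, hψq, hd, hq0, hUa, hVa, hPa⟩ := hgt
    have hPd' := (hPa.differentiableAt.hasDerivAt.comp t hrt.differentiableAt.hasDerivAt)
      |>.congr_of_eventuallyEq (f₁ := id) (hPt.mono fun s hs => hs.symm)
    have e1 : deriv P (r t) * deriv r t = 1 := hPd'.unique (hasDerivAt_id t)
    have hdF : deriv F t = (deriv U (r t) * V (r t) - U (r t) * deriv V (r t)) / V (r t) ^ 2 *
        deriv r t :=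
      ((hUa.differentiableAt.hasDerivAt.div hVa.differentiableAt.hasDerivAt hV').comp t
        hrt.differentiableAt.hasDerivAt).deriv
    have hψ0 : ψ (r t) ≠ 0 := hψq ▸ mul_ne_zero hq0 hd
    have hdr : deriv r t = r t / ψ (r t) := by
      rw [eq_div_iff hψ0, ← hψq]
      linear_combination (r t) * e1
    rw [hdF, hdr]
    simp only [F]
    field_simp
    linear_combination he
  -- the subleading term vanishes
  have hKode : ∀ᶠ t in 𝓝 (0 : ℂ), (t * deriv K t - 2 * K t) ^ 2 =
      4 * K t ^ 3 - M.g₂ * t ^ 4 * K t - M.g₃ * t ^ 6 := by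
    refine ((((analyticAt_id.mul hKa.deriv).sub (analyticAt_const.mul hKa)).pow 2)
      |>.frequently_eq_iff_eventually_eq (((analyticAt_const.mul (hKa.pow 3)).sub
        ((analyticAt_const.mul (analyticAt_id.pow 4)).mul hKa)).sub
          (analyticAt_const.mul (analyticAt_id.pow 6)))).mp (Eventually.frequently ?_)
    filter_upwards [FA.ClassNumberOne.eventually_nhds_of_punctured hFK, hFK, hFode,
      mem_nhdsWithin_of_mem_nhds hKa.eventually_analyticAt, self_mem_nhdsWithin]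
      with t hev hF1 hF2 hKt ht
    have ht : t ≠ 0 := ht
    have hdF : deriv F t = (deriv K t * t ^ 2 - K t * (2 * t)) / (t ^ 2) ^ 2 := by
      have h3 : HasDerivAt (fun s : ℂ => s ^ 2) (2 * t) t := by
        simpa using (hasDerivAt_id t).fun_pow 2
      exact ((hKt.differentiableAt.hasDerivAt.div h3 (pow_ne_zero 2 ht)).congr_of_eventuallyEq
        hev).deriv
    rw [hdF, hF1] at hF2
    field_simp at hF2
    simp only [Pi.pow_apply, Pi.mul_apply, Pi.sub_apply, id_eq]
    linear_combination hF2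
  have hK1 : deriv K 0 = 0 := by
    have hl := (((hasDerivAt_id (0 : ℂ)).mul hKa.deriv.differentiableAt.hasDerivAt).sub
      (hKa.differentiableAt.hasDerivAt.const_mul 2)).pow 2
    have hr2 := ((((hKa.differentiableAt.hasDerivAt.pow 3).const_mul 4).sub
      ((((hasDerivAt_id (0 : ℂ)).pow 4).const_mul M.g₂).mul hKa.differentiableAt.hasDerivAt)).sub
        (((hasDerivAt_id (0 : ℂ)).pow 6).const_mul M.g₃))
    have h2 := (hl.congr_of_eventuallyEq (hKode.mono fun t ht => ht.symm)).unique hr2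
    simp [hK0] at h2
    linear_combination (-1 / 8 : ℂ) * h2
  set f₂ := dslope (dslope (fun t => K t - 1) 0) 0
  have hK1a : AnalyticAt ℂ (fun t => K t - 1) 0 := hKa.sub analyticAt_const
  have hd1 : AnalyticAt ℂ (dslope (fun t => K t - 1) 0) 0 :=
    hK1a.hasFPowerSeriesAt.has_fpower_series_dslope_fslope.analyticAt
  have hf₂ : AnalyticAt ℂ f₂ 0 :=
    hd1.hasFPowerSeriesAt.has_fpower_series_dslope_fslope.analyticAt
  have hKf : ∀ t, K t = 1 + t ^ 2 * f₂ t := fun t => by
    have a1 := sub_smul_dslope (fun t => K t - 1) 0 t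
    have a2 := sub_smul_dslope (dslope (fun t => K t - 1) 0) 0 t
    simp only [sub_zero, smul_eq_mul, hK0, sub_self, dslope_same, deriv_sub_const, hK1] at a1 a2
    simp only [f₂]
    linear_combination -t * a2 - a1
  have hFM : ∀ᶠ t in 𝓝[≠] (0 : ℂ), F t = M.weierstrassP t := by
    refine FA.ClassNumberOne.eq_of_ode (c := 1) (A := M.g₂) (B := M.g₃) one_ne_zero hf₂
      (analyticAt_except_zero M).1 ?_ ?_ ?_ ?_
    · filter_upwards [hFK, self_mem_nhdsWithin] with t ht h0
      have h0 : t ≠ 0 := h0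
      rw [ht, hKf]
      field_simp
    · refine Eventually.of_forall fun t => ?_
      rw [FA.Mazur.Wp.wp_eq_except M t, one_mul, add_comm]
    · filter_upwards [hFode] with t ht
      rw [ht, one_mul]
    · filter_upwards [eventually_notMem_zero M] with t ht
      rw [(FA.Mazur.Wp.hasDerivAt_wp M ht).deriv, M.derivWeierstrassP_sq t ht, one_mul]
  have hPT : Tendsto P (𝓝[≠] 0) (𝓝[≠] 0) := by
    simpa [P, sCusp_zero] using hPd.tendsto_nhdsNE one_ne_zero
  filter_upwards [hPT.eventually hFM, mem_nhdsWithin_of_mem_nhds hrP, hgood] with q hq hrq hgq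
  simp only [F, hrq] at hq
  rw [← hq, mul_div_cancel₀ _ hgq.1]

/-- **The periods lie in every conjugate lattice.** -/
theorem periods_le_conjugate (hf : f ≠ 0) (h1 : ModularFormClass.qCoeff f 1 = 1)
    (σ : ℂ ≃+* ℂ) (hσ : ∀ n, σ (ModularFormClass.qCoeff f n) = ModularFormClass.qCoeff f n)
    (L₀ L M : PeriodPair) (h₀ : ∀ z : ℂ, z ∈ L₀.lattice ↔ z ∈ periods f)
    (hL : IsScaledPeriods f L) (h2 : M.g₂ = σ L.g₂) (h3 : M.g₃ = σ L.g₃) :
    ∀ z ∈ L.lattice, z ∈ M.lattice := by
  obtain ⟨k, G, h, hG, hh, hG0, heq⟩ := exists_pole_forms hf L₀ L h₀ hL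
  obtain ⟨hode, w, hw, hlead⟩ := tay_relations h1 L hG hh heq
  obtain ⟨G', hG', hG'q⟩ := exists_conjugate_cuspForm hG (σ : ℂ →+* ℂ)
  obtain ⟨h', hh', hh'q⟩ := exists_conjugate_cuspForm hh (σ : ℂ →+* ℂ)
  have hφ : PowerSeries.map (σ : ℂ →+* ℂ) (qExp ⇑f) = qExp ⇑f := by
    ext n
    simpa [ModularFormClass.qCoeff] using hσ n
  have hG'0 : qExp G' ≠ 0 := by
    rw [hG'q, Ne, map_eq_zero_iff _ (PowerSeries.map_injective _ σ.injective),
      (isQFun_of_mem hG.1).qExp_eq_zero_iff]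
    exact hG0
  have hnear : ∀ᶠ q in 𝓝[≠] (0 : ℂ), cuspFunction 1 h' q =
      cuspFunction 1 G' q * M.weierstrassP (sCusp f q) := by
    refine eventually_eq_of_ode h1 M (isQFun_of_mem hh'.1).analyticAt
      (isQFun_of_mem hG'.1).analyticAt hG'0 ?_ (w := PowerSeries.map (σ : ℂ →+* ℂ) w) ?_ ?_
    · have h4 := congrArg (PowerSeries.map (σ : ℂ →+* ℂ)) hode
      rw [map_odeSer, map_zero, hφ, ← hG'q, ← hh'q] at h4
      rw [h2, h3]
      exact h4
    · rw [← PowerSeries.coeff_zero_eq_constantCoeff_apply, PowerSeries.coeff_map,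
        PowerSeries.coeff_zero_eq_constantCoeff_apply, hw, map_one]
    · have h4 := congrArg (PowerSeries.map (σ : ℂ →+* ℂ)) hlead
      rw [map_mul, map_mul, map_pow, PowerSeries.map_X, ← hG'q, ← hh'q] at h4
      exact h4
  set Φ : ℂ → ℂ := sPrim f ∘ ofComplex
  set g' : ℂ → ℂ := G' ∘ ofComplex
  set D : ℂ → ℂ := fun z => (h' ∘ ofComplex) z - g' z * M.weierstrassP (Φ z) with hD
  have hga : ∀ {k : ℤ} {g : ℍ → ℂ}, g ∈ cuspForms N k → ∀ z : ℂ, 0 < z.im →
      AnalyticAt ℂ (g ∘ ofComplex) z := fun hg z hz =>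
    (UpperHalfPlane.mdifferentiable_iff.mp hg.1.2.1).analyticAt
      (isOpen_upperHalfPlaneSet.mem_nhds hz)
  have hDm : MeromorphicOn D {z : ℂ | 0 < z.im} := fun z hz =>
    (hga hh' z hz).meromorphicAt.sub ((hga hG' z hz).meromorphicAt.mul
      ((M.meromorphic_weierstrassP _).comp_analyticAt (analyticAt_sPrim hz)))
  obtain ⟨u₀, hu₀, hD0⟩ : ∃ u₀ : ℂ, 0 < u₀.im ∧ ∀ᶠ z in 𝓝 u₀, D z = 0 := by
    have hq : Tendsto (fun w : ℍ => Function.Periodic.qParam 1 (w : ℂ)) atImInfty (𝓝[≠] 0) :=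
      tendsto_nhdsWithin_of_tendsto_nhds_of_eventually_within _
        (qParam_tendsto_atImInfty one_pos) (Eventually.of_forall fun w => Complex.exp_ne_zero _)
    obtain ⟨A, hA⟩ := (atImInfty_mem _).mp (hq.eventually hnear)
    refine ⟨((max A 0 + 1 : ℝ) : ℂ) * I, by simpa using by positivity, ?_⟩
    filter_upwards [(isOpen_lt continuous_const Complex.continuous_im).mem_nhds
      (show max A 0 < (((max A 0 + 1 : ℝ) : ℂ) * I).im by simp)] with z hz
    have hz0 : 0 < z.im := (le_max_right A 0).trans_lt hz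
    have h4 := hA ⟨z, hz0⟩ ((le_max_left A 0).trans hz.le)
    simp only [hD, g', Φ, Function.comp_apply, ofComplex_apply_of_im_pos hz0, sub_eq_zero]
    simp only [Set.mem_ofPred_eq, eq_cuspFunction _ one_ne_zero (isQFun_of_mem hh'.1).periodic,
      eq_cuspFunction _ one_ne_zero (isQFun_of_mem hG'.1).periodic, sCusp_qParam] at h4
    exact h4
  have hall : ∀ z : ℂ, 0 < z.im → ∀ᶠ y in 𝓝[≠] z, D y = 0 := fun z hz => by
    by_contra hne
    have h5 := (hDm.exists_meromorphicOrderAt_ne_top_iff_forall_mem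
      ((convex_halfSpace_im_gt 0).isConnected ⟨_, hu₀⟩)).mp
      ⟨z, hz, fun h => hne (meromorphicOrderAt_eq_top_iff.mp h)⟩ u₀ hu₀
    exact h5 (meromorphicOrderAt_eq_top_iff.mpr (mem_nhdsWithin_of_mem_nhds hD0))
  intro x hx
  obtain ⟨_, ⟨γ₀, rfl⟩, rfl⟩ := (hL x).mp hx
  by_contra hnot
  set γ : Gamma0 N := γ₀.toMul
  set lam := tpi * periodMap N f γ₀
  have hlam : ∀ τ : ℍ, sPrim f ((γ : SL(2, ℤ)) • τ) = sPrim f τ + lam := fun τ => by
    have h4 := periodMap_apply f (isPrimitive_prim f) γ τ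
    simp only [γ, ofMul_toMul] at h4
    simp only [lam, sPrim, h4]
    ring
  have hinv : ∀ {k : ℤ} {g : ℍ → ℂ}, g ∈ cuspForms N k → ∀ τ : ℍ,
      g ((γ : SL(2, ℤ)) • τ) * denom ((γ : SL(2, ℤ)) : GL (Fin 2) ℝ) τ ^ (-k) = g τ :=
    fun hg τ => by rw [← ModularForm.SL_slash_apply, hg.1.1 _ γ.2]
  -- a point with all the properties
  set z₁ : ℂ := (UpperHalfPlane.I : ℂ)
  have hz₁ : 0 < z₁.im := UpperHalfPlane.I.im_pos
  set t : ℂ → ℂ := fun z => ((((γ : SL(2, ℤ)) : GL (Fin 2) ℝ) • ofComplex z : ℍ) : ℂ)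
  have hdet : (0 : ℝ) < (((γ : SL(2, ℤ)) : GL (Fin 2) ℝ)).det.val := by simp
  have hshift : ∀ z : ℂ, 0 < z.im → ∀ᶠ y in 𝓝[≠] z,
      g' y * M.weierstrassP (Φ y + lam) = g' y * M.weierstrassP (Φ y) := fun z hz => by
    have ht : Tendsto t (𝓝[≠] z) (𝓝[≠] (t z)) :=
      ((UpperHalfPlane.analyticAt_smul hdet ⟨z, hz⟩).differentiableAt.hasDerivAt).tendsto_nhdsNE
        (UpperHalfPlane.deriv_smul_ne_zero hdet ⟨z, hz⟩)
    filter_upwards [hall z hz, ht.eventually (hall (t z) (UpperHalfPlane.im_pos _)),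
      mem_nhdsWithin_of_mem_nhds (isOpen_upperHalfPlaneSet.mem_nhds hz)] with y hy hy' hyi
    simp only [hD, g', Φ, t, Function.comp_apply, ofComplex_apply, sub_eq_zero] at hy hy' ⊢
    have a1 := hinv hh' (ofComplex y)
    have a2 := hinv hG' (ofComplex y)
    rw [← hlam (ofComplex y),
      ← a2, mul_right_comm]
    erw [← hy', a1]
    rw [a2]
    exact hy
  have hΦa := analyticAt_sPrim (f := f) hz₁
  have hgne : ∀ᶠ y in 𝓝[≠] z₁, g' y ≠ 0 := by
    refine ((hga hG' z₁ hz₁).eventually_eq_zero_or_eventually_ne_zero).resolve_left fun h => hG'0 ?_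
    rw [(isQFun_of_mem hG'.1).qExp_eq_zero_iff]
    exact UpperHalfPlane.eq_zero_of_frequently hG'.1.2.1 (τ := UpperHalfPlane.I)
      (Eventually.frequently (mem_nhdsWithin_of_mem_nhds (by
        filter_upwards [UpperHalfPlane.continuous_coe.continuousAt.eventually h] with τ hτ
        simpa [g'] using hτ)))
  have hΦne : ∀ a : ℂ, ∀ᶠ y in 𝓝[≠] z₁, Φ y ≠ a := fun a => by
    refine (((hΦa.sub analyticAt_const).eventually_eq_zero_or_eventually_ne_zero).resolve_left
      fun h => ?_).mono fun y hy => sub_ne_zero.mp hy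
    have hU : AnalyticOnNhd ℂ Φ {z : ℂ | 0 < z.im} := fun z hz => analyticAt_sPrim hz
    have hconst := hU.eqOn_of_preconnected_of_eventuallyEq (g := fun _ => a)
      analyticOnNhd_const (convex_halfSpace_im_gt 0).isPreconnected hz₁
      (h.mono fun z hz => sub_eq_zero.mp hz)
    refine hf (DFunLike.coe_injective ((isPrimitive_prim f).eq_zero_of_const
      (c := a / tpi) fun τ => ?_))
    rw [eq_div_iff tpi_ne_zero, mul_comm]
    simpa [Φ, sPrim] using hconst (x := (τ : ℂ)) τ.im_pos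
  have hout : ∀ a : ℂ, ∀ᶠ y in 𝓝[≠] z₁, Φ y + a ∉ M.lattice := fun a => by
    have hc : ContinuousAt (fun y => Φ y + a) z₁ := hΦa.continuousAt.add continuousAt_const
    filter_upwards [mem_nhdsWithin_of_mem_nhds (hc.eventually
      (M.compl_lattice_sdiff_singleton_mem_nhds (Φ z₁ + a))), hΦne (Φ z₁)] with y hy hy' hmem
    exact hy ⟨hmem, fun e => hy' (by simpa using e)⟩
  obtain ⟨z₂, hz₂g, hz₂a, hz₂b, hz₂⟩ := (hgne.and ((hout lam).and
    ((hout 0).and (mem_nhdsWithin_of_mem_nhds (isOpen_upperHalfPlaneSet.mem_nhds hz₁))))).exists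
  rw [add_zero] at hz₂b
  set t₀ := Φ z₂
  have hfr : ∃ᶠ s in 𝓝[≠] t₀, M.weierstrassP (s + lam) = M.weierstrassP s := by
    have hT : Tendsto Φ (𝓝[≠] z₂) (𝓝[≠] t₀) := by
      refine tendsto_nhdsWithin_of_tendsto_nhds_of_eventually_within _
        ((analyticAt_sPrim hz₂).continuousAt.tendsto.mono_left nhdsWithin_le_nhds) ?_
      refine (((analyticAt_sPrim hz₂).sub analyticAt_const)
        |>.eventually_eq_zero_or_eventually_ne_zero.resolve_left fun h => ?_).mono
          fun y hy => sub_ne_zero.mp hy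
      have hU : AnalyticOnNhd ℂ Φ {z : ℂ | 0 < z.im} := fun z hz => analyticAt_sPrim hz
      have hconst := hU.eqOn_of_preconnected_of_eventuallyEq (g := fun _ => t₀)
        analyticOnNhd_const (convex_halfSpace_im_gt 0).isPreconnected hz₂
        (h.mono fun z hz => sub_eq_zero.mp hz)
      obtain ⟨y, hy, hy'⟩ := ((hΦne t₀).and (mem_nhdsWithin_of_mem_nhds
        (isOpen_upperHalfPlaneSet.mem_nhds hz₁))).exists
      exact hy (hconst hy')
    refine hT.frequently (Eventually.frequently ?_)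
    filter_upwards [hshift z₂ hz₂,
      mem_nhdsWithin_of_mem_nhds ((hga hG' z₂ hz₂).continuousAt.eventually_ne hz₂g)] with y hy hy'
    exact mul_left_cancel₀ hy' hy
  set T : Set ℂ := (M.lattice : Set ℂ) ∪ (fun l => l - lam) '' M.lattice
  have hTc : T.Countable := (countable_lattice M).union ((countable_lattice M).image _)
  have hTout : ∀ s, s ∉ T → s ∉ M.lattice ∧ s + lam ∉ M.lattice := fun s hs =>
    ⟨fun h => hs (Or.inl h), fun h => hs (Or.inr ⟨_, h, by ring⟩)⟩
  have heqOn : Set.EqOn (fun s => M.weierstrassP (s + lam)) M.weierstrassP Tᶜ :=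
    AnalyticOnNhd.eqOn_of_preconnected_of_frequently_eq
      (fun s hs => (FA.Mazur.Wp.analyticAt_wp M (hTout s hs).2).comp_of_eq
        (analyticAt_id.add analyticAt_const) rfl)
      (fun s hs => FA.Mazur.Wp.analyticAt_wp M (hTout s hs).1)
      (isPreconnected_compl_countable hTc)
      (show t₀ ∉ T by
        rintro (h | ⟨l, hl, e⟩)
        · exact hz₂b h
        · exact hz₂a (by rw [show Φ z₂ + lam = l from eq_sub_iff_add_eq.mp e.symm]; exact hl))
      hfr
  refine FA.ClassNumberOne.not_tendsto_wp M (M.weierstrassP lam) ?_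
  have hc : Tendsto (fun s => M.weierstrassP (s + lam)) (𝓝[≠] 0) (𝓝 (M.weierstrassP lam)) := by
    refine Tendsto.mono_left ?_ nhdsWithin_le_nhds
    have h8 := (((FA.Mazur.Wp.analyticAt_wp M hnot).continuousAt).comp_of_eq
      (continuous_add_const lam).continuousAt (zero_add lam)).tendsto
    simpa [Function.comp_def] using h8
  refine hc.congr' ?_
  have h9 : ∀ᶠ s in 𝓝 (0 : ℂ), s + lam ∉ M.lattice :=
    ((continuous_add_const lam).tendsto' 0 lam (zero_add lam)).eventually
      ((isOpen_latticeCompl M).eventually_mem (by simpa using hnot))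
  filter_upwards [eventually_notMem_zero M, mem_nhdsWithin_of_mem_nhds h9] with s hs hs'
  refine heqOn ?_
  rintro (h | ⟨l, hl, e⟩)
  · exact hs h
  · exact hs' (by rw [show s + lam = l by rw [← e]; ring]; exact hl)

end FA.ModularParametrization

end
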