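import Fermat.Agent.ModularParametrization.Basic
import Fermat.Agent.PadicL.Interpolation

/-!
# The order of the image of the cusp `0`

The image of the cusp `0` on the curve of the period lattice of an eigenform with integral
coefficients has finite order dividing `1 + p - a_p` for every prime `p ∤ N`.
-/

set_option autoImplicit false

noncomputable section

namespace FA.ModularParametrization

open UpperHalfPlane hiding I
open Complex CongruenceSubgroup ModularCurve FA.Period FA.ManinDrinfeld FA.PeriodLattice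
open FA.Mazur.Wp
open scoped MatrixGroups Real

variable {N : ℕ} [NeZero N] {f : CuspForm (Gamma0 N) 2} {a : ℕ → ℤ} (L : PeriodPair)
  (hL : ∀ z : ℂ, z ∈ L.lattice ↔ z ∈ periods f)

include hL

omit [NeZero N] in
theorem zsmul_unif_eq_zero_iff (n : ℤ) (z : ℂ) :
    n • unif L z = 0 ↔ (n : ℂ) * z ∈ periods f := by
  rw [← unifHom_apply, ← map_zsmul, unifHom_apply, unif_eq_zero_iff, hL, zsmul_eq_mul]

/-- The image of the cusp `0` has finite order. -/
theorem isOfFinAddOrder_unif_toZero : IsOfFinAddOrder (unif L (toZero f)) := by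
  obtain ⟨n, γ, hn, h⟩ := exists_smul_toZero_eq_period N
  refine isOfFinAddOrder_iff_nsmul_eq_zero.mpr ⟨n, hn, ?_⟩
  rw [← natCast_zsmul, zsmul_unif_eq_zero_iff L hL, Int.cast_natCast, h f]
  exact ⟨γ, rfl⟩

/-- **Eisenstein congruence**: the order of the image of the cusp `0` divides `1 + p - a_p`. -/
theorem addOrderOf_unif_toZero_dvd (hf : f.IsNormalizedEigenform)
    (ha : ∀ n, ModularFormClass.qCoeff f n = (a n : ℂ)) {p : ℕ} (hp : p.Prime) (hpN : ¬ p ∣ N) :
    (addOrderOf (unif L (toZero f)) : ℤ) ∣ 1 + (p : ℤ) - a p := by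
  have : NeZero p := ⟨hp.ne_zero⟩
  obtain ⟨γ, hγ⟩ := eigen_mul_toZero_mem_periods (N := N) hp hpN
  refine addOrderOf_dvd_iff_zsmul_eq_zero.mpr ((zsmul_unif_eq_zero_iff L hL _ _).mpr ?_)
  push_cast
  rw [hγ f (a p : ℂ) (by rw [FA.JTorsion.heckeT_eigen hf hp hpN, FA.Deform.qLin_apply, ha p])]
  exact ⟨γ, rfl⟩

omit hL in
/-- A vanishing central value puts the cusp `0` at the origin. -/
theorem unif_toZero_eq_zero {G : ℂ → ℂ} (hG : Differentiable ℂ G)
    (hGs : ∀ z : ℂ, 2 < z.re → G z = LSeries (ModularFormClass.qCoeff f) z) (h0 : G 1 = 0) :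
    unif L (toZero f) = 0 := by
  rw [FA.PadicL.continuation_eq_centre hG hGs, mul_eq_zero] at h0
  rw [h0.resolve_left (by simp [Real.pi_ne_zero])]
  exact unif_of_mem L (zero_mem _)

end FA.ModularParametrization

end
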