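import Fermat.Agent.ModularParametrization.Surjective

/-!
# The fibres of the parametrisation are finite

On each closed disc around one of the finitely many cusps the map is analytic and not constant and
the periods are discrete, so a value is taken there finitely often modulo the periods.
-/

set_option autoImplicit false

noncomputable section

namespace FA.ModularParametrization

open UpperHalfPlane hiding I
open Complex CongruenceSubgroup Filter Metric ModularCurve FA.Period FA.ManinDrinfeld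
open FA.PeriodLattice FA.Mazur.Wp
open scoped MatrixGroups Topology Real

variable {N : ℕ} [NeZero N] {f : CuspForm (Gamma0 N) 2}

theorem cuspMap_not_const (hf : f ≠ 0) (δ : SL(2, ℤ)) (c : ℂ) :
    ¬ Set.EqOn (cuspMap f δ) (fun _ => c) (ball 0 1) := fun h =>
  hf (DFunLike.coe_injective ((isPrimitive_prim f).eq_zero_of_const (c := c) fun τ => by
    rw [← smul_inv_smul δ τ, ← cuspMap_qParam f δ]
    exact h (mem_ball_zero_iff.mpr
      (Function.Periodic.norm_qParam_lt_one (width_pos (N := N)) (δ⁻¹ • τ).im_pos))))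

/-- A value is taken finitely often on a smaller disc, modulo the periods. -/
theorem finite_cuspMap_fibre (hf : f ≠ 0) (L : PeriodPair)
    (hL : ∀ z : ℂ, z ∈ L.lattice ↔ z ∈ periods f) (δ : SL(2, ℤ)) (z : ℂ) {r : ℝ} (hr : r < 1) :
    {q ∈ closedBall (0 : ℂ) r | cuspMap f δ q - z ∈ periods f}.Finite := by
  by_contra hinf
  obtain ⟨x, hx, hacc⟩ := Set.Infinite.exists_accPt_of_subset_isCompact
    (K := closedBall (0 : ℂ) r) hinf (isCompact_closedBall 0 r) fun q hq => hq.1
  have hxb : x ∈ ball (0 : ℂ) 1 := closedBall_subset_ball hr hx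
  have hcont : ContinuousAt (fun q => cuspMap f δ q - z) x :=
    (((differentiableOn_cuspMap f δ).differentiableAt (isOpen_ball.mem_nhds hxb)).continuousAt).sub
      continuousAt_const
  set l := cuspMap f δ x - z with hl
  have hfreq := accPt_iff_frequently.mp hacc
  have hlmem : l ∈ (L.lattice : Set ℂ) := by
    by_contra hout
    obtain ⟨y, ⟨-, hy⟩, hny⟩ := (hfreq.and_eventually
      (hcont.eventually (L.isClosed_lattice.isOpen_compl.mem_nhds hout))).exists
    exact hny ((hL _).mpr hy.2)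
  have hdisc : DiscreteTopology (L.lattice : Set ℂ) :=
    inferInstanceAs (DiscreteTopology L.lattice)
  obtain ⟨U, hU, hUeq⟩ := (discreteTopology_subtype_iff'.mp hdisc) l hlmem
  have hlU : l ∈ U := (hUeq.symm ▸ Set.mem_singleton l : l ∈ U ∩ (L.lattice : Set ℂ)).1
  have hf' : ∃ᶠ y in 𝓝[≠] x, cuspMap f δ y = (fun _ => z + l) y := by
    refine frequently_nhdsWithin_iff.mpr ((hfreq.and_eventually
      (hcont.eventually (hU.mem_nhds hlU))).mono fun y hy => ⟨?_, hy.1.1⟩)
    have h1 : cuspMap f δ y - z = l := by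
      rw [← Set.mem_singleton_iff, ← hUeq]
      exact ⟨hy.2, (hL _).mpr hy.1.2.2⟩
    show cuspMap f δ y = z + l
    rw [← h1]
    ring
  have hA := (differentiableOn_cuspMap f δ).analyticOnNhd isOpen_ball
  exact cuspMap_not_const hf δ (z + l) (hA.eqOn_of_preconnected_of_frequently_eq
      analyticOnNhd_const (convex_ball _ _).isPreconnected hxb hf')

/-- **The fibres are finite** modulo `Γ₀(N)`. -/
theorem exists_finite_fibre (hf : f ≠ 0) (L : PeriodPair)
    (hL : ∀ z : ℂ, z ∈ L.lattice ↔ z ∈ periods f) (P : (latCurve L).toAffine.Point) :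
    ∃ S : Set ℍ, S.Finite ∧ (∀ τ ∈ S, unif L (prim f τ) = P) ∧
      ∀ τ : ℍ, unif L (prim f τ) = P → ∃ τ₀ ∈ S, ∃ γ : Gamma0 N, (γ : SL(2, ℤ)) • τ₀ = τ := by
  obtain ⟨z, rfl⟩ := FA.ClassNumberOne.unif_surjective L P
  set r := Real.exp (-π / ((N : ℤ) : ℝ))
  have hr : r < 1 :=
    Real.exp_lt_one_iff.mpr (div_neg_of_neg_of_pos (neg_lt_zero.mpr Real.pi_pos) width_pos)
  set T : Set ℍ := ⋃ c : SL(2, ℤ) ⧸ Gamma0 N,
    (fun q => (c.out : SL(2, ℤ))⁻¹ • ofComplex (Function.Periodic.invQParam ((N : ℤ) : ℝ) q)) ''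
      {q ∈ closedBall (0 : ℂ) r | cuspMap f (c.out : SL(2, ℤ))⁻¹ q - z ∈ periods f} with hT
  have hTfin : T.Finite :=
    Set.finite_iUnion fun c => (finite_cuspMap_fibre hf L hL _ z hr).image _
  refine ⟨{τ ∈ T | unif L (prim f τ) = unif L z}, hTfin.subset fun τ h => h.1, fun τ h => h.2,
    fun τ hτ => ?_⟩
  obtain ⟨g₀, hg₀⟩ := ModularGroup.exists_smul_mem_fd τ
  obtain ⟨g, hg⟩ := QuotientGroup.mk_out_eq_mul (Gamma0 N) (g₀⁻¹)⁻¹
  set c : SL(2, ℤ) ⧸ Gamma0 N := QuotientGroup.mk (g₀⁻¹)⁻¹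
  set δ : SL(2, ℤ) := (c.out : SL(2, ℤ))⁻¹ with hδ
  set w : ℍ := g₀ • τ
  have hback : (g : SL(2, ℤ)) • (δ • w) = τ := by
    rw [hδ, hg, inv_inv, mul_inv_rev, ← mul_smul, mul_inv_cancel_left]
    exact inv_smul_smul g₀ τ
  have hval : unif L (prim f (δ • w)) = unif L z := by
    rw [← unif_prim_smul L hL g (δ • w), hback, hτ]
  set q := Function.Periodic.qParam ((N : ℤ) : ℝ) (w : ℂ) with hq
  obtain ⟨m, hm⟩ :=
    Function.Periodic.qParam_left_inv_mod_period (width_pos (N := N)).ne' (w : ℂ)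
  have hw0 : ofComplex (Function.Periodic.invQParam ((N : ℤ) : ℝ) q) =
      (ModularGroup.T ^ (N : ℤ)) ^ m • w := by
    rw [← zpow_mul]
    refine UpperHalfPlane.ext ?_
    rw [hq, hm, coe_T_zpow_smul, ofComplex_apply_of_im_pos (by simpa using w.im_pos)]
    push_cast
    ring
  set γ : Gamma0 N := ⟨_, conj_T_pow_mem N δ⟩
  have hmove : δ • ofComplex (Function.Periodic.invQParam ((N : ℤ) : ℝ) q) =
      ((γ ^ m : Gamma0 N) : SL(2, ℤ)) • (δ • w) := by
    have e : δ * (ModularGroup.T ^ (N : ℤ)) ^ m = ((γ ^ m : Gamma0 N) : SL(2, ℤ)) * δ := by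
      rw [SubgroupClass.coe_zpow]
      simp only [γ]
      rw [conj_zpow, inv_mul_cancel_right]
    rw [hw0, ← mul_smul δ _ w, e, mul_smul]
  refine ⟨δ • ofComplex (Function.Periodic.invQParam ((N : ℤ) : ℝ) q), ⟨?_, ?_⟩,
    g * (γ ^ m)⁻¹, ?_⟩
  · rw [hT, Set.mem_iUnion]
    refine ⟨c, q, ⟨?_, ?_⟩, rfl⟩
    · rw [mem_closedBall_zero_iff, hq, Function.Periodic.norm_qParam, Real.exp_le_exp,
        div_le_div_iff_of_pos_right width_pos]
      have h1 : (1 / 2 : ℝ) ≤ w.im := by
        nlinarith [ModularGroup.three_le_four_mul_im_sq_of_mem_fd hg₀, w.im_pos]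
      show -2 * π * w.im ≤ -π
      nlinarith [mul_le_mul_of_nonneg_left h1 Real.pi_pos.le]
    · rw [hq, cuspMap_qParam, ← hL, ← unif_eq_unif_iff]
      exact hval
  · rw [hmove, unif_prim_smul L hL, hval]
  · rw [hmove, Subgroup.coe_mul, InvMemClass.coe_inv, mul_smul, inv_smul_smul]
    exact hback

/-- The images of the cusps are finitely many. -/
theorem finite_cusp_values (L : PeriodPair) (hL : ∀ z : ℂ, z ∈ L.lattice ↔ z ∈ periods f) :
    {P : (latCurve L).toAffine.Point | ∃ δ : SL(2, ℤ), unif L (toCusp δ f) = P}.Finite := by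
  refine (Set.finite_range fun c : SL(2, ℤ) ⧸ Gamma0 N =>
    unif L (toCusp (c.out : SL(2, ℤ))⁻¹ f)).subset ?_
  rintro P ⟨δ, rfl⟩
  obtain ⟨g, hg⟩ := QuotientGroup.mk_out_eq_mul (Gamma0 N) δ⁻¹
  refine ⟨QuotientGroup.mk δ⁻¹, ?_⟩
  show unif L (toCusp _ f) = _
  rw [hg, mul_inv_rev, inv_inv, ← InvMemClass.coe_inv, FA.PadicL.toCusp_mul]
  rw [add_comm]
  exact unif_add_mem L ((hL _).mpr ⟨_, rfl⟩)

/-- A point of infinite order is the image of a point of the upper half plane. -/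
theorem exists_unif_prim_eq_of_nontorsion (hf : f ≠ 0) (L : PeriodPair)
    (hL : ∀ z : ℂ, z ∈ L.lattice ↔ z ∈ periods f) {P : (latCurve L).toAffine.Point}
    (hP : ¬ IsOfFinAddOrder P) : ∃ τ : ℍ, unif L (prim f τ) = P := by
  rcases exists_unif_eq hf L hL P with h | ⟨δ, rfl⟩
  · exact h
  · obtain ⟨c, n, hn, hc, h0⟩ := exists_cusp_torsion L hL δ
    rw [tendsto_nhds_unique hc (tendsto_toCusp δ f)] at h0
    exact absurd (isOfFinAddOrder_iff_nsmul_eq_zero.mpr ⟨n, hn, h0⟩) hP

omit [NeZero N] in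
/-- There is a point of infinite order. -/
theorem exists_nontorsion (L : PeriodPair) (hL : ∀ z : ℂ, z ∈ L.lattice ↔ z ∈ periods f) :
    ∃ P : (latCurve L).toAffine.Point, ¬ IsOfFinAddOrder P := by
  by_contra hall
  push Not at hall
  have : Countable (Additive (Gamma0 N)) :=
    inferInstanceAs (Countable (Gamma0 N))
  have hsub : (Set.univ : Set ℂ) ⊆
      Set.range fun x : ℕ × Additive (Gamma0 N) => periodMap N f x.2 / x.1 := by
    intro z _
    obtain ⟨n, hn, h⟩ := isOfFinAddOrder_iff_nsmul_eq_zero.mp (hall (unif L z))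
    rw [← unifHom_apply, ← map_nsmul, unifHom_apply, unif_eq_zero_iff, hL, nsmul_eq_mul] at h
    obtain ⟨γ, hγ⟩ := h
    refine ⟨⟨n, γ⟩, ?_⟩
    show periodMap N f γ / n = z
    rw [hγ, mul_div_cancel_left₀ z (Nat.cast_ne_zero.mpr hn.ne')]
  exact not_countable_complex ((Set.countable_range _).mono hsub)

end FA.ModularParametrization

end
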