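import Fermat.Agent.ModularParametrization.Basic

/-!
# The parametrisation under the Fricke involution

If `f (-1 / (N τ)) = c N τ² f τ` then the primitive vanishing at `i∞` satisfies
`F (-1 / (N τ)) = c F τ + ∫_{i∞}^0 f`.
-/

set_option autoImplicit false

noncomputable section

namespace FA.ModularParametrization

open UpperHalfPlane hiding I
open Complex CongruenceSubgroup Filter ModularCurve FA.Period FA.ManinDrinfeld
open scoped MatrixGroups Topology Real

variable {N : ℕ} [NeZero N] {f : CuspForm (Gamma0 N) 2}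

/-- `N τ`. -/
def scalePt (N : ℕ) [NeZero N] (τ : ℍ) : ℍ :=
  ⟨(N : ℂ) * (τ : ℂ), by simpa using mul_pos (Nat.cast_pos.mpr (NeZero.pos N)) τ.im_pos⟩

theorem tendsto_scalePt : Tendsto (scalePt N) atImInfty atImInfty := by
  refine tendsto_comap_iff.mpr ?_
  have him : Tendsto UpperHalfPlane.im atImInfty atTop := tendsto_comap
  refine (him.const_mul_atTop (Nat.cast_pos.mpr (NeZero.pos N) : (0 : ℝ) < N)).congr fun w => ?_
  simp [scalePt]

theorem coe_S_scalePt (τ : ℍ) :
    ((ModularGroup.S • scalePt N τ : ℍ) : ℂ) = -((N : ℂ) * (τ : ℂ))⁻¹ := by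
  rw [coe_S_smul]
  rfl

/-- **The primitive under the Fricke involution.** -/
theorem prim_fricke {c : ℂ} (hc : ∀ τ w : ℍ, (w : ℂ) = -1 / ((N : ℂ) * (τ : ℂ)) →
    f w = c * ((N : ℂ) * (τ : ℂ) ^ 2) * f τ) (τ w : ℍ)
    (hw : (w : ℂ) = -1 / ((N : ℂ) * (τ : ℂ))) : prim f w = c * prim f τ + toZero f := by
  have hN : (N : ℂ) ≠ 0 := Nat.cast_ne_zero.mpr (NeZero.ne N)
  have hP : IsPrimitive (fun z : ℍ => prim f (ModularGroup.S • scalePt N z)) (c • ⇑f) := fun z => by
    have hz : (z : ℂ) ≠ 0 := z.ne_zero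
    have hinner : HasDerivAt (fun u : ℂ => -((N : ℂ) * u)⁻¹)
        (-(-((N : ℂ) * 1) / ((N : ℂ) * (z : ℂ)) ^ 2)) (z : ℂ) :=
      (((hasDerivAt_id (z : ℂ)).const_mul (N : ℂ)).inv (mul_ne_zero hN hz)).neg
    have houter := isPrimitive_prim f (ModularGroup.S • scalePt N z)
    rw [coe_S_scalePt] at houter
    have h := houter.comp (z : ℂ) hinner
    have heq : (fun u : ℂ => prim f (ModularGroup.S • scalePt N (ofComplex u))) =ᶠ[𝓝 (z : ℂ)]
        (prim f ∘ ofComplex) ∘ fun u : ℂ => -((N : ℂ) * u)⁻¹ := by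
      filter_upwards [(isOpen_lt continuous_const Complex.continuous_im).mem_nhds z.im_pos]
        with u hu
      simp only [Function.comp_apply, ofComplex_apply_of_im_pos hu]
      rw [← coe_S_scalePt ⟨u, hu⟩, ofComplex_apply]
    refine (h.congr_of_eventuallyEq heq).congr_deriv ?_
    rw [hc z _ (by rw [coe_S_scalePt, div_eq_mul_inv]; ring), Pi.smul_apply, smul_eq_mul]
    field_simp
  obtain ⟨k, hk⟩ := hP.exists_eq_add ((isPrimitive_prim f).const_smul c)
  have h1 : Tendsto (fun z : ℍ => prim f (ModularGroup.S • scalePt N z)) atImInfty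
      (𝓝 (toZero f)) :=
    (tendsto_toZero f (isPrimitive_prim f) (tendsto_prim f)).comp tendsto_scalePt
  have h2 : Tendsto (fun z : ℍ => (c • prim f) z + k) atImInfty (𝓝 k) := by
    simpa [Pi.smul_def] using ((tendsto_prim f).const_mul c).add_const k
  have hk0 : k = toZero f := tendsto_nhds_unique h2 (h1.congr hk)
  have e : w = ModularGroup.S • scalePt N τ := UpperHalfPlane.ext (by
    rw [hw, coe_S_scalePt, div_eq_mul_inv]
    ring)
  rw [e, hk τ, hk0]
  rfl

/-- Twice: `(1 + c) ∫_{i∞}^0 f = 0` if `c² = 1`. -/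
theorem one_add_mul_toZero {c : ℂ} (hc : ∀ τ w : ℍ, (w : ℂ) = -1 / ((N : ℂ) * (τ : ℂ)) →
    f w = c * ((N : ℂ) * (τ : ℂ) ^ 2) * f τ) (h2 : c ^ 2 = 1) : (1 + c) * toZero f = 0 := by
  have hN : (N : ℂ) ≠ 0 := Nat.cast_ne_zero.mpr (NeZero.ne N)
  have h0 : (UpperHalfPlane.I : ℂ) ≠ 0 := UpperHalfPlane.I.ne_zero
  set w : ℍ := ModularGroup.S • scalePt N UpperHalfPlane.I
  have h1 := prim_fricke hc UpperHalfPlane.I w (by rw [coe_S_scalePt, div_eq_mul_inv]; ring)
  have h3 := prim_fricke hc w UpperHalfPlane.I (by rw [coe_S_scalePt]; field_simp)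
  rw [h1] at h3
  linear_combination -h3 - (prim f UpperHalfPlane.I) * h2

end FA.ModularParametrization

end
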