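import Fermat.Agent.ModularParametrization.PoleForms
import Fermat.Agent.ManinDrinfeld.Cusps
import Fermat.Agent.PeriodLattice.RankTwo

/-!
# Hecke equivariance of the primitive

The sum of the primitive over the Hecke neighbours of `τ` is the primitive of `T_p f = a_p f`
vanishing at `i∞`.
-/

set_option autoImplicit false

noncomputable section

namespace FA.ModularParametrization

open UpperHalfPlane hiding I
open Complex CongruenceSubgroup Filter FA.JTorsion FA.ManinDrinfeld
open scoped Topology Real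

variable {N : ℕ} [NeZero N] {f : CuspForm (Gamma0 N) 2}

/-- **The eigen relation of the primitive.** -/
theorem sum_prim_heckePt (hf : f.IsNormalizedEigenform) {p : ℕ} [NeZero p] (hp : p.Prime)
    (τ : ℍ) :
    ∑ x ∈ heckeIdx N p, prim f (heckePt p x τ) = ModularFormClass.qCoeff f p * prim f τ := by
  have hG := isPrimitive_heckeForm N p hp (isPrimitive_prim f)
  have hpp : (0 : ℝ) < p := Nat.cast_pos.mpr hp.pos
  have him : Tendsto UpperHalfPlane.im atImInfty atTop := tendsto_comap
  have hG0 : Tendsto (fun z => ∑ x ∈ heckeIdx N p, prim f (heckePt p x z)) atImInfty (𝓝 0) := by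
    have h : Tendsto (fun z => ∑ x ∈ heckeIdx N p, prim f (heckePt p x z)) atImInfty
        (𝓝 (∑ _x ∈ heckeIdx N p, (0 : ℂ))) := by
      refine tendsto_finsetSum _ fun x _ => (tendsto_prim f).comp ?_
      refine tendsto_comap_iff.mpr ?_
      cases x with
      | none =>
        simpa [Function.comp_def, heckePt, FA.Petersson.im_heckeDiagMatrix_smul hp.ne_zero] using
          him.const_mul_atTop hpp
      | some j =>
        simpa [Function.comp_def, heckePt, FA.Petersson.im_heckeMatrix_smul hp.ne_zero] using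
          him.atTop_div_const hpp
    simpa using h
  have h1 := primitive_unique (isPrimitive_prim _) hG (tendsto_prim _) hG0
  rw [FA.PeriodLattice.heckeForm_eigen hf hp, prim_smul] at h1
  exact (congrFun h1 τ).symm

/-- The relation for `2 π i` times the primitive. -/
theorem sum_sPrim_heckePt (hf : f.IsNormalizedEigenform) {p : ℕ} [NeZero p] (hp : p.Prime)
    (τ : ℍ) :
    ∑ x ∈ heckeIdx N p, sPrim f (heckePt p x τ) = ModularFormClass.qCoeff f p * sPrim f τ := by
  simp only [sPrim, ← Finset.mul_sum, sum_prim_heckePt hf hp τ]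
  ring

/-- The Hecke neighbours of a CM point are CM points. -/
theorem exists_quadratic_heckePt {p : ℕ} [NeZero p] (x : Option (Fin p)) {τ : ℍ} {u v w : ℤ}
    (hu : u ≠ 0) (h : (u : ℂ) * (τ : ℂ) ^ 2 + v * (τ : ℂ) + w = 0) :
    ∃ u' v' w' : ℤ, u' ≠ 0 ∧
      (u' : ℂ) * ((heckePt p x τ : ℍ) : ℂ) ^ 2 + v' * ((heckePt p x τ : ℍ) : ℂ) + w' = 0 := by
  have hp0 : (p : ℤ) ≠ 0 := Nat.cast_ne_zero.mpr (NeZero.ne p)
  have hp' : (p : ℂ) ≠ 0 := Nat.cast_ne_zero.mpr (NeZero.ne p)
  cases x with
  | none =>
    refine ⟨u, v * p, w * (p : ℤ) ^ 2, hu, ?_⟩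
    simp only [heckePt, ModularForm.coe_heckeDiagMatrix_smul (NeZero.ne p)]
    push_cast
    linear_combination (p : ℂ) ^ 2 * h
  | some j =>
    refine ⟨u * (p : ℤ) ^ 2, (v - 2 * u * (j : ℕ)) * p,
      u * ((j : ℕ) : ℤ) ^ 2 - v * (j : ℕ) + w, mul_ne_zero hu (pow_ne_zero 2 hp0), ?_⟩
    simp only [heckePt, ModularForm.coe_heckeMatrix_smul (NeZero.ne p)]
    push_cast
    field_simp
    linear_combination h

end FA.ModularParametrization

end
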