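import Fermat.Agent.ClassNumberOne.Transport

/-!
# Conjugation respects inclusions of lattices

For `A ⊆ B` the function `℘_B` is the sum of the translates of `℘_A` by `B / A`, less a constant.
Conjugating the coordinates of the translates shows `A' ⊆ B'` for the conjugate lattices.
-/

set_option autoImplicit false

noncomputable section

namespace FA.ModularParametrization

open Filter Set FA.Mazur.Wp FA.ClassNumberOne WeierstrassCurve
open scoped Topology

/-- Representatives of the nonzero classes of `B / A`. -/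
structure IsCosetReps (A B : PeriodPair) (S : Finset ℂ) : Prop where
  mem : ∀ u ∈ S, u ∉ A.lattice ∧ u ∈ B.lattice
  cover : ∀ z, z ∉ A.lattice → z ∈ B.lattice → ∃ u ∈ S, z - u ∈ A.lattice
  inj : ∀ u ∈ S, ∀ v ∈ S, u - v ∈ A.lattice → u = v

variable {A B : PeriodPair}

theorem exists_cosetReps [(latCurve A).IsElliptic] (hAB : ∀ x ∈ A.lattice, x ∈ B.lattice) :
    ∃ S, IsCosetReps A B S := by
  classical
  have hred : ∀ z : ℂ, ∃ l ∈ A.lattice, ‖z - l‖ ≤ ‖A.ω₁‖ + ‖A.ω₂‖ := fun z => by
    obtain ⟨s, t, rfl⟩ : ∃ s t : ℝ, (s : ℂ) * A.ω₁ + (t : ℂ) * A.ω₂ = z := by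
      have hsp := A.indep.span_eq_top_of_card_eq_finrank
        (by simp [Complex.finrank_real_complex])
      have hz : z ∈ Submodule.span ℝ (Set.range ![A.ω₁, A.ω₂]) := hsp ▸ Submodule.mem_top
      obtain ⟨c, hc⟩ := Submodule.mem_span_range_iff_exists_fun ℝ |>.mp hz
      exact ⟨c 0, c 1, by simpa [Fin.sum_univ_two, Complex.real_smul] using hc⟩
    refine ⟨((⌊s⌋ : ℤ) : ℂ) * A.ω₁ + ((⌊t⌋ : ℤ) : ℂ) * A.ω₂,
      PeriodPair.mem_lattice.mpr ⟨_, _, rfl⟩, ?_⟩
    rw [show (s : ℂ) * A.ω₁ + (t : ℂ) * A.ω₂ -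
      (((⌊s⌋ : ℤ) : ℂ) * A.ω₁ + ((⌊t⌋ : ℤ) : ℂ) * A.ω₂) =
      ((Int.fract s : ℝ) : ℂ) * A.ω₁ + ((Int.fract t : ℝ) : ℂ) * A.ω₂ by
        simp only [Int.fract]; push_cast; ring]
    refine (norm_add_le _ _).trans (add_le_add ?_ ?_) <;>
    · rw [norm_mul, Complex.norm_real, Real.norm_eq_abs, abs_of_nonneg (Int.fract_nonneg _)]
      exact mul_le_of_le_one_left (norm_nonneg _) (Int.fract_lt_one _).le
  have hbox : ((B.lattice : Set ℂ) ∩ Metric.closedBall 0 (‖A.ω₁‖ + ‖A.ω₂‖)).Finite := by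
    have hdisc : DiscreteTopology (B.lattice : Set ℂ) :=
      inferInstanceAs (DiscreteTopology B.lattice)
    exact ((isCompact_closedBall _ _).inter_left B.isClosed_lattice).finite
      (hdisc.isDiscrete.mono Set.inter_subset_left)
  have hfin : {Q | Q ≠ 0 ∧ ∃ u ∈ B.lattice, unif A u = Q}.Finite := by
    refine (hbox.image (unif A)).subset ?_
    rintro Q ⟨-, u, hu, rfl⟩
    obtain ⟨l, hl, hle⟩ := hred u
    exact ⟨u - l, ⟨sub_mem hu (hAB l hl), mem_closedBall_zero_iff.mpr hle⟩,
      ((unif_eq_unif_iff A).2 (by simpa using hl)).symm⟩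
  let pick : (latCurve A).toAffine.Point → ℂ := Function.surjInv (unif_surjective A)
  have hpick : ∀ Q, unif A (pick Q) = Q := Function.surjInv_eq (unif_surjective A)
  refine ⟨hfin.toFinset.image pick, ?_, ?_, ?_⟩
  · intro u hu
    obtain ⟨Q, hQ, rfl⟩ := Finset.mem_image.1 hu
    obtain ⟨h0, v, hv, hvQ⟩ := hfin.mem_toFinset.1 hQ
    refine ⟨fun h => h0 (by rw [← hpick Q, unif_of_mem A h]), ?_⟩
    have := (unif_eq_unif_iff A).1 ((hpick Q).trans hvQ.symm)
    simpa using add_mem (hAB _ this) hv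
  · intro z hz hzB
    refine ⟨_, Finset.mem_image.2 ⟨unif A z, hfin.mem_toFinset.2
      ⟨fun h => hz ((unif_eq_zero_iff A).1 h), z, hzB, rfl⟩, rfl⟩, ?_⟩
    exact (unif_eq_unif_iff A).1 (hpick _).symm
  · intro u hu v hv h
    obtain ⟨P, -, rfl⟩ := Finset.mem_image.1 hu
    obtain ⟨Q, -, rfl⟩ := Finset.mem_image.1 hv
    rw [← unif_eq_unif_iff, hpick, hpick] at h
    rw [h]

/-- **`℘` of the larger lattice**. -/
theorem wp_sum (hAB : ∀ x ∈ A.lattice, x ∈ B.lattice) {S : Finset ℂ} (hS : IsCosetReps A B S)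
    {z : ℂ} (hz : z ∉ B.lattice) :
    B.weierstrassP z = A.weierstrassP z +
      ∑ u ∈ S, (A.weierstrassP (z + u) - A.weierstrassP u) := by
  classical
  let D : ℂ → ℂ := fun y => B.weierstrassP y - A.weierstrassP y -
    ∑ u ∈ S, (A.weierstrassP (y + u) - A.weierstrassP u)
  have htrans : ∀ (x u : ℂ), x + u ∉ A.lattice →
      AnalyticAt ℂ (fun y => A.weierstrassP (y + u) - A.weierstrassP u) x :=
    fun x u h => ((FA.Mazur.Wp.analyticAt_wp A h).comp_of_eq
      (analyticAt_id.add analyticAt_const) rfl).sub analyticAt_const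
  have hexc : ∀ (M : PeriodPair) (x : ℂ),
      AnalyticAt ℂ (fun y => M.weierstrassPExcept 0 (y - x)) x := fun M x =>
    (FA.Mazur.Wp.analyticAt_except_zero M).1.comp_of_eq (analyticAt_id.sub analyticAt_const)
      (sub_self x)
  have hgerm : ∀ x, ∃ G : ℂ → ℂ, AnalyticAt ℂ G x ∧ (∀ᶠ y in 𝓝[≠] x, D y = G y) ∧
      (x = 0 → G x = 0) := fun x => by
    by_cases hx : x ∈ B.lattice
    · by_cases hxA : x ∈ A.lattice
      · have hu : ∀ u ∈ S, x + u ∉ A.lattice := fun u hu h =>
          (hS.mem u hu).1 (by simpa using sub_mem h hxA)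
        refine ⟨fun y => B.weierstrassPExcept 0 (y - x) - A.weierstrassPExcept 0 (y - x) -
          ∑ u ∈ S, (A.weierstrassP (y + u) - A.weierstrassP u), ?_, ?_, ?_⟩
        · exact ((hexc B x).sub (hexc A x)).sub
            (Finset.analyticAt_fun_sum _ fun u h => htrans x u (hu u h))
        · filter_upwards [wp_near B hx, wp_near A hxA] with y h1 h2
          simp only [D]
          rw [h1.2, h2.2]
          ring
        · rintro rfl
          simp
      · obtain ⟨u₀, hu₀, hmem⟩ := hS.cover (-x) (fun h => hxA (by simpa using neg_mem h))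
          (neg_mem hx)
        have hmem' : x + u₀ ∈ A.lattice := by simpa [add_comm] using neg_mem hmem
        have hu : ∀ u ∈ S.erase u₀, x + u ∉ A.lattice := fun u hu h => by
          rw [Finset.mem_erase] at hu
          exact hu.1 (hS.inj u hu.2 u₀ hu₀ (by simpa using sub_mem h hmem'))
        refine ⟨fun y => B.weierstrassPExcept 0 (y - x) - A.weierstrassP y -
          (A.weierstrassPExcept 0 (y - x) - A.weierstrassP u₀) -
            ∑ u ∈ S.erase u₀, (A.weierstrassP (y + u) - A.weierstrassP u), ?_, ?_, ?_⟩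
        · exact (((hexc B x).sub (FA.Mazur.Wp.analyticAt_wp A hxA)).sub
            ((hexc A x).sub analyticAt_const)).sub
            (Finset.analyticAt_fun_sum _ fun u h => htrans x u (hu u h))
        · filter_upwards [wp_near B hx] with y h1
          simp only [D]
          rw [← Finset.add_sum_erase S _ hu₀, h1.2,
            show y + u₀ = y - x + (x + u₀) by ring, (wp_sub_coe A hmem').1,
            FA.Mazur.Wp.wp_eq_except A (y - x)]
          ring
        · rintro rfl
          exact absurd A.lattice.zero_mem hxA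
    · exact ⟨D, ((FA.Mazur.Wp.analyticAt_wp B hx).sub
        (FA.Mazur.Wp.analyticAt_wp A fun h => hx (hAB _ h))).sub
        (Finset.analyticAt_fun_sum _ fun u h => htrans x u fun hm => hx
          (by simpa using sub_mem (hAB _ hm) (hS.mem u h).2)), Eventually.of_forall fun _ => rfl,
        by rintro rfl; exact absurd B.lattice.zero_mem hx⟩
  obtain ⟨C, hC⟩ := exists_const_of_germs A (D := D)
    (fun x => (hgerm x).imp fun G h => ⟨h.1, h.2.1⟩) fun y l hl => by
      simp only [D, (wp_sub_coe B (hAB l hl)).1, (wp_sub_coe A hl).1]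
      congr 1
      refine Finset.sum_congr rfl fun u _ => ?_
      rw [add_right_comm, (wp_sub_coe A hl).1]
  obtain ⟨G, hG, hev, hG0⟩ := hgerm 0
  have h0 := hC 0 G hG.continuousAt hev
  rw [hG0 rfl] at h0
  have h1 := hC z D (((FA.Mazur.Wp.analyticAt_wp B hz).sub
    (FA.Mazur.Wp.analyticAt_wp A fun h => hz (hAB _ h))).sub
    (Finset.analyticAt_fun_sum _ fun u h => htrans z u fun hm => hz
      (by simpa using sub_mem (hAB _ hm) (hS.mem u h).2))).continuousAt
    (Eventually.of_forall fun _ => rfl)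
  simp only [D, ← h0] at h1
  linear_combination h1

/-- Its derivative. -/
theorem wq_sum (hAB : ∀ x ∈ A.lattice, x ∈ B.lattice) {S : Finset ℂ} (hS : IsCosetReps A B S)
    {z : ℂ} (hz : z ∉ B.lattice) :
    B.derivWeierstrassP z = A.derivWeierstrassP z + ∑ u ∈ S, A.derivWeierstrassP (z + u) := by
  have hnot : ∀ u ∈ S, z + u ∉ A.lattice := fun u hu hm => hz
    (by simpa using sub_mem (hAB _ hm) (hS.mem u hu).2)
  have h2 : HasDerivAt
      (fun y => A.weierstrassP y + ∑ u ∈ S, (A.weierstrassP (y + u) - A.weierstrassP u))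
      (A.derivWeierstrassP z + ∑ u ∈ S, A.derivWeierstrassP (z + u)) z :=
    (FA.Mazur.Wp.hasDerivAt_wp A fun h => hz (hAB _ h)).add (HasDerivAt.fun_sum fun u hu =>
      ((FA.Mazur.Wp.hasDerivAt_wp A (hnot u hu)).comp_add_const z u).sub_const _)
  have hev : B.weierstrassP =ᶠ[𝓝 z]
      fun y => A.weierstrassP y + ∑ u ∈ S, (A.weierstrassP (y + u) - A.weierstrassP u) := by
    filter_upwards [(isOpen_latticeCompl B).mem_nhds hz] with y hy
    exact wp_sum hAB hS hy
  exact ((FA.Mazur.Wp.hasDerivAt_wp B hz).congr_of_eventuallyEq hev.symm).unique h2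

/-- **Conjugation respects inclusion.** -/
theorem lattice_le_of_conjugate {A' B' : PeriodPair} [(latCurve A).IsElliptic]
    [(latCurve A').IsElliptic] [(latCurve B).IsElliptic] (σ : ℂ ≃+* ℂ) (hA2 : σ A.g₂ = A'.g₂)
    (hA3 : σ A.g₃ = A'.g₃) (hB2 : σ B.g₂ = B'.g₂) (hB3 : σ B.g₃ = B'.g₃)
    (hAB : ∀ x ∈ A.lattice, x ∈ B.lattice) : ∀ l ∈ A'.lattice, l ∈ B'.lattice := by
  classical
  set e := mapPt (σ : ℂ →+* ℂ) (map_latCurve σ hA2 hA3) with he
  have hbij : Function.Bijective e := mapPt_bijective σ (map_latCurve σ hA2 hA3)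
  obtain ⟨S, hS⟩ := exists_cosetReps (B := B) hAB
  let v : ℂ → ℂ := fun u => Function.surjInv (unif_surjective A') (e (unif A u))
  have hv : ∀ u, unif A' (v u) = e (unif A u) := fun u =>
    Function.surjInv_eq (unif_surjective A') _
  have hvmem : ∀ u ∈ S, v u ∉ A'.lattice := fun u hu h => (hS.mem u hu).1 (by
    rw [← unif_eq_zero_iff A, ← mapPt_eq_zero_iff (σ : ℂ →+* ℂ) (map_latCurve σ hA2 hA3), ← he,
      ← hv u, unif_of_mem A' h])
  have hxv : ∀ u, A'.weierstrassP (v u) = σ (A.weierstrassP u) := fun u => by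
    rw [← xP_unif, hv, xP_mapPt, xP_unif]
    rfl
  let F : ℂ → ℂ := fun z => A'.weierstrassP z +
    ∑ u ∈ S, (A'.weierstrassP (z + v u) - A'.weierstrassP (v u))
  -- near the origin the translates avoid the lattice
  have hnear : ∀ᶠ z in 𝓝[≠] (0 : ℂ), z ∉ A'.lattice ∧ ∀ u ∈ S, z + v u ∉ A'.lattice := by
    refine (eventually_notMem_zero A').and (mem_nhdsWithin_of_mem_nhds
      ((S.eventually_all).2 fun u hu => ?_))
    exact (continuous_add_const (v u)).continuousAt.eventually
      ((isOpen_latticeCompl A').eventually_mem (by simpa using hvmem u hu))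
  have hsol : ∀ z, z ∉ A'.lattice → (∀ u ∈ S, z + v u ∉ A'.lattice) →
      HasDerivAt F (A'.derivWeierstrassP z + ∑ u ∈ S, A'.derivWeierstrassP (z + v u)) z ∧
      (A'.derivWeierstrassP z + ∑ u ∈ S, A'.derivWeierstrassP (z + v u)) ^ 2 =
        4 * F z ^ 3 - B'.g₂ * F z - B'.g₃ := fun z hz hzu => by
    refine ⟨(FA.Mazur.Wp.hasDerivAt_wp A' hz).add (HasDerivAt.fun_sum fun u hu =>
      ((FA.Mazur.Wp.hasDerivAt_wp A' (hzu u hu)).comp_add_const z (v u)).sub_const _), ?_⟩
    obtain ⟨Q, hQ⟩ := hbij.2 (unif A' z)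
    obtain ⟨y, rfl⟩ := unif_surjective A Q
    have hyA : y ∉ A.lattice := fun h => hz ((unif_eq_zero_iff A').1
      (by rw [← hQ, unif_of_mem A h, map_zero]))
    have hyB : y ∉ B.lattice := fun h => by
      obtain ⟨u, hu, hmem⟩ := hS.cover (-y) (fun h' => hyA (by simpa using neg_mem h'))
        (neg_mem h)
      refine hzu u hu ((unif_eq_zero_iff A').1 ?_)
      rw [unif_add A', hv, ← hQ, ← map_add, ← unif_add A,
        unif_of_mem A (by simpa [add_comm] using neg_mem hmem), map_zero]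
    have hxu : ∀ R, σ (xP R) = xP (e R) := fun R => (xP_mapPt (σ : ℂ →+* ℂ) _ R).symm
    have hyu : ∀ R, σ (yP R) = yP (e R) := fun R => (yP_mapPt (σ : ℂ →+* ℂ) _ R).symm
    have hx : σ (B.weierstrassP y) = F z := by
      rw [wp_sum hAB hS hyB]
      simp only [F, map_add, map_sum, map_sub, ← xP_unif, hxu, unif_add, hQ, hv]
    have hy : σ (B.derivWeierstrassP y) =
        A'.derivWeierstrassP z + ∑ u ∈ S, A'.derivWeierstrassP (z + v u) := by
      have hyw : ∀ (M : PeriodPair) [(latCurve M).IsElliptic] (w : ℂ),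
          M.derivWeierstrassP w = 2 * yP (unif M w) := fun M _ w => by rw [yP_unif]; ring
      rw [wq_sum hAB hS hyB]
      simp only [hyw, map_add, map_sum, map_mul, map_ofNat, hyu, unif_add, hQ, hv]
    rw [← hy, ← hx, ← hB2, ← hB3, ← map_pow, B.derivWeierstrassP_sq y hyB]
    simp [map_ofNat]
  have hode : ∀ᶠ z in 𝓝[≠] (0 : ℂ), F z = B'.weierstrassP z := by
    refine eq_of_ode (c := 1) (A := B'.g₂) (B := B'.g₃)
      (f := fun z => A'.weierstrassPExcept 0 z +
        ∑ u ∈ S, (A'.weierstrassP (z + v u) - A'.weierstrassP (v u)))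
      (g := fun z => B'.weierstrassPExcept 0 z) one_ne_zero ?_ ?_ ?_ ?_ ?_ ?_
    · exact (FA.Mazur.Wp.analyticAt_except_zero A').1.add
        (Finset.analyticAt_fun_sum _ fun u hu => ((FA.Mazur.Wp.analyticAt_wp A'
          (by simpa using hvmem u hu)).comp_of_eq (analyticAt_id.add analyticAt_const) rfl).sub
          analyticAt_const)
    · exact (FA.Mazur.Wp.analyticAt_except_zero B').1
    · refine Eventually.of_forall fun z => ?_
      simp only [F]
      rw [FA.Mazur.Wp.wp_eq_except A' z]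
      ring
    · refine Eventually.of_forall fun z => ?_
      rw [FA.Mazur.Wp.wp_eq_except B' z]
      ring
    · filter_upwards [hnear] with z hz
      obtain ⟨hd, hsq⟩ := hsol z hz.1 hz.2
      rw [hd.deriv, hsq, one_mul]
    · filter_upwards [eventually_notMem_zero B'] with z hz
      rw [(FA.Mazur.Wp.hasDerivAt_wp B' hz).deriv, B'.derivWeierstrassP_sq z hz, one_mul]
  intro l hl
  by_contra hlB
  set T : Set ℂ := (A'.lattice : Set ℂ) ∪ (B'.lattice : Set ℂ) ∪
    ⋃ u ∈ S, (fun m => m - v u) '' A'.lattice with hTdef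
  have hTc : T.Countable := ((countable_lattice A').union (countable_lattice B')).union
    (S.countable_toSet.biUnion fun u _ => (countable_lattice A').image _)
  have hTout : ∀ z, z ∉ T →
      z ∉ A'.lattice ∧ z ∉ B'.lattice ∧ ∀ u ∈ S, z + v u ∉ A'.lattice := fun z hz => by
    simp only [hTdef, mem_union, mem_iUnion, mem_image, not_or, SetLike.mem_coe, not_exists,
      not_and] at hz
    exact ⟨hz.1.1, hz.1.2, fun u hu h => hz.2 u hu _ h (by ring)⟩
  have hT0 : ∀ᶠ z in 𝓝[≠] (0 : ℂ), z ∉ T := by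
    filter_upwards [hnear, eventually_notMem_zero B'] with z hz hzB
    simp only [hTdef, mem_union, mem_iUnion, mem_image, not_or, SetLike.mem_coe, not_exists,
      not_and]
    exact ⟨⟨hz.1, hzB⟩, fun u hu m hm h => hz.2 u hu (by rw [← h]; simpa using hm)⟩
  obtain ⟨z₀, hz₀, hz₀'⟩ := ((eventually_nhds_of_punctured hode).and hT0).exists
  have heq : EqOn F B'.weierstrassP Tᶜ :=
    AnalyticOnNhd.eqOn_of_preconnected_of_eventuallyEq
      (fun x hx => (FA.Mazur.Wp.analyticAt_wp A' (hTout x hx).1).add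
        (Finset.analyticAt_fun_sum _ fun u hu => ((FA.Mazur.Wp.analyticAt_wp A'
          ((hTout x hx).2.2 u hu)).comp_of_eq (analyticAt_id.add analyticAt_const) rfl).sub
          analyticAt_const))
      (fun x hx => FA.Mazur.Wp.analyticAt_wp B' (hTout x hx).2.1)
      (isPreconnected_compl_countable hTc) hz₀' hz₀
  refine not_tendsto_wp B' (B'.weierstrassP l) ?_
  have h9 : ∀ᶠ z in 𝓝 (0 : ℂ), z + l ∉ B'.lattice :=
    ((continuous_add_const l).tendsto' 0 l (zero_add l)).eventually
      ((isOpen_latticeCompl B').eventually_mem (by simpa using hlB))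
  have hc : Tendsto (fun z => B'.weierstrassP (z + l)) (𝓝[≠] 0) (𝓝 (B'.weierstrassP l)) := by
    refine Tendsto.mono_left ?_ nhdsWithin_le_nhds
    exact ((FA.Mazur.Wp.analyticAt_wp B' hlB).continuousAt.tendsto).comp
      ((continuous_add_const l).tendsto' 0 l (zero_add l))
  refine hc.congr' ?_
  filter_upwards [hT0, mem_nhdsWithin_of_mem_nhds h9] with z hz hzl
  obtain ⟨hz1, -, hz3⟩ := hTout z hz
  have hzl' : z + l ∉ T := by
    simp only [hTdef, mem_union, mem_iUnion, mem_image, not_or, SetLike.mem_coe, not_exists,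
      not_and]
    refine ⟨⟨fun h => hz1 (by simpa using sub_mem h hl), hzl⟩, fun u hu m hm h => hz3 u hu ?_⟩
    rw [show z + v u = m - l by linear_combination -h]
    exact sub_mem hm hl
  rw [← heq hz, ← heq hzl']
  simp only [F, (wp_sub_coe A' hl).1, add_right_comm _ l]

end FA.ModularParametrization

end
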