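import Fermat.Agent.ModularParametrization.AlgebraicPoints
import Fermat.Agent.Transcendence.EllipticExp
import Fermat.Agent.Transcendence.EllipticValues

/-!
# Values of modular forms at points with algebraic `j`

`F ^ 12 / Δ ^ k` is algebraic there and `Δ` is a transcendental number times an algebraic one: a
lattice with algebraic invariants has periods whose quotient by `π` is transcendental.
-/

set_option autoImplicit false

noncomputable section

namespace FA.ModularParametrization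

open UpperHalfPlane hiding I
open CongruenceSubgroup Filter FA.Period FA.PeriodLattice
open scoped Manifold PowerSeries Topology Polynomial Real

variable {N : ℕ} [NeZero N] {k : ℕ}

theorem exists_rat_coeff {φ : ℂ⟦X⟧} (h : BddDenom φ) (n : ℕ) :
    ∃ r : ℚ, PowerSeries.coeff n φ = r := by
  obtain ⟨ψ, hψ⟩ := exists_rat_series h
  exact ⟨PowerSeries.coeff n ψ, by rw [← hψ, PowerSeries.coeff_map, eq_ratCast]⟩

omit [NeZero N] in
theorem pow_succ_mem_cuspForms {w : ℤ} {F : ℍ → ℂ} (hF : F ∈ cuspForms N w) (n : ℕ) :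
    F ^ (n + 1) ∈ cuspForms N ((n + 1 : ℕ) * w) := by
  have := mul_mem_cuspForms_left hF (pow_mem_forms hF.1 n)
  rw [← pow_succ'] at this
  convert this using 2
  push_cast; ring

/-- The ratio of two cusp forms with bounded denominators is algebraic where `j` is. -/
theorem isAlgebraic_div_of_forms {w : ℤ} {G h : ℍ → ℂ} (hG : G ∈ cuspForms N w)
    (hh : h ∈ cuspForms N w) (hGq : BddDenom (qExp G)) (hhq : BddDenom (qExp h)) {τ : ℍ}
    (hG0 : G τ ≠ 0) (hj : IsAlgebraic ℚ (FA.ModField.jfun τ)) :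
    IsAlgebraic ℚ (h τ / G τ) := by
  obtain ⟨P, hP, hrel⟩ := exists_forms_relation (toCuspForm' G hG) (toCuspForm' h hh)
    (fun n => exists_rat_coeff hGq n) (fun n => exists_rat_coeff hhq n)
  have hd : ∀ {H : ℍ → ℂ}, MDiff H → ContinuousAt (H ∘ ofComplex) (τ : ℂ) := fun {H} hH =>
    ((UpperHalfPlane.mdifferentiable_iff.mp hH).differentiableAt
      (isOpen_upperHalfPlaneSet.mem_nhds τ.im_pos)).continuousAt
  have hGc := hd hG.1.2.1
  have hG0' : (G ∘ ofComplex) (τ : ℂ) ≠ 0 := by simpa using hG0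
  have h1 := isAlgebraic_of_relation (U := fun z => FA.ModField.jfun (ofComplex z))
    (V := fun z => (h ∘ ofComplex) z / (G ∘ ofComplex) z) (s := (τ : ℂ)) hP
    (analyticAt_jfun τ).continuousAt ((hd hh.1.2.1).div hGc hG0') (by simpa using hj)
    (fun μ hμ => eventually_aeval_jfun_ne_zero τ hμ)
    (((hGc.eventually_ne hG0').filter_mono nhdsWithin_le_nhds).mono fun z hz =>
      hrel (ofComplex z) _ hz (mul_div_cancel₀ _ hz).symm)
  simpa using h1.1

/-- **`F ^ 12 / Δ ^ k` is algebraic where `j` is.** -/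
theorem isAlgebraic_modularValue (hk : 0 < k) (F : CuspForm (Gamma0 N) (k : ℤ))
    (hF : ∀ n, ∃ r : ℚ, ModularFormClass.qCoeff F n = r) {τ : ℍ}
    (hj : IsAlgebraic ℚ (FA.ModField.jfun τ)) :
    IsAlgebraic ℚ (F τ ^ 12 / ModularForm.discriminant τ ^ k) := by
  obtain ⟨k', rfl⟩ := Nat.exists_eq_succ_of_ne_zero hk.ne'
  have hΔc : ModularForm.discriminant ∈ cuspForms N 12 :=
    ⟨forms_one_le N 12 coe_discriminant_mem_forms, fun γ => by
      rw [slash_eq_of_mem_forms_one coe_discriminant_mem_forms]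
      exact ModularForm.discriminant_isZeroAtImInfty⟩
  have hFc : (⇑F : ℍ → ℂ) ∈ cuspForms N _ := coe_mem_cuspForms F
  have hG : ModularForm.discriminant ^ (k' + 1) ∈
      cuspForms N (12 * ((k' + 1 : ℕ) : ℤ)) := by
    have := pow_succ_mem_cuspForms hΔc k'
    rwa [mul_comm] at this
  have hh : (⇑F ^ 12 : ℍ → ℂ) ∈ cuspForms N (12 * ((k' + 1 : ℕ) : ℤ)) :=
    pow_succ_mem_cuspForms hFc 11
  have hGq : BddDenom (qExp (ModularForm.discriminant ^ (k' + 1) : ℍ → ℂ)) := by
    rw [(isQFun_of_mem hΔc.1).qExp_pow]; exact bddDenom_discriminant.pow _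
  have hhq : BddDenom (qExp (⇑F ^ 12 : ℍ → ℂ)) := by
    rw [(isQFun_of_mem hFc.1).qExp_pow]; exact (bddDenom_of_rational hFc hF).pow _
  have h := isAlgebraic_div_of_forms hG hh hGq hhq (τ := τ)
    (pow_ne_zero _ (ModularForm.discriminant_ne_zero τ)) hj
  exact h

/-- **`Δ` is transcendental where `j` is algebraic.** -/
theorem transcendental_discriminant {τ : ℍ} (hj : IsAlgebraic ℚ (FA.ModField.jfun τ)) :
    Transcendental ℚ (ModularForm.discriminant τ) := by
  obtain ⟨c, hc, h2, h3⟩ := FA.SchneiderLang.exists_scale_algebraic τ hj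
  intro hΔ
  have hcL : c ∈ (FA.JInj.scalePair (FA.Mazur.Wp.latPair τ) c hc).lattice :=
    FA.JInj.mem_scalePair.mpr ⟨1, FA.Mazur.Wp.mem_latPair.mpr ⟨0, 1, by simp⟩, mul_one c⟩
  refine FA.SchneiderLang.transcendental_pi_div_period h2 h3 hcL hc ?_
  have hI : IsAlgebraic ℚ Complex.I :=
    IsAlgebraic.of_pow two_pos (by rw [Complex.I_sq]; exact isAlgebraic_one.neg)
  set L' := FA.JInj.scalePair (FA.Mazur.Wp.latPair τ) c hc
  have hA : IsAlgebraic ℚ (L'.g₂ ^ 3 - 27 * L'.g₃ ^ 2) :=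
    (h2.pow 3).sub ((isAlgebraic_natCast 27).mul (h3.pow 2))
  have e : L'.g₂ ^ 3 - 27 * L'.g₃ ^ 2 =
      (2 * Complex.I) ^ 12 * ((π : ℂ) / c) ^ 12 * ModularForm.discriminant τ := by
    have := FA.Mazur.Wp.discr_latPair τ
    rw [FA.Mazur.Wp.tpi] at this
    simp only [L', FA.JInj.g₂_scalePair, FA.JInj.g₃_scalePair]
    field_simp
    linear_combination this
  refine IsAlgebraic.of_pow (n := 12) (by norm_num) ?_
  have h2I : IsAlgebraic ℚ ((2 * Complex.I) ^ 12 : ℂ) :=
    ((isAlgebraic_natCast 2).mul hI).pow 12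
  rw [show ((π : ℂ) / c) ^ 12 = (L'.g₂ ^ 3 - 27 * L'.g₃ ^ 2) *
      (((2 * Complex.I) ^ 12) * ModularForm.discriminant τ)⁻¹ by
    rw [e]; field_simp [ModularForm.discriminant_ne_zero τ, Complex.I_ne_zero]]
  exact hA.mul (h2I.mul hΔ).inv

/-- **Values of forms of non-zero weight are zero or transcendental there.** -/
theorem eq_zero_or_transcendental (hk : 0 < k) (F : CuspForm (Gamma0 N) (k : ℤ))
    (hF : ∀ n, ∃ r : ℚ, ModularFormClass.qCoeff F n = r) {τ : ℍ}
    (hj : IsAlgebraic ℚ (FA.ModField.jfun τ)) : F τ = 0 ∨ Transcendental ℚ (F τ) := by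
  refine or_iff_not_imp_left.mpr fun h0 hal => transcendental_discriminant hj ?_
  refine IsAlgebraic.of_pow hk ?_
  have h := (hal.pow 12).mul (isAlgebraic_modularValue hk F hF hj).inv
  rwa [inv_div, mul_div_cancel₀ _ (pow_ne_zero 12 h0)] at h

/-- **The logarithm of a Heegner point is zero or transcendental.** -/
theorem sPrim_eq_zero_or_transcendental {f : CuspForm (Gamma0 N) 2}
    (hf : f.IsNormalizedEigenform) {a : ℕ → ℤ}
    (ha : ∀ n, ModularFormClass.qCoeff f n = (a n : ℂ)) {L : PeriodPair}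
    (hL : IsScaledPeriods f L) {τ : ℍ} (hj : IsAlgebraic ℚ (FA.ModField.jfun τ)) :
    sPrim f τ = 0 ∨ Transcendental ℚ (sPrim f τ) := by
  obtain ⟨g₂, g₃, h2, h3⟩ := exists_rat_invariants hf ha hL
  have a2 : IsAlgebraic ℚ L.g₂ := h2 ▸ isAlgebraic_algebraMap g₂
  have a3 : IsAlgebraic ℚ L.g₃ := h3 ▸ isAlgebraic_algebraMap g₃
  refine or_iff_not_imp_left.mpr fun h0 hal => ?_
  by_cases hτ : sPrim f τ ∈ L.lattice
  · exact FA.SchneiderLang.transcendental_period a2 a3 hτ h0 hal
  · exact FA.SchneiderLang.transcendental_weierstrassP a2 a3 hal h0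
      (isAlgebraic_wp hf ha hL hj hτ).1

end FA.ModularParametrization

end
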