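import Fermat.Agent.Tau.SingularIntegral
import Fermat.Agent.Tau.JInjective
import Fermat.Agent.Transcendence.EllipticMultiplier
import Fermat.Agent.ClassNumberOne.Lattice

/-!
# A lattice with non-integral invariant has no complex multiplication

If the quotient of the two generators is quadratic then the invariant is a singular modulus, an
algebraic integer.
-/

set_option autoImplicit false

noncomputable section

namespace FA.ModularParametrization

open UpperHalfPlane hiding I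
open Complex FA.Mazur.Wp

/-- **A quadratic period ratio makes `j` integral.** -/
theorem isIntegral_j_of_quadratic (L : PeriodPair) {u v w : ℤ} (hu : u ≠ 0)
    (h : (u : ℂ) * L.ω₂ ^ 2 + v * (L.ω₁ * L.ω₂) + w * L.ω₁ ^ 2 = 0) :
    IsIntegral ℤ (1728 * L.g₂ ^ 3 / (L.g₂ ^ 3 - 27 * L.g₃ ^ 2)) := by
  obtain ⟨τ₀, hτ, hmem⟩ := FA.SchneiderLang.exists_tau L
  set τ : ℍ := ⟨τ₀, hτ⟩
  have hω : L.ω₁ ≠ 0 := by simpa using L.indep.ne_zero 0
  obtain ⟨m, n, hmn⟩ := (hmem _).1 L.ω₂_mem_lattice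
  have hn : n ≠ 0 := fun hn => by
    have := (LinearIndependent.pair_iff.1 L.indep (m : ℝ) (-1) (by
      simp only [Complex.real_smul, ← hmn, hn]
      push_cast
      ring)).2
    norm_num at this
  have hroot : ((u * n ^ 2 : ℤ) : ℂ) * τ₀ ^ 2 + ((2 * u * m * n + v * n : ℤ) : ℂ) * τ₀ +
      ((u * m ^ 2 + v * m + w : ℤ) : ℂ) = 0 := by
    refine mul_right_cancel₀ (pow_ne_zero 2 hω) ?_
    rw [zero_mul, ← h, ← hmn]
    push_cast
    ring
  have hD : (2 * u * m * n + v * n) ^ 2 - 4 * (u * n ^ 2) * (u * m ^ 2 + v * m + w) < 0 := by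
    set A := u * n ^ 2
    set B := 2 * u * m * n + v * n
    set C := u * m ^ 2 + v * m + w
    have hA : (A : ℝ) ≠ 0 := Int.cast_ne_zero.2 (mul_ne_zero hu (pow_ne_zero 2 hn))
    have hre := congrArg Complex.re hroot
    have him := congrArg Complex.im hroot
    simp [pow_two, Complex.mul_re, Complex.mul_im] at hre him
    have h0 : 2 * (A : ℝ) * τ₀.re + B = 0 := by
      refine mul_left_cancel₀ hτ.ne' ?_
      linear_combination him
    have key : ((B ^ 2 - 4 * A * C : ℤ) : ℝ) = -(2 * A * τ₀.im) ^ 2 := by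
      push_cast
      linear_combination -4 * (A : ℝ) * hre + (2 * (A : ℝ) * τ₀.re + B) * h0
    have hpos : 0 < (2 * (A : ℝ) * τ₀.im) ^ 2 := by positivity
    exact_mod_cast (show ((B ^ 2 - 4 * A * C : ℤ) : ℝ) < 0 by rw [key]; linarith)
  have hj := FA.SingularIntegral.isIntegral_jfun (τ := τ) hD hroot
  have he : L.lattice = (FA.JInj.scalePair (latPair τ) L.ω₁ hω).lattice := by
    ext x
    rw [hmem, FA.JInj.mem_scalePair]
    constructor
    · rintro ⟨a, b, rfl⟩
      exact ⟨(b : ℂ) * τ₀ + a, mem_latPair.mpr ⟨b, a, rfl⟩, by ring⟩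
    · rintro ⟨y, hy, rfl⟩
      obtain ⟨a, b, rfl⟩ := mem_latPair.mp hy
      exact ⟨b, a, by simp only [τ]; ring⟩
  obtain ⟨e2, e3⟩ := FA.ClassNumberOne.g_congr he
  rw [FA.Singular.jfun_eq_invariant] at hj
  convert hj using 1
  rw [e2, e3, FA.JInj.g₂_scalePair, FA.JInj.g₃_scalePair]
  field_simp

/-- Without a quadratic ratio only the integers multiply the lattice into itself. -/
theorem multiplier_int (L : PeriodPair) (h : ∀ u v w : ℤ, (u : ℂ) * L.ω₂ ^ 2 +
      v * (L.ω₁ * L.ω₂) + w * L.ω₁ ^ 2 = 0 → u = 0) {z : ℂ}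
    (hz : ∀ x ∈ L.lattice, z * x ∈ L.lattice) : ∃ m : ℤ, z = m := by
  have hω : L.ω₁ ≠ 0 := by simpa using L.indep.ne_zero 0
  obtain ⟨m, n, h1⟩ := PeriodPair.mem_lattice.1 (hz _ L.ω₁_mem_lattice)
  obtain ⟨m', n', h2⟩ := PeriodPair.mem_lattice.1 (hz _ L.ω₂_mem_lattice)
  have hn := h n (m - n') (-m') (by
    push_cast
    linear_combination L.ω₂ * h1 - L.ω₁ * h2)
  subst hn
  exact ⟨m, mul_right_cancel₀ hω (by linear_combination -h1)⟩

end FA.ModularParametrization

end
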