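import Fermat.Agent.ModularParametrization.Fibres
import Fermat.Agent.Period.LevelOne
import Fermat.Agent.ClassNumberOne.Lattice
import Fermat.Agent.ModField.Elliptic

/-!
# `℘` of the primitive as a quotient of two cusp forms

Let `L` be `2 π i` times the periods and `Φ` be `2 π i` times the primitive. A level one form `G`
vanishing to high order at the finitely many poles and at `i∞` makes `G ℘(Φ)` a cusp form.
-/

set_option autoImplicit false

noncomputable section

namespace FA.ModularParametrization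

open UpperHalfPlane hiding I
open Complex CongruenceSubgroup Filter ModularCurve FA.Period FA.ManinDrinfeld
open FA.PeriodLattice FA.Mazur.Wp
open scoped MatrixGroups Topology Real Manifold ModularForm

variable {N : ℕ} [NeZero N] (f : CuspForm (Gamma0 N) 2)

/-- `2 π i` times the primitive. -/
def sPrim (τ : ℍ) : ℂ := tpi * prim f τ

/-- `L` is `2 π i` times the periods. -/
def IsScaledPeriods (L : PeriodPair) : Prop :=
  ∀ z : ℂ, z ∈ L.lattice ↔ ∃ l ∈ periods f, tpi * l = z

variable {f}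

theorem exists_scaledPeriods (hf : f.IsNormalizedEigenform) {a : ℕ → ℤ}
    (ha : ∀ n, ModularFormClass.qCoeff f n = (a n : ℂ)) :
    ∃ L : PeriodPair, IsScaledPeriods f L := by
  obtain ⟨L, hL⟩ := exists_periodPair hf ha
  refine ⟨FA.ClassNumberOne.scaled L tpi_ne_zero, fun z => ?_⟩
  rw [FA.ClassNumberOne.mem_scaled, hL]
  constructor
  · intro h
    exact ⟨_, h, by field_simp [tpi_ne_zero]⟩
  · rintro ⟨l, hl, rfl⟩
    convert hl using 1
    field_simp [tpi_ne_zero]

omit [NeZero N] in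
theorem mul_mem_of_mem_periods {L : PeriodPair} (hL : IsScaledPeriods f L) {l : ℂ}
    (hl : l ∈ periods f) : tpi * l ∈ L.lattice :=
  (hL _).mpr ⟨l, hl, rfl⟩

theorem sPrim_smul {L : PeriodPair} (hL : IsScaledPeriods f L) (γ : Gamma0 N) (τ : ℍ) :
    sPrim f ((γ : SL(2, ℤ)) • τ) - sPrim f τ ∈ L.lattice := by
  rw [sPrim, sPrim, ← mul_sub, ← periodMap_apply f (isPrimitive_prim f) γ τ]
  exact mul_mem_of_mem_periods hL ⟨_, rfl⟩

theorem analyticAt_sPrim {z : ℂ} (hz : 0 < z.im) : AnalyticAt ℂ (sPrim f ∘ ofComplex) z := by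
  refine DifferentiableOn.analyticAt (s := {z : ℂ | 0 < z.im}) (fun w hw => ?_)
    (isOpen_upperHalfPlaneSet.mem_nhds hz)
  exact ((isPrimitive_prim f ⟨w, hw⟩).const_mul tpi).differentiableAt.differentiableWithinAt

theorem weierstrassP_add_lattice {L : PeriodPair} {l : ℂ} (hl : l ∈ L.lattice) (z : ℂ) :
    L.weierstrassP (z + l) = L.weierstrassP z := (wp_sub_coe L hl).1

/-- A level one form vanishing at given points. -/
theorem exists_vanishing (S : Finset ℍ) :
    ∃ (k : ℤ) (P : ℍ → ℂ), P ∈ forms 1 k ∧ P ≠ 0 ∧ ∀ s ∈ S, P s = 0 := by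
  classical
  induction S using Finset.induction_on with
  | empty => exact ⟨0, 1, one_mem_forms, one_ne_zero, by simp⟩
  | insert s S _ ih =>
    obtain ⟨k, P, hP, hP0, hPs⟩ := ih
    have hg : (⇑ModularForm.E₄ ^ 3 - FA.ModField.jfun s • ModularForm.discriminant : ℍ → ℂ) ∈
        forms 1 12 := by
      refine sub_mem ?_ (Submodule.smul_mem _ _ coe_discriminant_mem_forms)
      simpa using pow_mem_forms (coe_mem_forms_one ModularForm.E₄) 3
    have hne : (⇑ModularForm.E₄ ^ 3 - FA.ModField.jfun s • ModularForm.discriminant : ℍ → ℂ) ≠ 0 :=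
      fun h => FA.ModField.jfun_ne_const (FA.ModField.jfun s) (funext fun z => by
        have h1 := congrFun h z
        simp only [Pi.sub_apply, Pi.pow_apply, Pi.smul_apply, smul_eq_mul, Pi.zero_apply] at h1
        show FA.ModField.jfun z - FA.ModField.jfun s = 0
        rw [sub_eq_zero, FA.ModField.jfun, div_eq_iff (ModularForm.discriminant_ne_zero z)]
        exact sub_eq_zero.mp h1)
    refine ⟨k + 12, _, mul_mem_forms hP hg, ?_, fun t ht => ?_⟩
    · intro h
      rw [UpperHalfPlane.mul_eq_zero_iff hP.2.1 hg.2.1] at h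
      exact h.elim hP0 hne
    · rcases Finset.mem_insert.mp ht with rfl | ht
      · simp [FA.ModField.jfun, div_mul_cancel₀ _ (ModularForm.discriminant_ne_zero t)]
      · simp [hPs t ht]

/-- At a pole the product with a form of high vanishing order is analytic. -/
theorem analyticAt_pole (hf : f ≠ 0) (L : PeriodPair) (s : ℍ) (hs : sPrim f s ∈ L.lattice) :
    ∃ d : ℕ, ∀ e : ℕ, d ≤ e → ∀ A P : ℂ → ℂ, AnalyticAt ℂ A s → AnalyticAt ℂ P s → P s = 0 →
      AnalyticAt ℂ (fun z => A z * P z ^ e * L.weierstrassP ((sPrim f ∘ ofComplex) z)) s := by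
  set D : ℂ → ℂ := fun z => (sPrim f ∘ ofComplex) z - sPrim f s with hD
  have hDan : AnalyticAt ℂ D s := (analyticAt_sPrim s.im_pos).sub analyticAt_const
  have hDne : ¬ ∀ᶠ z in 𝓝 (s : ℂ), D z = 0 := fun h => by
    have hU : AnalyticOnNhd ℂ (sPrim f ∘ ofComplex) {z : ℂ | 0 < z.im} :=
      fun z hz => analyticAt_sPrim hz
    have hconst := hU.eqOn_of_preconnected_of_eventuallyEq (g := fun _ => sPrim f s)
      analyticOnNhd_const (convex_halfSpace_im_gt 0).isPreconnected s.im_pos
      (h.mono fun z hz => sub_eq_zero.mp hz)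
    refine hf (DFunLike.coe_injective ((isPrimitive_prim f).eq_zero_of_const
      (c := prim f s) fun τ => ?_))
    simpa [sPrim, tpi_ne_zero] using hconst (x := (τ : ℂ)) τ.im_pos
  obtain ⟨n, u, hu, hu0, hev⟩ := hDan.exists_eventuallyEq_pow_smul_nonzero_iff.mpr hDne
  refine ⟨2 * n + 1, fun e he A P hA hP hP0 => ?_⟩
  obtain ⟨v, hv, hPv⟩ : ∃ v : ℂ → ℂ, AnalyticAt ℂ v s ∧
      ∀ᶠ z in 𝓝 (s : ℂ), P z = (z - s) * v z :=
    ⟨dslope P s, hP.hasFPowerSeriesAt.has_fpower_series_dslope_fslope.analyticAt,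
      Eventually.of_forall fun z => by
        have h := sub_smul_dslope P (s : ℂ) z
        rw [hP0, sub_zero, smul_eq_mul] at h
        exact h.symm⟩
  have hX : AnalyticAt ℂ (fun z => L.weierstrassPExcept 0 (D z)) s :=
    (L.analyticAt_weierstrassPExcept 0).comp_of_eq hDan (by simp [hD])
  refine AnalyticAt.congr (f := fun z => A z * v z ^ e *
    ((z - s) ^ (e - 2 * n) * (u z ^ 2)⁻¹) + A z * P z ^ e * L.weierstrassPExcept 0 (D z)) ?_ ?_
  · exact ((hA.mul (hv.pow e)).mul (((analyticAt_id.sub analyticAt_const).pow _).mul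
      ((hu.pow 2).inv (pow_ne_zero 2 hu0)))).add ((hA.mul (hP.pow e)).mul hX)
  · filter_upwards [hev, hPv, hu.continuousAt.eventually_ne hu0] with z hz hPz huz
    rw [show (sPrim f ∘ ofComplex) z = D z + sPrim f s by simp [hD],
      weierstrassP_add_lattice hs, FA.Mazur.Wp.wp_eq_except L (D z), hPz, hz, smul_eq_mul]
    rcases eq_or_ne z (s : ℂ) with rfl | hne
    · simp [zero_pow (show e - 2 * n ≠ 0 by omega), zero_pow (show e ≠ 0 by omega)]
    · have hne' : z - s ≠ 0 := sub_ne_zero.mpr hne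
      rw [show e = e - 2 * n + 2 * n by omega, Nat.add_sub_cancel, mul_pow (z - s), pow_add]
      field_simp
      ring

theorem qParam_pow_width (w : ℍ) :
    Function.Periodic.qParam ((N : ℤ) : ℝ) w ^ N = Function.Periodic.qParam 1 w := by
  rw [Function.Periodic.qParam, Function.Periodic.qParam, ← Complex.exp_nat_mul]
  congr 1
  have : (N : ℂ) ≠ 0 := Nat.cast_ne_zero.mpr (NeZero.ne N)
  push_cast
  field_simp

/-- At a cusp the product with a high power of `Δ` tends to zero. -/
theorem tendsto_pole_cusp (hf : f ≠ 0) (L : PeriodPair) (δ : SL(2, ℤ)) :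
    ∃ d : ℕ, ∀ a : ℕ, d ≤ a → ∀ P : ℍ → ℂ, IsQFun P →
      IsZeroAtImInfty fun w : ℍ =>
        ModularForm.discriminant w ^ a * P w * L.weierstrassP (sPrim f (δ • w)) := by
  set h : ℝ := ((N : ℤ) : ℝ)
  set C : ℂ → ℂ := fun q => tpi * cuspMap f δ q - tpi * toCusp δ f with hC
  have hCan : AnalyticAt ℂ C 0 :=
    (analyticAt_const.mul ((differentiableOn_cuspMap f δ).analyticAt
      (Metric.ball_mem_nhds 0 one_pos))).sub analyticAt_const
  have hCw : ∀ w : ℍ, sPrim f (δ • w) =
      C (Function.Periodic.qParam h w) + tpi * toCusp δ f := fun w => by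
    simp only [hC, sPrim, h]
    rw [cuspMap_qParam]
    ring
  have hq : Tendsto (fun w : ℍ => Function.Periodic.qParam h w) atImInfty (𝓝 0) :=
    qParam_tendsto_atImInfty (width_pos (N := N))
  have hP0 : ∀ {P : ℍ → ℂ}, IsQFun P → Tendsto P atImInfty (𝓝 (cuspFunction 1 P 0)) :=
    fun {P} hP => (hP.analyticAt.continuousAt.tendsto.comp
      (qParam_tendsto_atImInfty one_pos)).congr fun w => eq_cuspFunction w one_ne_zero hP.periodic
  have hΔ : IsQFun ModularForm.discriminant := isQFun_of_mem coe_discriminant_mem_forms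
  have hΔ0 : Tendsto ModularForm.discriminant atImInfty (𝓝 0) :=
    ModularForm.discriminant_isZeroAtImInfty
  by_cases hz : tpi * toCusp δ f ∈ L.lattice
  · have hne : ¬ ∀ᶠ q in 𝓝 (0 : ℂ), C q = 0 := fun hev => by
      refine cuspMap_not_const hf δ (toCusp δ f) fun q hq => ?_
      refine ((differentiableOn_cuspMap f δ).analyticOnNhd Metric.isOpen_ball)
        |>.eqOn_of_preconnected_of_eventuallyEq analyticOnNhd_const
          (convex_ball _ _).isPreconnected (Metric.mem_ball_self one_pos)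
          (hev.mono fun x hx => ?_) hq
      exact mul_left_cancel₀ tpi_ne_zero (sub_eq_zero.mp hx)
    obtain ⟨n, u, hu, hu0, hev⟩ := hCan.exists_eventuallyEq_pow_smul_nonzero_iff.mpr hne
    refine ⟨2 * n + 1, fun a ha P hP => ?_⟩
    set D : ℂ → ℂ := dslope (cuspFunction 1 ModularForm.discriminant) 0
    have hD : AnalyticAt ℂ D 0 :=
      hΔ.analyticAt.hasFPowerSeriesAt.has_fpower_series_dslope_fslope.analyticAt
    have hΔ00 : cuspFunction 1 ModularForm.discriminant 0 = 0 :=
      tendsto_nhds_unique (hP0 hΔ) hΔ0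
    have hΔeq : ∀ w : ℍ, ModularForm.discriminant w =
        Function.Periodic.qParam h w ^ N * D (Function.Periodic.qParam 1 w) := fun w => by
      have h1 := sub_smul_dslope (cuspFunction 1 ModularForm.discriminant) 0
        (Function.Periodic.qParam 1 (w : ℂ))
      rw [hΔ00, sub_zero, sub_zero, smul_eq_mul, eq_cuspFunction w one_ne_zero hΔ.periodic] at h1
      rw [qParam_pow_width]
      exact h1.symm
    have hX : AnalyticAt ℂ (fun q => L.weierstrassPExcept 0 (C q)) 0 :=
      (L.analyticAt_weierstrassPExcept 0).comp_of_eq hCan (by simp [hC, cuspMap_zero])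
    have hNa : 2 * n + 1 ≤ N * a := ha.trans (Nat.le_mul_of_pos_left a (NeZero.pos N))
    have hlim : Tendsto (fun w : ℍ =>
        ModularForm.discriminant w ^ a * P w *
            L.weierstrassPExcept 0 (C (Function.Periodic.qParam h w)) +
          Function.Periodic.qParam h w ^ (N * a - 2 * n) *
            D (Function.Periodic.qParam 1 w) ^ a * P w *
              (u (Function.Periodic.qParam h w) ^ 2)⁻¹) atImInfty
        (𝓝 (0 ^ a * cuspFunction 1 P 0 * L.weierstrassPExcept 0 (C 0) +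
          0 ^ (N * a - 2 * n) * D 0 ^ a * cuspFunction 1 P 0 * (u 0 ^ 2)⁻¹)) :=
      (((hΔ0.pow a).mul (hP0 hP)).mul (hX.continuousAt.tendsto.comp hq)).add
        ((((hq.pow _).mul ((hD.continuousAt.tendsto.comp
          (qParam_tendsto_atImInfty one_pos)).pow a)).mul (hP0 hP)).mul
            (((hu.continuousAt.tendsto.comp hq).pow 2).inv₀ (pow_ne_zero 2 hu0)))
    rw [zero_pow (show a ≠ 0 by omega), zero_pow (show N * a - 2 * n ≠ 0 by omega), zero_mul,
      zero_mul, zero_mul, zero_mul, zero_mul, add_zero] at hlim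
    refine hlim.congr' ?_
    filter_upwards [hq.eventually hev,
      hq.eventually (hu.continuousAt.eventually_ne hu0)] with w hw huw
    have hq0 : Function.Periodic.qParam h (w : ℂ) ≠ 0 := Complex.exp_ne_zero _
    simp only [sub_zero, smul_eq_mul] at hw
    rw [hCw w, weierstrassP_add_lattice hz,
      FA.Mazur.Wp.wp_eq_except L (C (Function.Periodic.qParam h w)), hw, hΔeq w, mul_pow,
      ← pow_mul, show N * a = N * a - 2 * n + 2 * n by omega, Nat.add_sub_cancel, pow_add]
    field_simp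
    ring
  · refine ⟨1, fun a ha P hP => ?_⟩
    have h2 : Tendsto (fun w : ℍ => L.weierstrassP (sPrim f (δ • w))) atImInfty
        (𝓝 (L.weierstrassP (tpi * toCusp δ f))) :=
      (FA.Mazur.Wp.analyticAt_wp L hz).continuousAt.tendsto.comp
        ((tendsto_toCusp δ f).const_mul tpi)
    have h1 := ((hΔ0.pow a).mul (hP0 hP)).mul h2
    rw [zero_pow (show a ≠ 0 by omega), zero_mul, zero_mul] at h1
    exact h1

/-- **`℘` of the primitive is a quotient of two cusp forms.** -/
theorem exists_pole_forms (hf : f ≠ 0) (L₀ L : PeriodPair)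
    (h₀ : ∀ z : ℂ, z ∈ L₀.lattice ↔ z ∈ periods f) (hL : IsScaledPeriods f L) :
    ∃ (k : ℤ) (G h : ℍ → ℂ), G ∈ cuspForms N k ∧ h ∈ cuspForms N k ∧ G ≠ 0 ∧
      ∀ τ, h τ = G τ * L.weierstrassP (sPrim f τ) := by
  classical
  obtain ⟨S, hSfin, hSP, hS⟩ := exists_finite_fibre hf L₀ h₀ 0
  have hpole : ∀ τ : ℍ, sPrim f τ ∈ L.lattice → ∃ s ∈ S, ∃ γ : Gamma0 N, (γ : SL(2, ℤ)) • s = τ :=
    fun τ hτ => hS τ (by
      obtain ⟨l, hl, h⟩ := (hL _).mp hτ
      rw [unif_eq_zero_iff, h₀]
      exact mul_left_cancel₀ tpi_ne_zero h ▸ hl)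
  have hSmem : ∀ s ∈ S, sPrim f s ∈ L.lattice := fun s hs => by
    have h := hSP s hs
    rw [unif_eq_zero_iff, h₀] at h
    exact mul_mem_of_mem_periods hL h
  obtain ⟨kP, P, hP, hP0, hPS⟩ := exists_vanishing hSfin.toFinset
  choose! d hd using fun s (hs : s ∈ S) => analyticAt_pole hf L s (hSmem s hs)
  choose c hc using fun q : SL(2, ℤ) ⧸ Gamma0 N =>
    tendsto_pole_cusp hf L (q.out : SL(2, ℤ))⁻¹
  set e := hSfin.toFinset.sup d
  have : Fintype (SL(2, ℤ) ⧸ Gamma0 N) := Fintype.ofFinite _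
  set a := Finset.univ.sup c + 1 with ha
  set k : ℤ := (a : ℤ) * 12 + (e : ℤ) * kP
  set G : ℍ → ℂ := ModularForm.discriminant ^ a * P ^ e with hG
  have hG1 : G ∈ forms 1 k :=
    mul_mem_forms (pow_mem_forms coe_discriminant_mem_forms a) (pow_mem_forms hP e)
  have hGinv : ∀ γ : SL(2, ℤ), G ∣[k] γ = G := slash_eq_of_mem_forms_one hG1
  set h : ℍ → ℂ := fun τ => G τ * L.weierstrassP (sPrim f τ) with hh
  have hslash : ∀ γ : SL(2, ℤ),
      h ∣[k] γ = fun τ => G τ * L.weierstrassP (sPrim f (γ • τ)) := fun γ => by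
    funext τ
    have h1 := congrFun (hGinv γ) τ
    rw [ModularForm.SL_slash_apply] at h1 ⊢
    simp only [hh]
    rw [← h1]
    ring
  have hinv : ∀ γ ∈ Gamma0 N, h ∣[k] γ = h := fun γ hγ => by
    rw [hslash γ]
    funext τ
    have h1 := weierstrassP_add_lattice (sPrim_smul hL ⟨γ, hγ⟩ τ) (sPrim f τ)
    rw [add_sub_cancel] at h1
    simp only [hh]
    rw [h1]
  have hat : ∀ s ∈ S, MDiffAt h s := fun s hs => by
    rw [UpperHalfPlane.mdifferentiableAt_iff]
    have hA : AnalyticAt ℂ ((ModularForm.discriminant ^ a : ℍ → ℂ) ∘ ofComplex) s :=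
      (UpperHalfPlane.mdifferentiable_iff.mp
        (pow_mem_forms coe_discriminant_mem_forms a).2.1).analyticAt
        (isOpen_upperHalfPlaneSet.mem_nhds s.im_pos)
    have hPa : AnalyticAt ℂ (P ∘ ofComplex) s :=
      (UpperHalfPlane.mdifferentiable_iff.mp hP.2.1).analyticAt
        (isOpen_upperHalfPlaneSet.mem_nhds s.im_pos)
    exact (hd s hs e (Finset.le_sup (hSfin.mem_toFinset.mpr hs)) _ _ hA hPa
      (by simp [hPS s (hSfin.mem_toFinset.mpr hs)])).differentiableAt
  have hdiff : MDiff h := fun τ => by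
    by_cases hτ : sPrim f τ ∈ L.lattice
    · obtain ⟨s, hs, γ, rfl⟩ := hpole τ hτ
      have heq : h = fun z => h ((γ : SL(2, ℤ))⁻¹ • z) *
          denom ((γ : SL(2, ℤ))⁻¹ : SL(2, ℤ)) z ^ (-k) := by
        funext z
        have h1 := congrFun (hinv _ (inv_mem γ.2)) z
        rw [ModularForm.SL_slash_apply] at h1
        exact h1.symm
      rw [heq]
      refine MDifferentiableAt.mul ?_ (mdifferentiable_denom_zpow _ _ _)
      refine MDifferentiableAt.comp (g := h) _ ?_ ((mdifferentiable_smul (by simp)) _)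
      simpa [inv_smul_smul] using hat s hs
    · rw [UpperHalfPlane.mdifferentiableAt_iff]
      exact ((UpperHalfPlane.mdifferentiable_iff.mp hG1.2.1).differentiableAt
        (isOpen_upperHalfPlaneSet.mem_nhds τ.im_pos)).mul
        ((FA.Mazur.Wp.analyticAt_wp L (by simpa using hτ)).comp_of_eq
          (analyticAt_sPrim τ.im_pos) rfl).differentiableAt
  have hzero : ∀ γ : SL(2, ℤ), IsZeroAtImInfty (h ∣[k] γ) := fun δ => by
    obtain ⟨g, hgc⟩ := QuotientGroup.mk_out_eq_mul (Gamma0 N) δ⁻¹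
    set q : SL(2, ℤ) ⧸ Gamma0 N := QuotientGroup.mk δ⁻¹
    have hδ : δ = (g : SL(2, ℤ)) * (q.out : SL(2, ℤ))⁻¹ := by
      rw [hgc]
      group
    rw [hδ, SlashAction.slash_mul, hinv _ g.2, hslash]
    exact hc q a (le_trans (Finset.le_sup (Finset.mem_univ q)) (Nat.le_succ _)) (P ^ e)
      ((isQFun_of_mem hP).pow e)
  refine ⟨k, G, h, ⟨forms_one_le N k hG1, fun γ => ?_⟩,
    ⟨⟨hinv, hdiff, fun γ => (hzero γ).isBoundedAtImInfty⟩, hzero⟩, ?_, fun τ => rfl⟩
  · rw [hGinv γ, ((isQFun_of_mem hG1)).isZeroAtImInfty_iff, hG,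
      ((isQFun_of_mem coe_discriminant_mem_forms).pow a).qExp_mul ((isQFun_of_mem hP).pow e),
      (isQFun_of_mem coe_discriminant_mem_forms).qExp_pow,
      PowerSeries.coeff_zero_eq_constantCoeff_apply, map_mul, map_pow,
      ← PowerSeries.coeff_zero_eq_constantCoeff_apply,
      ((isQFun_of_mem coe_discriminant_mem_forms).isZeroAtImInfty_iff).mp
        ModularForm.discriminant_isZeroAtImInfty,
      zero_pow (show a ≠ 0 by omega), zero_mul]
  · rw [Ne, ← (isQFun_of_mem hG1).qExp_eq_zero_iff, hG,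
      ((isQFun_of_mem coe_discriminant_mem_forms).pow a).qExp_mul ((isQFun_of_mem hP).pow e),
      (isQFun_of_mem coe_discriminant_mem_forms).qExp_pow, (isQFun_of_mem hP).qExp_pow]
    refine mul_ne_zero (pow_ne_zero _ ?_) (pow_ne_zero _ ?_)
    · rw [Ne, (isQFun_of_mem coe_discriminant_mem_forms).qExp_eq_zero_iff]
      exact fun h => ModularForm.discriminant_ne_zero UpperHalfPlane.I (congrFun h _)
    · rwa [Ne, (isQFun_of_mem hP).qExp_eq_zero_iff]

end FA.ModularParametrization

end
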