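import Fermat.Agent.ModularParametrization.ConjugateLattice
import Fermat.Agent.ModularParametrization.Inclusion
import Fermat.Agent.Period.AutC

/-!
# The invariants of the period lattice are rational

Every conjugate of the lattice contains it; applying this to the inverse automorphism and
conjugating
the inclusion gives equality.
-/

set_option autoImplicit false

noncomputable section

namespace FA.ModularParametrization

open CongruenceSubgroup FA.PeriodLattice FA.Mazur.Wp

variable {N : ℕ} [NeZero N] {f : CuspForm (Gamma0 N) 2}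

theorem exists_conjugate_pair (σ : ℂ ≃+* ℂ) (L : PeriodPair) :
    ∃ M : PeriodPair, M.g₂ = σ L.g₂ ∧ M.g₃ = σ L.g₃ := by
  refine FA.ClassNumberOne.exists_lattice fun h => ?_
  refine (latCurve L).isUnit_Δ.ne_zero ?_
  rw [latCurve_Δ]
  refine σ.injective ?_
  rw [map_zero, map_sub, map_mul, map_pow, map_pow, map_ofNat]
  exact h

/-- The invariants of `2 π i` times the periods are fixed by every automorphism of `ℂ`. -/
theorem invariants_fixed (hf : f.IsNormalizedEigenform) {a : ℕ → ℤ}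
    (ha : ∀ n, ModularFormClass.qCoeff f n = (a n : ℂ)) {L : PeriodPair}
    (hL : IsScaledPeriods f L) (σ : ℂ ≃+* ℂ) : σ L.g₂ = L.g₂ ∧ σ L.g₃ = L.g₃ := by
  obtain ⟨L₀, h₀⟩ := exists_periodPair hf ha
  have h1 : ModularFormClass.qCoeff f 1 = 1 := hf.qCoeff_one
  have hσ : ∀ (τ : ℂ ≃+* ℂ) n, τ (ModularFormClass.qCoeff f n) = ModularFormClass.qCoeff f n :=
    fun τ n => by rw [ha n, map_intCast]
  obtain ⟨M, hM2, hM3⟩ := exists_conjugate_pair σ L
  obtain ⟨M', hM'2, hM'3⟩ := exists_conjugate_pair σ.symm L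
  have hLM := periods_le_conjugate hf.ne_zero h1 σ (hσ σ) L₀ L M h₀ hL hM2 hM3
  have hLM' := periods_le_conjugate hf.ne_zero h1 σ.symm (hσ σ.symm) L₀ L M' h₀ hL hM'2 hM'3
  have hML := lattice_le_of_conjugate (A := L) (A' := M) (B := M') (B' := L) σ hM2.symm hM3.symm
    (by rw [hM'2, RingEquiv.apply_symm_apply]) (by rw [hM'3, RingEquiv.apply_symm_apply]) hLM'
  have e : M.lattice = L.lattice := le_antisymm hML hLM
  obtain ⟨e2, e3⟩ := FA.ClassNumberOne.g_congr e
  exact ⟨hM2.symm.trans e2, hM3.symm.trans e3⟩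

/-- **The Weil curve is defined over `ℚ`.** -/
theorem exists_rat_invariants (hf : f.IsNormalizedEigenform) {a : ℕ → ℤ}
    (ha : ∀ n, ModularFormClass.qCoeff f n = (a n : ℂ)) {L : PeriodPair}
    (hL : IsScaledPeriods f L) : ∃ g₂ g₃ : ℚ, L.g₂ = g₂ ∧ L.g₃ = g₃ := by
  obtain ⟨g₂, h2⟩ := FA.Period.exists_rat_of_forall_ringEquiv_fixed L.g₂
    fun σ => (invariants_fixed hf ha hL σ).1
  obtain ⟨g₃, h3⟩ := FA.Period.exists_rat_of_forall_ringEquiv_fixed L.g₃
    fun σ => (invariants_fixed hf ha hL σ).2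
  exact ⟨g₂, g₃, h2, h3⟩

end FA.ModularParametrization

end
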