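import Fermat.Agent.ModularParametrization.PoleForms
import Fermat.Agent.Tau.HasseEisenstein

/-!
# The differential equation of a quotient of two series

If `x = u / v` satisfies `(q x')² = φ² (4 x³ - a x - b)` then `odeSer a b φ u v = 0`; Taylor series
translate this between functions and series.
-/

set_option autoImplicit false

noncomputable section

namespace FA.ModularParametrization

open Filter FA.ModField FA.HasseEis
open scoped Topology PowerSeries

variable {R S : Type*} [CommRing R] [CommRing S]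

/-- `q d/dq`. -/
def thetaSer (U : R⟦X⟧) : R⟦X⟧ := PowerSeries.mk fun n => (n : R) * PowerSeries.coeff n U

theorem coeff_thetaSer (U : R⟦X⟧) (n : ℕ) :
    PowerSeries.coeff n (thetaSer U) = (n : R) * PowerSeries.coeff n U :=
  PowerSeries.coeff_mk _ _

theorem map_thetaSer (g : R →+* S) (U : R⟦X⟧) :
    PowerSeries.map g (thetaSer U) = thetaSer (PowerSeries.map g U) := by
  ext n
  simp [coeff_thetaSer]

/-- The equation of `u / v`. -/
def odeSer (a b : R) (φ u v : R⟦X⟧) : R⟦X⟧ :=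
  (thetaSer u * v - u * thetaSer v) ^ 2 -
    φ ^ 2 * (4 * u ^ 3 * v - PowerSeries.C a * u * v ^ 3 - PowerSeries.C b * v ^ 4)

theorem map_odeSer (g : R →+* S) (a b : R) (φ u v : R⟦X⟧) :
    PowerSeries.map g (odeSer a b φ u v) =
      odeSer (g a) (g b) (PowerSeries.map g φ) (PowerSeries.map g u) (PowerSeries.map g v) := by
  simp [odeSer, map_thetaSer, map_ofNat]

/-- The equation of a quotient of two functions. -/
def odeFun (a b : ℂ) (ψ U V : ℂ → ℂ) (q : ℂ) : ℂ :=
  (q * deriv U q * V q - U q * (q * deriv V q)) ^ 2 -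
    ψ q ^ 2 * (4 * U q ^ 3 * V q - a * U q * V q ^ 3 - b * V q ^ 4)

section tay

variable {F G : ℂ → ℂ}

theorem tay_neg (hF : AnalyticAt ℂ F 0) : tay (fun z => -F z) = -tay F := by
  have h := tay_mul (F := fun _ => (-1 : ℂ)) analyticAt_const hF
  rw [tay_const] at h
  simpa using h

theorem tay_sub (hF : AnalyticAt ℂ F 0) (hG : AnalyticAt ℂ G 0) :
    tay (fun z => F z - G z) = tay F - tay G := by
  simp only [sub_eq_add_neg]
  rw [tay_add (G := fun z => -G z) hF hG.neg, tay_neg hG]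

theorem tay_const_mul (c : ℂ) (hF : AnalyticAt ℂ F 0) :
    tay (fun z => c * F z) = PowerSeries.C c * tay F := by
  rw [tay_mul analyticAt_const hF, tay_const]

theorem tay_mul_deriv (hF : AnalyticAt ℂ F 0) :
    tay (fun z => z * deriv F z) = thetaSer (tay F) := by
  rw [tay_mul (F := fun z : ℂ => z) (G := deriv F) analyticAt_id hF.deriv, tay_id]
  ext n
  rcases n with _ | n
  · simp [coeff_thetaSer]
  · rw [coeff_thetaSer, PowerSeries.coeff_succ_X_mul]
    simp only [tay, PowerSeries.coeff_mk, iteratedDeriv_succ', Nat.factorial_succ]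
    have := n.factorial_ne_zero
    push_cast
    field_simp

theorem eventually_eq_zero_of_tay (hF : AnalyticAt ℂ F 0) (h : tay F = 0) :
    ∀ᶠ z in 𝓝 (0 : ℂ), F z = 0 := by
  refine hF.hasFPowerSeriesAt.locally_zero_iff.mpr ?_
  ext n
  have h1 := congrArg (PowerSeries.coeff n) h
  simp only [tay, PowerSeries.coeff_mk, map_zero] at h1
  simp [FormalMultilinearSeries.ofScalars, (mul_eq_zero.mp h1).resolve_left
    (inv_ne_zero (Nat.cast_ne_zero.mpr n.factorial_ne_zero))]

theorem tay_eq_zero_of_eventually (h : ∀ᶠ z in 𝓝 (0 : ℂ), F z = 0) : tay F = 0 := by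
  rw [tay_congr (G := fun _ => (0 : ℂ)) h, tay_const, map_zero]

theorem analyticAt_odeFun (a b : ℂ) {ψ U V : ℂ → ℂ} (hψ : AnalyticAt ℂ ψ 0)
    (hU : AnalyticAt ℂ U 0) (hV : AnalyticAt ℂ V 0) : AnalyticAt ℂ (odeFun a b ψ U V) 0 :=
  (((analyticAt_id.mul hU.deriv).mul hV).sub (hU.mul (analyticAt_id.mul hV.deriv))).pow 2 |>.sub
    ((hψ.pow 2).mul ((((analyticAt_const.mul (hU.pow 3)).mul hV).sub
      ((analyticAt_const.mul hU).mul (hV.pow 3))).sub (analyticAt_const.mul (hV.pow 4))))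

theorem tay_odeFun (a b : ℂ) {ψ U V : ℂ → ℂ} (hψ : AnalyticAt ℂ ψ 0)
    (hU : AnalyticAt ℂ U 0) (hV : AnalyticAt ℂ V 0) :
    tay (odeFun a b ψ U V) = odeSer a b (tay ψ) (tay U) (tay V) := by
  have h1 : AnalyticAt ℂ (fun q => q * deriv U q) 0 := analyticAt_id.mul hU.deriv
  have h2 : AnalyticAt ℂ (fun q => q * deriv V q) 0 := analyticAt_id.mul hV.deriv
  have a1 : AnalyticAt ℂ (fun q => q * deriv U q * V q) 0 := h1.mul hV
  have a2 : AnalyticAt ℂ (fun q => U q * (q * deriv V q)) 0 := hU.mul h2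
  have a3 : AnalyticAt ℂ (fun q => q * deriv U q * V q - U q * (q * deriv V q)) 0 := a1.sub a2
  have a4 : AnalyticAt ℂ (fun q => (q * deriv U q * V q - U q * (q * deriv V q)) ^ 2) 0 := a3.pow 2
  have b1 : AnalyticAt ℂ (fun q => U q ^ 3) 0 := hU.pow 3
  have b2 : AnalyticAt ℂ (fun q => 4 * U q ^ 3) 0 := analyticAt_const.mul b1
  have b3 : AnalyticAt ℂ (fun q => 4 * U q ^ 3 * V q) 0 := b2.mul hV
  have c1 : AnalyticAt ℂ (fun q => a * U q) 0 := analyticAt_const.mul hU
  have c2 : AnalyticAt ℂ (fun q => V q ^ 3) 0 := hV.pow 3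
  have c3 : AnalyticAt ℂ (fun q => a * U q * V q ^ 3) 0 := c1.mul c2
  have d1 : AnalyticAt ℂ (fun q => V q ^ 4) 0 := hV.pow 4
  have d2 : AnalyticAt ℂ (fun q => b * V q ^ 4) 0 := analyticAt_const.mul d1
  have e1 : AnalyticAt ℂ (fun q => 4 * U q ^ 3 * V q - a * U q * V q ^ 3) 0 := b3.sub c3
  have e2 : AnalyticAt ℂ
      (fun q => 4 * U q ^ 3 * V q - a * U q * V q ^ 3 - b * V q ^ 4) 0 := e1.sub d2
  have e3 : AnalyticAt ℂ (fun q => ψ q ^ 2) 0 := hψ.pow 2
  have e4 : AnalyticAt ℂ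
      (fun q => ψ q ^ 2 * (4 * U q ^ 3 * V q - a * U q * V q ^ 3 - b * V q ^ 4)) 0 := e3.mul e2
  unfold odeFun odeSer
  rw [tay_sub a4 e4, tay_pow a3, tay_sub a1 a2, tay_mul h1 hV, tay_mul hU h2, tay_mul_deriv hU,
    tay_mul_deriv hV, tay_mul e3 e2, tay_pow hψ, tay_sub e1 d2, tay_sub b3 c3, tay_mul b2 hV,
    tay_const_mul 4 b1, tay_pow hU, tay_mul c1 c2, tay_const_mul a hU, tay_pow hV,
    tay_const_mul b d1, tay_pow hV, map_ofNat]

end tay

end FA.ModularParametrization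

end
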