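import Fermat.Agent.ModularParametrization.Basic
import Fermat.Agent.PadicL.Symbols
import Mathlib.Analysis.Complex.OpenMapping
import Mathlib.Topology.Algebra.ProperAction.Basic

/-!
# The parametrisation, extended to the cusps, is onto

Modulo the periods the values of the primitive and its limits at the cusps form a set which is open,
by the open mapping theorem on the upper half plane and on the discs around the cusps, and closed,
as it is the union over finitely many cosets of compact sets translated by the lattice.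
-/

set_option autoImplicit false

noncomputable section

namespace FA.ModularParametrization

open UpperHalfPlane hiding I
open Complex CongruenceSubgroup Filter Metric ModularCurve FA.Period FA.ManinDrinfeld
open FA.PeriodLattice
open scoped MatrixGroups Topology Pointwise Real

variable {N : ℕ} [NeZero N] (f : CuspForm (Gamma0 N) 2)

/-- The primitive near the cusp `δ∞`, in the parameter `q`. -/
def cuspMap (δ : SL(2, ℤ)) : ℂ → ℂ :=
  UpperHalfPlane.cuspFunction ((N : ℤ) : ℝ) fun w : ℍ => prim f (δ • w)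

theorem periodic_prim_smul (δ : SL(2, ℤ)) :
    Function.Periodic ((fun w : ℍ => prim f (δ • w)) ∘ ofComplex) ((N : ℤ) : ℝ) := by
  set γ : Gamma0 N := ⟨_, conj_T_pow_mem N δ⟩
  have hstep : ∀ w : ℍ, prim f (δ • (ModularGroup.T ^ (N : ℤ) • w)) - prim f (δ • w) =
      periodMap N f (Additive.ofMul γ) := fun w => by
    rw [periodMap_apply f (isPrimitive_prim f) γ (δ • w)]
    congr 2
    simp only [γ, ← mul_smul]
    congr 1
    group
  have hT : Tendsto (fun w : ℍ => ModularGroup.T ^ (N : ℤ) • w) atImInfty atImInfty := by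
    refine tendsto_comap_iff.mpr ?_
    have him : Tendsto UpperHalfPlane.im atImInfty atTop := tendsto_comap
    refine him.congr fun w => ?_
    have h := congrArg Complex.im (coe_T_zpow_smul (N : ℤ) w)
    simpa using h.symm
  have h0 : periodMap N f (Additive.ofMul γ) = 0 := by
    have h1 := (((tendsto_toCusp δ f).comp hT).sub (tendsto_toCusp δ f)).congr fun w => hstep w
    rw [sub_self] at h1
    exact tendsto_const_nhds_iff.mp h1
  intro z
  by_cases hz : 0 < z.im
  · have hz1 : 0 < (z + ((N : ℤ) : ℝ)).im := by simpa using hz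
    simp only [Function.comp_apply, ofComplex_apply_of_im_pos hz, ofComplex_apply_of_im_pos hz1]
    have h2 := hstep ⟨z, hz⟩
    rw [h0, sub_eq_zero] at h2
    refine Eq.trans (congrArg (fun w : ℍ => prim f (δ • w)) (UpperHalfPlane.ext ?_)) h2
    rw [coe_T_zpow_smul]
    simp
  · have hz1 : (z + ((N : ℤ) : ℝ)).im ≤ 0 := by simpa using hz
    simp only [Function.comp_apply, ofComplex_apply_of_im_nonpos hz1,
      ofComplex_apply_of_im_nonpos (not_lt.mp hz)]

theorem width_pos : (0 : ℝ) < ((N : ℤ) : ℝ) := by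
  exact_mod_cast Nat.pos_of_ne_zero (NeZero.ne N)

theorem cuspMap_qParam (δ : SL(2, ℤ)) (w : ℍ) :
    cuspMap f δ (Function.Periodic.qParam ((N : ℤ) : ℝ) w) = prim f (δ • w) :=
  eq_cuspFunction w (width_pos (N := N)).ne' (periodic_prim_smul f δ)

theorem differentiableOn_cuspMap (δ : SL(2, ℤ)) :
    DifferentiableOn ℂ (cuspMap f δ) (ball 0 1) :=
  differentiableOn_cuspFunction_ball (width_pos (N := N)) (periodic_prim_smul f δ)
    ((isPrimitive_prim f).comp_smul δ).mdiff ((tendsto_toCusp δ f).isBigO_one ℝ)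

theorem cuspMap_zero (δ : SL(2, ℤ)) : cuspMap f δ 0 = toCusp δ f := by
  have hc : ContinuousAt (cuspMap f δ) 0 :=
    ((differentiableOn_cuspMap f δ).differentiableAt (ball_mem_nhds 0 one_pos)).continuousAt
  exact tendsto_nhds_unique ((hc.tendsto.comp (qParam_tendsto_atImInfty (width_pos (N := N)))).congr
    fun w => cuspMap_qParam f δ w) (tendsto_toCusp δ f)

theorem cuspMap_mem (δ : SL(2, ℤ)) {q : ℂ} (hq : q ∈ ball (0 : ℂ) 1) :
    (∃ τ : ℍ, cuspMap f δ q = prim f τ) ∨ cuspMap f δ q = toCusp δ f := by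
  rcases eq_or_ne q 0 with rfl | h0
  · exact Or.inr (cuspMap_zero f δ)
  have hh := width_pos (N := N)
  have hr := Function.Periodic.qParam_right_inv hh.ne' h0
  have him : 0 < (Function.Periodic.invQParam ((N : ℤ) : ℝ) q).im := by
    have h1 : ‖q‖ < 1 := mem_ball_zero_iff.mp hq
    rw [← hr, Function.Periodic.norm_qParam, Real.exp_lt_one_iff] at h1
    by_contra hle
    push Not at hle
    have : 0 ≤ -2 * π * (Function.Periodic.invQParam ((N : ℤ) : ℝ) q).im / ((N : ℤ) : ℝ) :=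
      div_nonneg (by nlinarith [Real.pi_pos]) hh.le
    linarith
  exact Or.inl ⟨δ • ⟨_, him⟩, by rw [← cuspMap_qParam f δ ⟨_, him⟩]; exact congrArg _ hr.symm⟩

/-- The values of the parametrisation, modulo the periods. -/
def imageSet : Set ℂ :=
  {z | ∃ l ∈ periods f, (∃ τ : ℍ, prim f τ + l = z) ∨ ∃ δ : SL(2, ℤ), toCusp δ f + l = z}

variable {f}

theorem isOpen_imageSet (hf : f ≠ 0) : IsOpen (imageSet f) := by
  have hU : IsOpen {z : ℂ | 0 < z.im} := isOpen_upperHalfPlaneSet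
  have hne : ∀ c : ℂ, ¬ ∀ τ : ℍ, prim f τ = c := fun c h =>
    hf (DFunLike.coe_injective ((isPrimitive_prim f).eq_zero_of_const h))
  have hrange : IsOpen (Set.range (prim f)) := by
    have hd : DifferentiableOn ℂ (prim f ∘ ofComplex) {z : ℂ | 0 < z.im} := fun z hz =>
      ((isPrimitive_prim f ⟨z, hz⟩).differentiableAt).differentiableWithinAt
    rcases (hd.analyticOnNhd hU).is_constant_or_isOpen
      (Convex.isPreconnected (convex_halfSpace_im_gt 0)) with ⟨c, hc⟩ | h
    · exact absurd (fun τ : ℍ => by simpa using hc τ τ.im_pos) (hne c)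
    · convert h _ subset_rfl hU using 1
      ext w
      constructor
      · rintro ⟨τ, rfl⟩
        exact ⟨τ, τ.im_pos, by simp⟩
      · rintro ⟨z, hz, rfl⟩
        exact ⟨ofComplex z, rfl⟩
  rw [isOpen_iff_mem_nhds]
  rintro z ⟨l, hl, ⟨τ, rfl⟩ | ⟨δ, rfl⟩⟩
  · refine mem_of_superset (((Homeomorph.addRight l).isOpen_image.mpr hrange).mem_nhds
      ⟨_, ⟨τ, rfl⟩, rfl⟩) ?_
    rintro _ ⟨_, ⟨τ', rfl⟩, rfl⟩
    exact ⟨l, hl, Or.inl ⟨τ', rfl⟩⟩
  · rcases ((differentiableOn_cuspMap f δ).analyticOnNhd isOpen_ball).is_constant_or_isOpen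
      (convex_ball _ _).isPreconnected with ⟨c, hc⟩ | h
    · refine absurd (fun τ : ℍ => ?_) (hne c)
      rw [← smul_inv_smul δ τ, ← cuspMap_qParam f δ]
      exact hc _ (mem_ball_zero_iff.mpr
        (Function.Periodic.norm_qParam_lt_one (width_pos (N := N)) (δ⁻¹ • τ).im_pos))
    · refine mem_of_superset (((Homeomorph.addRight l).isOpen_image.mpr
        (h _ subset_rfl isOpen_ball)).mem_nhds
        ⟨_, ⟨0, mem_ball_self one_pos, rfl⟩, by simp [cuspMap_zero]⟩) ?_
      rintro _ ⟨_, ⟨q, hq, rfl⟩, rfl⟩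
      rcases cuspMap_mem f δ hq with ⟨τ, hτ⟩ | hc
      · exact ⟨l, hl, Or.inl ⟨τ, by simp [hτ]⟩⟩
      · exact ⟨l, hl, Or.inr ⟨δ, by simp [hc]⟩⟩

/-- Every value is congruent to one on a closed disc around one of finitely many cusps. -/
theorem imageSet_eq :
    imageSet f = ⋃ c : SL(2, ℤ) ⧸ Gamma0 N,
      cuspMap f (c.out : SL(2, ℤ))⁻¹ '' closedBall 0 (Real.exp (-π / ((N : ℤ) : ℝ))) +
        (periods f : Set ℂ) := by
  have hr : Real.exp (-π / ((N : ℤ) : ℝ)) < 1 :=
    Real.exp_lt_one_iff.mpr (div_neg_of_neg_of_pos (neg_lt_zero.mpr Real.pi_pos) width_pos)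
  have hdec : ∀ δ : SL(2, ℤ), ∃ (c : SL(2, ℤ) ⧸ Gamma0 N) (g : Gamma0 N),
      δ = (g : SL(2, ℤ)) * (c.out : SL(2, ℤ))⁻¹ := fun δ => by
    obtain ⟨g, hgc⟩ := QuotientGroup.mk_out_eq_mul (Gamma0 N) δ⁻¹
    refine ⟨QuotientGroup.mk δ⁻¹, g, ?_⟩
    rw [hgc]
    group
  refine Set.Subset.antisymm ?_ (Set.iUnion_subset fun c => ?_)
  · rintro z ⟨l, hl, ⟨τ, rfl⟩ | ⟨δ, rfl⟩⟩
    · obtain ⟨g₀, hg₀⟩ := ModularGroup.exists_smul_mem_fd τ
      set w : ℍ := g₀ • τ
      obtain ⟨c, g, hg⟩ := hdec g₀⁻¹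
      refine Set.mem_iUnion.mpr ⟨c, _, ⟨Function.Periodic.qParam ((N : ℤ) : ℝ) w, ?_, rfl⟩,
        periodMap N f (Additive.ofMul g) + l, add_mem ⟨_, rfl⟩ hl, ?_⟩
      · rw [mem_closedBall_zero_iff, Function.Periodic.norm_qParam, Real.exp_le_exp,
          div_le_div_iff_of_pos_right width_pos]
        have h1 : (1 / 2 : ℝ) ≤ w.im := by
          nlinarith [ModularGroup.three_le_four_mul_im_sq_of_mem_fd hg₀, w.im_pos]
        show -2 * π * w.im ≤ -π
        nlinarith [mul_le_mul_of_nonneg_left h1 Real.pi_pos.le]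
      · show cuspMap f (c.out : SL(2, ℤ))⁻¹ _ + (_ + l) = _
        have hback : (g : SL(2, ℤ)) • ((c.out : SL(2, ℤ))⁻¹ • w) = τ := by
          rw [← mul_smul, ← hg]
          exact inv_smul_smul g₀ τ
        rw [cuspMap_qParam, periodMap_apply f (isPrimitive_prim f) g ((c.out : SL(2, ℤ))⁻¹ • w),
          hback]
        ring
    · obtain ⟨c, g, hg⟩ := hdec δ
      refine Set.mem_iUnion.mpr ⟨c, _, ⟨0, mem_closedBall_self (Real.exp_pos _).le, rfl⟩,
        periodMap N f (Additive.ofMul g) + l, add_mem ⟨_, rfl⟩ hl, ?_⟩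
      show cuspMap f (c.out : SL(2, ℤ))⁻¹ 0 + (_ + l) = _
      rw [cuspMap_zero, hg, FA.PadicL.toCusp_mul]
      ring
  · rintro _ ⟨_, ⟨q, hq, rfl⟩, l, hl, rfl⟩
    rcases cuspMap_mem f _ (closedBall_subset_ball hr hq) with ⟨τ, hτ⟩ | hc
    · exact ⟨l, hl, Or.inl ⟨τ, by rw [hτ]⟩⟩
    · exact ⟨l, hl, Or.inr ⟨(c.out : SL(2, ℤ))⁻¹, by rw [hc]⟩⟩

theorem isClosed_imageSet (L : PeriodPair) (hL : ∀ z : ℂ, z ∈ L.lattice ↔ z ∈ periods f) :
    IsClosed (imageSet f) := by
  rw [imageSet_eq]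
  have : Finite (SL(2, ℤ) ⧸ Gamma0 N) := inferInstance
  have hper : IsClosed (periods f : Set ℂ) := by
    rw [show (periods f : Set ℂ) = (L.lattice : Set ℂ) from Set.ext fun z => (hL z).symm]
    exact L.isClosed_lattice
  refine isClosed_iUnion_of_finite fun c => hper.add_left_of_isCompact ?_
  refine (isCompact_closedBall _ _).image_of_continuousOn
    ((differentiableOn_cuspMap f _).continuousOn.mono ?_)
  exact closedBall_subset_ball
    (Real.exp_lt_one_iff.mpr (div_neg_of_neg_of_pos (neg_lt_zero.mpr Real.pi_pos) width_pos))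

/-- **Surjectivity**. -/
theorem imageSet_eq_univ (hf : f ≠ 0) (L : PeriodPair)
    (hL : ∀ z : ℂ, z ∈ L.lattice ↔ z ∈ periods f) : imageSet f = Set.univ :=
  IsClopen.eq_univ ⟨isClosed_imageSet L hL, isOpen_imageSet hf⟩
    ⟨_, 0, zero_mem _, Or.inl ⟨UpperHalfPlane.I, rfl⟩⟩

open FA.Mazur.Wp in
theorem exists_unif_eq (hf : f ≠ 0) (L : PeriodPair)
    (hL : ∀ z : ℂ, z ∈ L.lattice ↔ z ∈ periods f) (P : (latCurve L).toAffine.Point) :
    (∃ τ : ℍ, unif L (prim f τ) = P) ∨
      ∃ δ : SL(2, ℤ), unif L (toCusp δ f) = P := by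
  obtain ⟨z, rfl⟩ := FA.ClassNumberOne.unif_surjective L P
  obtain ⟨l, hl, h | h⟩ : z ∈ imageSet f := (imageSet_eq_univ hf L hL) ▸ Set.mem_univ z
  · obtain ⟨τ, rfl⟩ := h
    exact Or.inl ⟨τ, (unif_add_mem L ((hL l).mpr hl)).symm⟩
  · obtain ⟨δ, rfl⟩ := h
    exact Or.inr ⟨δ, (unif_add_mem L ((hL l).mpr hl)).symm⟩

end FA.ModularParametrization

end
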