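import Fermat.Agent.ModularParametrization.Congruence
import Fermat.Agent.HasseBound.Summary

/-!
# The traces of the Weil curve

At almost every prime the trace of the Weil curve is congruent to `a_p`. Both being at most
`2 √p` in absolute value, they are equal once `16 < p`.
-/

set_option autoImplicit false

noncomputable section

namespace FA.ModularParametrization

open CongruenceSubgroup WeierstrassCurve FA.Mazur.Wp

variable {N : ℕ} [NeZero N] {f : CuspForm (Gamma0 N) 2}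

/-- Congruent integers below `2 √p` are equal. -/
theorem eq_of_congr_of_sq_le {p : ℕ} (hp : 16 < p) {x y : ℤ} (hx : x ^ 2 ≤ 4 * (p : ℤ))
    (hy : y ^ 2 ≤ 4 * (p : ℤ)) (h : (x : ZMod p) = y) : x = y := by
  obtain ⟨c, hc⟩ := (ZMod.intCast_eq_intCast_iff_dvd_sub x y p).mp h
  rcases eq_or_ne c 0 with rfl | hc0
  · linarith
  · exfalso
    have h1 : (1 : ℤ) ≤ c ^ 2 := by
      have := sq_pos_of_ne_zero hc0
      omega
    have h2 : ((p : ℤ) * c) ^ 2 ≤ 16 * p := by
      rw [← hc]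
      nlinarith [sq_nonneg (x + y)]
    have h3 : (17 : ℤ) ≤ p := by exact_mod_cast hp
    nlinarith [mul_le_mul_of_nonneg_left h1 (sq_nonneg (p : ℤ))]

/-- **The Weil curve and its traces modulo `p`.** -/
theorem exists_curve_congr (hf : f.IsNormalizedEigenform) {a : ℕ → ℤ}
    (ha : ∀ n, ModularFormClass.qCoeff f n = (a n : ℂ)) {L : PeriodPair}
    (hL : IsScaledPeriods f L) :
    ∃ (E : WeierstrassCurve ℚ) (D : ℕ), E.IsElliptic ∧ D ≠ 0 ∧
      latCurve L = E.map (algebraMap ℚ ℂ) ∧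
      ∀ p : ℕ, p.Prime → ¬ p ∣ D → 16 < p ∧ E.LFunction p ^ 2 ≤ 4 * (p : ℤ) ∧
        (E.LFunction p : ZMod p) = (a p : ZMod p) := by
  obtain ⟨d, A, B, D, hd, hD, h2, h3, hcongr⟩ := exists_congruence hf ha hL
  have hdQ : (d : ℚ) ≠ 0 := Nat.cast_ne_zero.mpr hd
  have hΔ : 4 * A ^ 3 + 27 * B ^ 2 ≠ 0 := fun h => by
    refine (latCurve L).isUnit_Δ.ne_zero ?_
    have h' := congrArg (fun x : ℤ => (x : ℂ)) h
    push_cast at h'
    have hdC : (d : ℂ) ≠ 0 := Nat.cast_ne_zero.mpr hd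
    rw [latCurve_Δ, h2, h3]
    field_simp
    linear_combination -16 * h'
  set E : WeierstrassCurve ℚ := ⟨0, 0, 0, A / (d : ℚ) ^ 4, B / (d : ℚ) ^ 6⟩
  set W : WeierstrassCurve ℤ := ⟨0, 0, 0, A, B⟩
  have hWΔ : W.Δ = -16 * (4 * A ^ 3 + 27 * B ^ 2) := by
    simp only [W, WeierstrassCurve.Δ, b₂, b₄, b₆, b₈]
    ring
  set C : VariableChange ℚ := ⟨Units.mk0 (d : ℚ)⁻¹ (inv_ne_zero hdQ), 0, 0, 0⟩
  have hW : C • E = W.map (Int.castRingHom ℚ) := by
    ext <;> simp [C, E, W, WeierstrassCurve.variableChange_a₁, WeierstrassCurve.variableChange_a₂,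
      WeierstrassCurve.variableChange_a₃, WeierstrassCurve.variableChange_a₄,
      WeierstrassCurve.variableChange_a₆] <;> field_simp
  refine ⟨E, D * (17).factorial * (W.Δ).natAbs, ?_, ?_, ?_, fun p hp hpD => ?_⟩
  · refine ⟨isUnit_iff_ne_zero.mpr fun h => ?_⟩
    have h' : (C • E).Δ = 0 := by rw [WeierstrassCurve.variableChange_Δ, h, mul_zero]
    rw [hW, WeierstrassCurve.map_Δ, hWΔ] at h'
    simp only [Int.coe_castRingHom, Int.cast_eq_zero] at h'
    exact hΔ ((mul_eq_zero.mp h').resolve_left (by norm_num))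
  · refine mul_ne_zero (mul_ne_zero hD (Nat.factorial_ne_zero _)) (Int.natAbs_ne_zero.mpr ?_)
    rw [hWΔ]
    exact mul_ne_zero (by norm_num) hΔ
  · ext <;> simp [latCurve, E, h2, h3] <;> ring
  have hp17 : 17 < p := by
    by_contra hlt
    exact hpD (((hp.dvd_factorial.mpr (by omega)).mul_left D).mul_right _)
  have hgood : ¬ (p : ℤ) ∣ W.Δ := fun h => hpD ((Int.natCast_dvd.mp h).mul_left _)
  refine ⟨by omega, FA.Summary.hasse_LFunction E W C hW hp hgood, ?_⟩
  have := Fact.mk hp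
  rw [hcongr p fun h => hpD ((h.mul_right _).mul_right _),
    FA.Root.LFunction_apply_prime E W ⟨C, hW⟩ hp hgood, apOfModel]
  have hred : W.reductionMod p = FA.BirchMoment.shortMod (A : ZMod p) (B : ZMod p) := by
    ext <;> simp [W, reductionMod]
  rw [hred, FA.ReducedGroups.trace_cast_eq_hasseShort (by omega)]
  intro h
  refine hgood ?_
  rw [hWΔ, ← ZMod.intCast_zmod_eq_zero_iff_dvd]
  push_cast
  rw [h, mul_zero]

/-- **Eichler-Shimura**: where `a_p² ≤ 4 p` the coefficients are those of the Weil curve. -/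
theorem exists_curve_traces (hf : f.IsNormalizedEigenform) {a : ℕ → ℤ}
    (ha : ∀ n, ModularFormClass.qCoeff f n = (a n : ℂ)) {L : PeriodPair}
    (hL : IsScaledPeriods f L) :
    ∃ (E : WeierstrassCurve ℚ) (D : ℕ), E.IsElliptic ∧ D ≠ 0 ∧
      latCurve L = E.map (algebraMap ℚ ℂ) ∧
      ∀ p : ℕ, p.Prime → ¬ p ∣ D → (E.LFunction p : ZMod p) = (a p : ZMod p) ∧
        (a p ^ 2 ≤ 4 * (p : ℤ) → E.LFunction p = a p) := by
  obtain ⟨E, D, hE, hD, hmap, h⟩ := exists_curve_congr hf ha hL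
  refine ⟨E, D, hE, hD, hmap, fun p hp hpD => ?_⟩
  obtain ⟨h16, hb, hc⟩ := h p hp hpD
  exact ⟨hc, fun ha' => eq_of_congr_of_sq_le h16 hb ha' hc⟩

end FA.ModularParametrization

end
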